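import Mathlib
import Fermat.Prelude.Def_ModularCurve_HeckeOperator
import Fermat.Prelude.Sol.S_ModularForm_heckeT_slash_eq_self_of_mem_Gamma0
import Fermat.Prelude.Sol.S_ModularFormClass_isBoundedAt_heckeT
import Fermat.Prelude.Thm_ModularCurve_coeffMap_qExpand
import Fermat.Agent.S24.RepAll
import Fermat.Agent.S24.QRep

/-!
# PROJECT J (S30), slice J-4-N (d): the degeneracy map `β` on the analytic side (helper19)

`β = heckeBetaBar ℚ̄ N r : ℚ̄(X₀(N)) → ℚ̄(X₀(N r))` is the substitution `q ↦ q ^ r`, i.e.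
`f(z) ↦ f(r z)`.  On representatives by modular forms (`S24/RepHom.IsRepOf`):

* `dilMF N r A : ModularForm Γ₀(N r) k` for `A : ModularForm Γ₀(N) k`, with `⇑(dilMF N r A) = dil r A`
  (`= z ↦ A (r z)`), a scalar multiple of `A ∣[k] diag(r, 1)`;
* `isRepOf_qExpand` : if `(a, b)` represents `g ∈ ℂ((q))` at level `N` then `(dil r a, dil r b)`
  represents `qExpand ℂ r g` at level `N r`;
* **`isRepOf_beta`** : if `(a, b)` represents `toRepField N ι u` then `(dil r a, dil r b)` represents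
  `toRepField (N r) ι (β u)`;
* `isRepOf_beta_slash` : the same with `(a ∣[k] diag(r, 1), b ∣[k] diag(r, 1))` (the two differ by the
  common constant `r ^ (k - 1)`), in the `coeffMap ι` shape of `Spec.IsPhiOf`;
* `isRepOf_alpha` : the inclusion `α` does not change representatives.
-/

set_option autoImplicit false

noncomputable section

namespace Fermat.Agent.S30.Hecke.BetaAnalytic

open UpperHalfPlane CongruenceSubgroup ModularForm Matrix.SpecialLinearGroup
open scoped MatrixGroups ModularForm Manifold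
open Fermat.Agent.S20 Fermat.Agent.S24.RepHom Fermat.Agent.S24.RepAll Fermat.Agent.S23.QRing
open Fermat.Agent.S24.QRep (dil dil_eq_slash ofPowerSeries_qExpansion_dil)

variable {k : ℤ}

/-! ### `A ∣[k] diag(r, 1)` as a form of level `N r` -/

/-- `A ∣[k] diag(r, 1)` is invariant under `Γ₀(N r)` when `A` is invariant under `Γ₀(N)`. -/
theorem slash_diag_slash_Gamma0 (N r : ℕ) (hr : r ≠ 0) (A : ModularForm (G0 N) k)
    (γ : GL (Fin 2) ℝ) (hγ : γ ∈ G0 (N * r)) :
    (⇑A ∣[k] heckeDiagMatrix r) ∣[k] γ = ⇑A ∣[k] heckeDiagMatrix r := by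
  obtain ⟨g, hg, rfl⟩ := hγ
  have hg2 : g ∈ Gamma0 (N * r) := hg
  rw [Gamma0_mem] at hg2
  have hdvd : ((N * r : ℕ) : ℤ) ∣ g 1 0 := (ZMod.intCast_zmod_eq_zero_iff_dvd _ (N * r)).mp hg2
  obtain ⟨e, he⟩ := hdvd
  have he' : g 1 0 = (r : ℤ) * ((N : ℤ) * e) := by rw [he]; push_cast; ring
  obtain ⟨g', hg'10, hg'⟩ :=
    P2MW.S_ModularForm_heckeT_slash_eq_self_of_mem_Gamma0.ModularForm.HeckeSlashInvariance.heckeDiagMatrix_mul_of_eq'
      hr g ((N : ℤ) * e) he'
  have hg'mem : g' ∈ Gamma0 N := by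
    rw [Gamma0_mem, hg'10]
    push_cast
    simp
  rw [← SlashAction.slash_mul, hg', SlashAction.slash_mul]
  congr 1
  exact SlashInvariantFormClass.slash_action_eq A _ ⟨g', hg'mem, rfl⟩

/-- `A ∣[k] diag(r, 1)` as a modular form of weight `k` on `Γ₀(N r)`. -/
def dilAux (N r : ℕ) [NeZero N] [NeZero r] (A : ModularForm (G0 N) k) :
    ModularForm (G0 (N * r)) k where
  toFun := ⇑A ∣[k] heckeDiagMatrix r
  slash_action_eq' γ hγ := slash_diag_slash_Gamma0 N r (NeZero.ne r) A γ hγ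
  holo' := (ModularFormClass.holo A).slash k _
  bdd_at_cusps' {c} hc := by
    obtain ⟨g, hg⟩ :=
      P2MW.S_ModularFormClass_isBoundedAt_heckeT.ModularForm.S06W2.exists_heckeDiagMatrix_eq_map r
    have hc' : IsCusp c (G0 N) := by
      rw [Subgroup.IsArithmetic.isCusp_iff_isCusp_SL2Z] at hc ⊢
      exact hc
    have := P2MW.S_ModularFormClass_isBoundedAt_heckeT.ModularForm.S06W2.isBoundedAt_slash_ratCast
      A g hc'
    rw [← hg] at this
    exact this

/-- **Level raising** `z ↦ A (r z)` from `Γ₀(N)` to `Γ₀(N r)`. -/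
def dilMF (N r : ℕ) [NeZero N] [NeZero r] (A : ModularForm (G0 N) k) :
    ModularForm (G0 (N * r)) k :=
  ((r : ℂ) ^ (k - 1))⁻¹ • dilAux N r A

theorem dilMF_apply (N r : ℕ) [NeZero N] [NeZero r] (A : ModularForm (G0 N) k) (τ : ℍ) :
    dilMF N r A τ = A (heckeDiagMatrix r • τ) := by
  have hr0 : r ≠ 0 := NeZero.ne r
  have hrC : (r : ℂ) ^ (k - 1) ≠ 0 := zpow_ne_zero _ (by exact_mod_cast hr0)
  show (((r : ℂ) ^ (k - 1))⁻¹ • dilAux N r A) τ = _
  rw [smul_apply]
  show ((r : ℂ) ^ (k - 1))⁻¹ • (⇑A ∣[k] heckeDiagMatrix r) τ = _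
  rw [slash_heckeDiagMatrix_apply k hr0, smul_eq_mul, ← mul_assoc, inv_mul_cancel₀ hrC, one_mul]

theorem coe_dilMF (N r : ℕ) [NeZero N] [NeZero r] (A : ModularForm (G0 N) k) :
    ⇑(dilMF N r A) = dil r ⇑A := by
  ext τ
  rw [dilMF_apply]
  rfl

/-- the dilation of a form of level `N` is a form of level `N r` -/
theorem isMF_dil (N r : ℕ) [NeZero N] [NeZero r] {a : ℍ → ℂ} (ha : IsMF (G0 N) k a) :
    IsMF (G0 (N * r)) k (dil r a) := by
  obtain ⟨A, rfl⟩ := ha
  exact ⟨dilMF N r A, coe_dilMF N r A⟩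

theorem dil_ne_zero (r : ℕ) [NeZero r] {b : ℍ → ℂ} (hb : b ≠ 0) : dil r b ≠ 0 := by
  intro h
  apply hb
  have h1 : b ∣[(1 : ℤ)] heckeDiagMatrix r = 0 := by rw [← dil_eq_slash]; exact h
  have h2 : (b ∣[(1 : ℤ)] heckeDiagMatrix r) ∣[(1 : ℤ)] (heckeDiagMatrix r)⁻¹ = b := by
    rw [← SlashAction.slash_mul, mul_inv_cancel, SlashAction.slash_one]
  rw [← h2, h1, SlashAction.zero_slash]

/-! ### representatives -/

theorem isQ_qrep {N : ℕ} [NeZero N] {a : ℍ → ℂ} (ha : IsMF (G0 N) k a) :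
    Fermat.Agent.S24.QRep.IsQ a := by
  have h := isQ_of_isMF ha
  exact ⟨h.periodic, h.holo, h.bdd⟩

/-- **`q ↦ q ^ r` on representatives.** -/
theorem isRepOf_qExpand (N r : ℕ) [NeZero N] [NeZero r] {g : LaurentSeries ℂ} {a b : ℍ → ℂ}
    (h : IsRepOf N g k a b) :
    IsRepOf (N * r) (ModularCurve.qExpand ℂ r g) k (dil r a) (dil r b) where
  ha := isMF_dil N r h.ha
  hb := isMF_dil N r h.hb
  hb0 := dil_ne_zero r h.hb0
  eq := by
    show HahnSeries.ofPowerSeries ℤ ℂ (qExpansion 1 (dil r a)) =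
      ModularCurve.qExpand ℂ r g * HahnSeries.ofPowerSeries ℤ ℂ (qExpansion 1 (dil r b))
    rw [ofPowerSeries_qExpansion_dil (isQ_qrep h.ha), ofPowerSeries_qExpansion_dil (isQ_qrep h.hb),
      ← map_mul]
    congr 1
    exact h.eq

/-- rescaling both forms of a representative by the same nonzero constant -/
theorem isRepOf_smul {N : ℕ} [NeZero N] {g : LaurentSeries ℂ} {a b : ℍ → ℂ} {c : ℂ} (hc : c ≠ 0)
    (h : IsRepOf N g k a b) : IsRepOf N g k (c • a) (c • b) where
  ha := h.ha.smul c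
  hb := h.hb.smul c
  hb0 := by
    intro h0
    apply h.hb0
    funext τ
    have := congrFun h0 τ
    simpa [hc] using this
  eq := by
    rw [qx_smul c (isQ_of_isMF h.ha), qx_smul c (isQ_of_isMF h.hb), PowerSeries.smul_eq_C_mul,
      PowerSeries.smul_eq_C_mul, map_mul, map_mul, h.eq]
    ring

theorem slash_diag_eq_smul_dil (r : ℕ) [NeZero r] (a : ℍ → ℂ) :
    a ∣[k] heckeDiagMatrix r = ((r : ℂ) ^ (k - 1)) • dil r a := by
  ext τ
  rw [slash_heckeDiagMatrix_apply k (NeZero.ne r)]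
  rfl

/-- **`q ↦ q ^ r` on representatives**, slash form. -/
theorem isRepOf_qExpand_slash (N r : ℕ) [NeZero N] [NeZero r] {g : LaurentSeries ℂ} {a b : ℍ → ℂ}
    (h : IsRepOf N g k a b) :
    IsRepOf (N * r) (ModularCurve.qExpand ℂ r g) k (a ∣[k] heckeDiagMatrix r)
      (b ∣[k] heckeDiagMatrix r) := by
  rw [slash_diag_eq_smul_dil, slash_diag_eq_smul_dil]
  exact isRepOf_smul (zpow_ne_zero _ (by exact_mod_cast NeZero.ne r)) (isRepOf_qExpand N r h)

variable (N r : ℕ) [NeZero N] [NeZero r] (ι : AlgebraicClosure ℚ →+* ℂ)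

/-- **`β` on representatives**: `(β u)(z) = u(r z)`. -/
theorem isRepOf_beta (u : ModularCurve.modularFunctionFieldBar N) {a b : ℍ → ℂ}
    (h : IsRepOf N ((toRepField N ι u : repField N) : LaurentSeries ℂ) k a b) :
    IsRepOf (N * r)
      ((toRepField (N * r) ι (ModularCurve.heckeBetaBar (AlgebraicClosure ℚ) N r u) :
        repField (N * r)) : LaurentSeries ℂ) k (dil r a) (dil r b) := by
  have h1 := isRepOf_qExpand N r h
  rw [coe_toRepField] at h1
  rw [coe_toRepField, ModularCurve.coe_heckeBetaBar, ModularCurve.coeffMap_qExpand]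
  exact h1

/-- **`β` on representatives**, slash form: `β u` is represented by
`(a ∣[k] diag(r, 1), b ∣[k] diag(r, 1))`. -/
theorem isRepOf_beta_slash (u : ModularCurve.modularFunctionFieldBar N) {a b : ℍ → ℂ}
    (h : IsRepOf N (ModularCurve.coeffMap ι (u : LaurentSeries (AlgebraicClosure ℚ))) k a b) :
    IsRepOf (N * r)
      (ModularCurve.coeffMap ι
        ((ModularCurve.heckeBetaBar (AlgebraicClosure ℚ) N r u :
          ModularCurve.modularFunctionFieldBar (N * r)) : LaurentSeries (AlgebraicClosure ℚ))) k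
      (a ∣[k] heckeDiagMatrix r) (b ∣[k] heckeDiagMatrix r) := by
  rw [ModularCurve.coe_heckeBetaBar, ModularCurve.coeffMap_qExpand]
  exact isRepOf_qExpand_slash N r h

omit [NeZero N] [NeZero r] in
/-- a form of level `N` is a form of level `N r` -/
theorem isMF_mono {a : ℍ → ℂ} (ha : IsMF (G0 N) k a) : IsMF (G0 (N * r)) k a := by
  refine IsMF.mono ?_ ha
  rintro _ ⟨g, hg, rfl⟩
  refine ⟨g, ?_, rfl⟩
  have hg2 : g ∈ Gamma0 (N * r) := hg
  rw [Gamma0_mem] at hg2
  show g ∈ Gamma0 N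
  rw [Gamma0_mem]
  have hdvd : ((N * r : ℕ) : ℤ) ∣ g 1 0 := (ZMod.intCast_zmod_eq_zero_iff_dvd _ (N * r)).mp hg2
  have : (N : ℤ) ∣ g 1 0 := (Int.natCast_dvd_natCast.mpr (dvd_mul_right N r)).trans hdvd
  exact (ZMod.intCast_zmod_eq_zero_iff_dvd _ N).mpr this

/-- **`α` on representatives**: `(α u)(z) = u(z)`. -/
theorem isRepOf_alpha (u : ModularCurve.modularFunctionFieldBar N) {a b : ℍ → ℂ}
    (h : IsRepOf N ((toRepField N ι u : repField N) : LaurentSeries ℂ) k a b) :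
    IsRepOf (N * r)
      ((toRepField (N * r) ι (ModularCurve.heckeAlphaBar (AlgebraicClosure ℚ) N r u) :
        repField (N * r)) : LaurentSeries ℂ) k a b where
  ha := isMF_mono N r h.ha
  hb := isMF_mono N r h.hb
  hb0 := h.hb0
  eq := by
    rw [coe_toRepField, ModularCurve.coe_heckeAlphaBar]
    have := h.eq
    rwa [coe_toRepField] at this

end Fermat.Agent.S30.Hecke.BetaAnalytic
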