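import Mathlib

/-!
# PROJECT J (S30), slice J-4-H (H1): double-coset (transfer) operators on `Hom(Γ, A)`

Abstract setting: groups `Γ`, `G`, a homomorphism `ι : Γ →* G`, a finite set `X` of
representatives `rep : X → G` of the right cosets `ι(Γ) \ ι(Γ) α ι(Γ)`, the right action
`perm : Γ → Perm X` of `Γ` on them and the cocycle `coc : Γ → X → Γ` with

  `rep x * ι g = ι (coc g x) * rep (perm g x)`.

* `CosetData ι X` : this datum; `CosetData.ofExists` constructs it from the existence and the
  uniqueness of `x'` (for injective `ι`);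
* `heckeHom D : (Additive Γ →+ A) →+ (Additive Γ →+ A)`, `(heckeHom D φ) g = ∑ x, φ (coc g x)`
  (`A` any abelian group; `heckeLin R D` the `R`-linear version); natural in `A`;
* `heckeHomMul D : (Γ →* M) →* (Γ →* M)` the multiplicative twin, `toAdditive` compatibility;
* **`sum_smul_sub`** : if `F : Z → A` (`G` acting on `Z`) satisfies `F (ι g • z) - F z = φ g`, then
  `z ↦ ∑ x, F (rep x • z)` satisfies the same with `heckeHom D φ`; `prod_smul` the
  multiplicative twin.
-/

set_option autoImplicit false
set_option linter.unusedSectionVars false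

namespace Fermat.Agent.S30.Hecke.DoubleCoset

variable {Γ G : Type*} [Group Γ] [Group G]

/-! ### a sum over a finite set, orbit by orbit -/

section Cycle

variable {X : Type*} [Fintype X] [DecidableEq X] {A : Type*} [AddCommMonoid A]

/-- sum over a `σ`-stable finite set, orbit by orbit -/
theorem sum_eq_zero_of_orbit_sums (σ : Equiv.Perm X) (f : X → A)
    (h : ∀ (x : X) (m : ℕ), 0 < m → (σ ^ m) x = x → ∑ i ∈ Finset.range m, f ((σ ^ i) x) = 0)
    (S : Finset X) (hS : ∀ x ∈ S, σ x ∈ S) : ∑ x ∈ S, f x = 0 := by
  induction S using Finset.strongInduction with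
  | H S ih =>
    rcases S.eq_empty_or_nonempty with rfl | ⟨x0, hx0⟩
    · simp
    · -- the orbit of `x0`
      have hper : x0 ∈ Function.periodicPts σ := by
        refine Function.mk_mem_periodicPts (orderOf_pos σ) ?_
        show (⇑σ)^[orderOf σ] x0 = x0
        rw [← Equiv.Perm.coe_pow, pow_orderOf_eq_one, Equiv.Perm.coe_one, id]
      set m := Function.minimalPeriod σ x0 with hm
      have hmpos : 0 < m := Function.minimalPeriod_pos_of_mem_periodicPts hper
      have hmx : (σ ^ m) x0 = x0 := by
        have := Function.isPeriodicPt_minimalPeriod σ x0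
        rw [Equiv.Perm.coe_pow]
        exact this
      set O : Finset X := (Finset.range m).image (fun i => (σ ^ i) x0) with hO
      have hinj : Set.InjOn (fun i => (σ ^ i) x0) (Finset.range m : Set ℕ) := by
        intro i hi j hj hij
        have := Function.iterate_injOn_Iio_minimalPeriod (f := σ) (x := x0)
          (by simpa using hi) (by simpa using hj)
        apply this
        simpa [Equiv.Perm.coe_pow] using hij
      have hpowS : ∀ i : ℕ, (σ ^ i) x0 ∈ S := by
        intro i
        induction i with
        | zero => simpa using hx0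
        | succ i ihi =>
          rw [pow_succ', Equiv.Perm.mul_apply]
          exact hS _ ihi
      have hOS : O ⊆ S := by
        intro y hy
        rw [hO, Finset.mem_image] at hy
        obtain ⟨i, -, rfl⟩ := hy
        exact hpowS i
      have hOinv : ∀ y ∈ O, σ y ∈ O := by
        intro y hy
        rw [hO, Finset.mem_image] at hy ⊢
        obtain ⟨i, hi, rfl⟩ := hy
        rw [Finset.mem_range] at hi
        by_cases him : i + 1 < m
        · exact ⟨i + 1, Finset.mem_range.mpr him, by rw [pow_succ', Equiv.Perm.mul_apply]⟩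
        · have : i + 1 = m := by omega
          refine ⟨0, Finset.mem_range.mpr hmpos, ?_⟩
          rw [pow_zero, Equiv.Perm.one_apply, ← Equiv.Perm.mul_apply, ← pow_succ', this, hmx]
      have hOinv' : ∀ y, σ y ∈ O → y ∈ O := by
        -- `σ` restricted to the finite set `O` is injective, hence surjective
        intro y hy
        have hsurj : Set.SurjOn σ (O : Set X) (O : Set X) :=
          Finset.surjOn_of_injOn_of_card_le σ (fun a ha => hOinv a ha)
            (fun a _ b _ hab => σ.injective hab) le_rfl
        obtain ⟨z, hz, hzy⟩ := hsurj hy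
        rwa [← σ.injective hzy]
      have hdiff : ∀ x ∈ S \ O, σ x ∈ S \ O := by
        intro x hx
        rw [Finset.mem_sdiff] at hx ⊢
        exact ⟨hS x hx.1, fun hc => hx.2 (hOinv' x hc)⟩
      have hlt : S \ O ⊂ S := by
        refine Finset.sdiff_ssubset hOS ?_
        exact ⟨x0, Finset.mem_image.mpr ⟨0, Finset.mem_range.mpr hmpos, by simp⟩⟩
      have h1 := ih (S \ O) hlt hdiff
      have h2 : ∑ x ∈ O, f x = 0 := by
        rw [hO, Finset.sum_image hinj]
        exact h x0 m hmpos hmx
      rw [← Finset.sum_sdiff hOS, h1, h2, add_zero]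

end Cycle

/-- representatives of the right cosets of a double coset, with the right action of `Γ` on them
and the associated cocycle -/
structure CosetData (ι : Γ →* G) (X : Type*) where
  /-- the representatives -/
  rep : X → G
  /-- the right action of `Γ` on the set of cosets -/
  perm : Γ → Equiv.Perm X
  /-- the cocycle -/
  coc : Γ → X → Γ
  rel : ∀ g x, rep x * ι g = ι (coc g x) * rep (perm g x)
  perm_mul : ∀ g h x, perm (g * h) x = perm h (perm g x)
  coc_mul : ∀ g h x, coc (g * h) x = coc g x * coc h (perm g x)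

namespace CosetData

variable {ι : Γ →* G} {X : Type*} (D : CosetData ι X)

theorem perm_one (x : X) : D.perm 1 x = x := by
  have h := D.perm_mul 1 1 x
  rw [mul_one] at h
  exact ((D.perm 1).injective h).symm

theorem coc_one (x : X) : D.coc 1 x = 1 := by
  have h := D.coc_mul 1 1 x
  rw [mul_one, D.perm_one] at h
  exact (mul_eq_left.mp h.symm)

theorem perm_inv (g : Γ) (x : X) : D.perm g⁻¹ (D.perm g x) = x := by
  rw [← D.perm_mul, mul_inv_cancel, D.perm_one]

theorem perm_inv' (g : Γ) (x : X) : D.perm g (D.perm g⁻¹ x) = x := by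
  rw [← D.perm_mul, inv_mul_cancel, D.perm_one]

theorem coc_inv (g : Γ) (x : X) : D.coc g⁻¹ (D.perm g x) = (D.coc g x)⁻¹ := by
  have h := D.coc_mul g g⁻¹ x
  rw [mul_inv_cancel, D.coc_one] at h
  exact eq_inv_of_mul_eq_one_right h.symm

theorem perm_pow (g : Γ) (m : ℕ) (x : X) : D.perm (g ^ m) x = (D.perm g ^ m) x := by
  induction m with
  | zero => rw [pow_zero, pow_zero, D.perm_one, Equiv.Perm.one_apply]
  | succ m ih => rw [pow_succ, D.perm_mul, ih, pow_succ', Equiv.Perm.mul_apply]

/-- on a point fixed by `g`, the cocycle is the conjugate of `g` by the representative -/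
theorem map_coc_of_fixed {g : Γ} {x : X} (h : D.perm g x = x) :
    ι (D.coc g x) = D.rep x * ι g * (D.rep x)⁻¹ := by
  have h1 := D.rel g x
  rw [h] at h1
  rw [h1, mul_inv_cancel_right]

section Hom

variable [Fintype X] {A : Type*} [AddCommGroup A]

/-- the cocycle of a power, after an additive character -/
theorem map_coc_pow (φ : Additive Γ →+ A) (g : Γ) (m : ℕ) (x : X) :
    φ (Additive.ofMul (D.coc (g ^ m) x)) =
      ∑ i ∈ Finset.range m, φ (Additive.ofMul (D.coc g ((D.perm g ^ i) x))) := by
  induction m with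
  | zero => rw [pow_zero, D.coc_one, Finset.range_zero, Finset.sum_empty, ofMul_one, map_zero]
  | succ m ih =>
    rw [pow_succ, D.coc_mul, ofMul_mul, map_add, ih, D.perm_pow, Finset.sum_range_succ]

/-- the double-coset operator on one homomorphism -/
def heckeFun (φ : Additive Γ →+ A) : Additive Γ →+ A :=
  AddMonoidHom.mk' (fun g => ∑ x, φ (Additive.ofMul (D.coc (Additive.toMul g) x))) (by
    intro g h
    show ∑ x, φ (Additive.ofMul (D.coc (Additive.toMul g * Additive.toMul h) x)) = _
    have h1 : ∀ x, φ (Additive.ofMul (D.coc (Additive.toMul g * Additive.toMul h) x)) =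
        φ (Additive.ofMul (D.coc (Additive.toMul g) x)) +
          φ (Additive.ofMul (D.coc (Additive.toMul h) (D.perm (Additive.toMul g) x))) := by
      intro x
      rw [D.coc_mul, ofMul_mul, map_add]
    rw [Finset.sum_congr rfl fun x _ => h1 x, Finset.sum_add_distrib]
    congr 1
    exact Equiv.sum_comp (D.perm (Additive.toMul g))
      (fun y => φ (Additive.ofMul (D.coc (Additive.toMul h) y))))

theorem heckeFun_apply (φ : Additive Γ →+ A) (g : Γ) :
    D.heckeFun φ (Additive.ofMul g) = ∑ x, φ (Additive.ofMul (D.coc g x)) := rfl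

/-- **the double-coset operator** on `Hom(Γ, A)` -/
def heckeHom : (Additive Γ →+ A) →+ (Additive Γ →+ A) where
  toFun := D.heckeFun
  map_zero' := by
    refine AddMonoidHom.ext fun g => ?_
    show ∑ x, (0 : Additive Γ →+ A) _ = 0
    simp
  map_add' φ ψ := by
    refine AddMonoidHom.ext fun g => ?_
    show ∑ x, (φ + ψ) _ = ∑ x, φ _ + ∑ x, ψ _
    rw [← Finset.sum_add_distrib]
    rfl

theorem heckeHom_apply (φ : Additive Γ →+ A) (g : Γ) :
    D.heckeHom φ (Additive.ofMul g) = ∑ x, φ (Additive.ofMul (D.coc g x)) := rfl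

/-- **the cycle lemma**: `heckeHom D φ` vanishes at `g` as soon as `φ` vanishes on the cocycles
`coc (g ^ m) x` (`= rep x * g ^ m * (rep x)⁻¹`) of the powers of `g` at their fixed points -/
theorem heckeHom_apply_eq_zero [DecidableEq X] (φ : Additive Γ →+ A) (g : Γ)
    (h : ∀ (x : X) (m : ℕ), 0 < m → D.perm (g ^ m) x = x →
      φ (Additive.ofMul (D.coc (g ^ m) x)) = 0) :
    D.heckeHom φ (Additive.ofMul g) = 0 := by
  rw [heckeHom_apply]
  refine sum_eq_zero_of_orbit_sums (D.perm g) (fun x => φ (Additive.ofMul (D.coc g x))) ?_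
    Finset.univ (fun x _ => Finset.mem_univ _)
  intro x m hm hx
  rw [← D.perm_pow] at hx
  rw [← D.map_coc_pow]
  exact h x m hm hx

/-- the `R`-linear version -/
def heckeLin (R : Type*) [Semiring R] [Module R A] :
    (Additive Γ →+ A) →ₗ[R] (Additive Γ →+ A) where
  toFun := D.heckeHom
  map_add' := map_add _
  map_smul' c φ := by
    refine AddMonoidHom.ext fun g => ?_
    show ∑ x, (c • φ) _ = c • ∑ x, φ _
    rw [Finset.smul_sum]
    rfl

theorem heckeLin_apply (R : Type*) [Semiring R] [Module R A] (φ : Additive Γ →+ A) :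
    D.heckeLin R φ = D.heckeHom φ := rfl

/-- naturality in the coefficients -/
theorem comp_heckeHom {B : Type*} [AddCommGroup B] (f : A →+ B) (φ : Additive Γ →+ A) :
    f.comp (D.heckeHom φ) = D.heckeHom (f.comp φ) := by
  refine AddMonoidHom.ext fun g => ?_
  show f (∑ x, φ _) = ∑ x, f (φ _)
  rw [map_sum]

/-- **the primitive lemma**: if `F(ι g • z) - F z = φ g` then `z ↦ ∑ x, F (rep x • z)` has the
periods `heckeHom D φ` -/
theorem sum_smul_sub {Z : Type*} [MulAction G Z] (F : Z → A) (φ : Additive Γ →+ A)
    (hF : ∀ (g : Γ) (z : Z), F (ι g • z) - F z = φ (Additive.ofMul g)) (g : Γ) (z : Z) :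
    ∑ x, F (D.rep x • ι g • z) - ∑ x, F (D.rep x • z) = D.heckeHom φ (Additive.ofMul g) := by
  have h1 : ∀ x, F (D.rep x • ι g • z) =
      F (D.rep (D.perm g x) • z) + φ (Additive.ofMul (D.coc g x)) := by
    intro x
    rw [← mul_smul, D.rel, mul_smul, ← hF (D.coc g x) (D.rep (D.perm g x) • z)]
    abel
  rw [Finset.sum_congr rfl fun x _ => h1 x, Finset.sum_add_distrib,
    Equiv.sum_comp (D.perm g) (fun y => F (D.rep y • z)), add_sub_cancel_left, heckeHom_apply]

end Hom

section Mul

variable [Fintype X] {M : Type*} [CommGroup M]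

/-- the multiplicative twin of `heckeFun` -/
def heckeFunMul (ψ : Γ →* M) : Γ →* M :=
  MonoidHom.mk' (fun g => ∏ x, ψ (D.coc g x)) (by
    intro g h
    have h1 : ∀ x, ψ (D.coc (g * h) x) = ψ (D.coc g x) * ψ (D.coc h (D.perm g x)) := by
      intro x
      rw [D.coc_mul, map_mul]
    rw [Finset.prod_congr rfl fun x _ => h1 x, Finset.prod_mul_distrib]
    congr 1
    exact Equiv.prod_comp (D.perm g) (fun y => ψ (D.coc h y)))

theorem heckeFunMul_apply (ψ : Γ →* M) (g : Γ) : D.heckeFunMul ψ g = ∏ x, ψ (D.coc g x) := rfl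

/-- **the double-coset operator** on `Hom(Γ, M)`, `M` a multiplicative abelian group -/
def heckeHomMul : (Γ →* M) →* (Γ →* M) where
  toFun := D.heckeFunMul
  map_one' := by
    refine MonoidHom.ext fun g => ?_
    show ∏ x, (1 : Γ →* M) _ = 1
    simp
  map_mul' φ ψ := by
    refine MonoidHom.ext fun g => ?_
    show ∏ x, (φ * ψ) _ = (∏ x, φ _) * ∏ x, ψ _
    rw [← Finset.prod_mul_distrib]
    rfl

theorem heckeHomMul_apply (ψ : Γ →* M) (g : Γ) : D.heckeHomMul ψ g = ∏ x, ψ (D.coc g x) := rfl

/-- compatibility of the additive and the multiplicative operator -/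
theorem heckeHom_toAdditive (ψ : Γ →* M) :
    D.heckeHom (MonoidHom.toAdditive ψ) = MonoidHom.toAdditive (D.heckeHomMul ψ) := by
  refine AddMonoidHom.ext fun g => ?_
  show ∑ x, Additive.ofMul (ψ _) = Additive.ofMul (∏ x, ψ _)
  rw [ofMul_prod]
  rfl

/-- naturality in the coefficients -/
theorem comp_heckeHomMul {M' : Type*} [CommGroup M'] (f : M →* M') (ψ : Γ →* M) :
    f.comp (D.heckeHomMul ψ) = D.heckeHomMul (f.comp ψ) := by
  refine MonoidHom.ext fun g => ?_
  show f (∏ x, ψ _) = ∏ x, f (ψ _)
  rw [map_prod]

/-- **the multiplier lemma**: if `F(ι g • z) = ψ g * F z` then `z ↦ ∏ x, F (rep x • z)` has the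
multipliers `heckeHomMul D ψ` (`F` with values in any commutative monoid on which `M` acts
through a homomorphism, here: in a commutative monoid `W` with `j : M →* W`) -/
theorem prod_smul {W : Type*} [CommMonoid W] (j : M →* W) {Z : Type*} [MulAction G Z]
    (F : Z → W) (ψ : Γ →* M) (hF : ∀ (g : Γ) (z : Z), F (ι g • z) = j (ψ g) * F z) (g : Γ)
    (z : Z) :
    ∏ x, F (D.rep x • ι g • z) = j (D.heckeHomMul ψ g) * ∏ x, F (D.rep x • z) := by
  have h1 : ∀ x, F (D.rep x • ι g • z) = j (ψ (D.coc g x)) * F (D.rep (D.perm g x) • z) := by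
    intro x
    rw [← mul_smul, D.rel, mul_smul, hF]
  rw [Finset.prod_congr rfl fun x _ => h1 x, Finset.prod_mul_distrib,
    Equiv.prod_comp (D.perm g) (fun y => F (D.rep y • z)), heckeHomMul_apply, map_prod]

end Mul

end CosetData

/-! ### construction from existence and uniqueness -/

section OfExists

variable {ι : Γ →* G} {X : Type*} (hι : Function.Injective ι) (rep : X → G)
  (hex : ∀ (x : X) (g : Γ), ∃ (x' : X) (g' : Γ), rep x * ι g = ι g' * rep x')
  (huniq : ∀ (x x' : X) (g : Γ), rep x = ι g * rep x' → x = x')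

/-- the coset of `rep x * ι g` -/
noncomputable def permFun (g : Γ) (x : X) : X := (hex x g).choose

/-- the cocycle -/
noncomputable def cocFun (g : Γ) (x : X) : Γ := (hex x g).choose_spec.choose

theorem rel_fun (g : Γ) (x : X) :
    rep x * ι g = ι (cocFun rep hex g x) * rep (permFun rep hex g x) :=
  (hex x g).choose_spec.choose_spec

include hι huniq in
theorem permFun_cocFun_unique {g g' : Γ} {x x' : X} (h : rep x * ι g = ι g' * rep x') :
    permFun rep hex g x = x' ∧ cocFun rep hex g x = g' := by
  have h1 := rel_fun rep hex g x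
  rw [h] at h1
  have h2 : rep (permFun rep hex g x) = ι ((cocFun rep hex g x)⁻¹ * g') * rep x' := by
    rw [map_mul, map_inv, mul_assoc, h1, inv_mul_cancel_left]
  have h3 : permFun rep hex g x = x' := huniq _ _ _ h2
  refine ⟨h3, ?_⟩
  rw [h3] at h1
  exact (hι (mul_right_cancel h1)).symm

include hι huniq in
theorem permFun_cocFun_mul (g h : Γ) (x : X) :
    permFun rep hex (g * h) x = permFun rep hex h (permFun rep hex g x) ∧
      cocFun rep hex (g * h) x =
        cocFun rep hex g x * cocFun rep hex h (permFun rep hex g x) := by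
  apply permFun_cocFun_unique hι rep hex huniq
  rw [map_mul, ← mul_assoc, rel_fun rep hex g x, mul_assoc,
    rel_fun rep hex h (permFun rep hex g x), ← mul_assoc, ← map_mul]

include hι huniq in
theorem permFun_one (x : X) : permFun rep hex 1 x = x :=
  (permFun_cocFun_unique hι rep hex huniq (g := 1) (g' := 1) (x := x) (x' := x)
    (by rw [map_one, mul_one, one_mul])).1

/-- **coset data from existence and uniqueness of the coset of `rep x * ι g`** -/
noncomputable def CosetData.ofExists : CosetData ι X where
  rep := rep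
  perm g :=
    { toFun := permFun rep hex g
      invFun := permFun rep hex g⁻¹
      left_inv := fun x => by
        rw [← (permFun_cocFun_mul hι rep hex huniq g g⁻¹ x).1, mul_inv_cancel,
          permFun_one hι rep hex huniq]
      right_inv := fun x => by
        rw [← (permFun_cocFun_mul hι rep hex huniq g⁻¹ g x).1, inv_mul_cancel,
          permFun_one hι rep hex huniq] }
  coc := cocFun rep hex
  rel := rel_fun rep hex
  perm_mul g h x := (permFun_cocFun_mul hι rep hex huniq g h x).1
  coc_mul g h x := (permFun_cocFun_mul hι rep hex huniq g h x).2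

@[simp] theorem CosetData.ofExists_rep : (CosetData.ofExists hι rep hex huniq).rep = rep := rfl

/-- the characterisation of `perm` and `coc` of `ofExists` -/
theorem CosetData.ofExists_spec {g g' : Γ} {x x' : X} (h : rep x * ι g = ι g' * rep x') :
    (CosetData.ofExists hι rep hex huniq).perm g x = x' ∧
      (CosetData.ofExists hι rep hex huniq).coc g x = g' :=
  permFun_cocFun_unique hι rep hex huniq h

end OfExists

/-- for any coset data with injective `ι` and separated representatives, `perm` and `coc` are
determined by the relation -/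
theorem CosetData.eq_of_rel {ι : Γ →* G} {X : Type*} (D : CosetData ι X)
    (hι : Function.Injective ι)
    (huniq : ∀ (x x' : X) (g : Γ), D.rep x = ι g * D.rep x' → x = x')
    {g g' : Γ} {x x' : X} (h : D.rep x * ι g = ι g' * D.rep x') :
    D.perm g x = x' ∧ D.coc g x = g' := by
  have h1 := D.rel g x
  rw [h] at h1
  have h2 : D.rep (D.perm g x) = ι ((D.coc g x)⁻¹ * g') * D.rep x' := by
    rw [map_mul, map_inv, mul_assoc, h1, inv_mul_cancel_left]
  have h3 : D.perm g x = x' := huniq _ _ _ h2
  refine ⟨h3, ?_⟩
  rw [h3] at h1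
  exact (hι (mul_right_cancel h1)).symm

end Fermat.Agent.S30.Hecke.DoubleCoset
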