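import Mathlib
import Fermat.Agent.S30.Hecke.DoubleCoset

/-!
# PROJECT J (S30), slice J-4-H (H1b): independence of representatives, automorphisms

Complements to `S30/Hecke/DoubleCoset.lean`.

* `CosetData.heckeHom_comp_of_rel` (general transport lemma): two coset data `D`, `D'`, an
  endomorphism `c` of `Γ`, a bijection `e : X ≃ X'` and `t : X → Γ` with
  `D'.coc (c g) (e x) = t x * c (D.coc g x) * (t (D.perm g x))⁻¹` give
  `D'.heckeHom φ (c g) = D.heckeHom (φ ∘ c) g`;
* `CosetData.perm_coc_of_conj` : these two hypotheses follow (for injective `ι`, separated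
  `D'.rep`) from `κ (ι g) = ι (c g)` and `D'.rep (e x) = ι (t x) * κ (D.rep x)` for a
  homomorphism `κ : G →* G`;
* **`CosetData.heckeHom_eq_of_reps`** (independence of the representatives):
  `D'.rep (e x) = ι (t x) * D.rep x` gives `D'.heckeHom = D.heckeHom`
  (`heckeHomMul_eq_of_reps` the multiplicative twin);
* **`CosetData.heckeHom_comp_aut`** : `κ (ι g) = ι (c g)`, `κ (D.rep x) = ι (t x) * D.rep (σ x)`
  give `(D.heckeHom φ) ∘ c = D.heckeHom (φ ∘ c)` (`heckeHomMul_comp_aut` the twin);
* `CosetData.twist D e t` : the coset data with the representatives `ι (t x) * D.rep x`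
  transported along `e`; `sum_smul_reps`, `prod_smul_reps` : change of representatives in the
  sums / products `∑ x, F (rep x • z)`.
-/

set_option autoImplicit false
set_option linter.unusedSectionVars false

namespace Fermat.Agent.S30.Hecke.DoubleCoset

variable {Γ G : Type*} [Group Γ] [Group G]

namespace CosetData

variable {ι : Γ →* G} {X X' : Type*} (D : CosetData ι X) (D' : CosetData ι X')

section Transport

variable [Fintype X] [Fintype X'] {A : Type*} [AddCommGroup A]

/-- **the general transport lemma** -/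
theorem heckeHom_comp_of_rel (c : Γ →* Γ) (e : X ≃ X') (t : X → Γ)
    (hcoc : ∀ g x, D'.coc (c g) (e x) = t x * c (D.coc g x) * (t (D.perm g x))⁻¹)
    (φ : Additive Γ →+ A) (g : Γ) :
    D'.heckeHom φ (Additive.ofMul (c g)) =
      D.heckeHom (φ.comp (MonoidHom.toAdditive c)) (Additive.ofMul g) := by
  rw [heckeHom_apply, heckeHom_apply, ← Equiv.sum_comp e]
  have h1 : ∀ x, φ (Additive.ofMul (D'.coc (c g) (e x))) =
      φ (Additive.ofMul (t x)) + φ (Additive.ofMul (c (D.coc g x)))
        - φ (Additive.ofMul (t (D.perm g x))) := by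
    intro x
    rw [hcoc, ofMul_mul, ofMul_mul, ofMul_inv, map_add, map_add, map_neg]
    abel
  rw [Finset.sum_congr rfl fun x _ => h1 x, Finset.sum_sub_distrib, Finset.sum_add_distrib,
    Equiv.sum_comp (D.perm g) (fun y => φ (Additive.ofMul (t y)))]
  rw [add_sub_cancel_left]
  rfl

end Transport

/-- the relations between `perm`, `coc` of two coset data whose representatives correspond under
a homomorphism `κ` of `G` inducing `c` on `Γ`, up to left multiplication by `ι (t x)` -/
theorem perm_coc_of_conj (hι : Function.Injective ι)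
    (huniq : ∀ (x x' : X') (g : Γ), D'.rep x = ι g * D'.rep x' → x = x')
    (κ : G →* G) (c : Γ →* Γ) (hκ : ∀ g, κ (ι g) = ι (c g)) (e : X → X') (t : X → Γ)
    (hrep : ∀ x, D'.rep (e x) = ι (t x) * κ (D.rep x)) (g : Γ) (x : X) :
    D'.perm (c g) (e x) = e (D.perm g x) ∧
      D'.coc (c g) (e x) = t x * c (D.coc g x) * (t (D.perm g x))⁻¹ := by
  apply D'.eq_of_rel hι huniq
  have h1 : κ (D.rep x) * κ (ι g) = κ (ι (D.coc g x)) * κ (D.rep (D.perm g x)) := by
    rw [← map_mul, ← map_mul, D.rel]
  rw [hrep, hrep, ← hκ, mul_assoc, h1, hκ, map_mul, map_mul, map_inv]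
  simp only [mul_assoc, inv_mul_cancel_left]

section Indep

variable [Fintype X] [Fintype X'] {A : Type*} [AddCommGroup A]

/-- **independence of the representatives**: two systems of representatives of the same cosets
define the same operator on `Hom(Γ, A)` -/
theorem heckeHom_eq_of_reps (hι : Function.Injective ι)
    (huniq : ∀ (x x' : X') (g : Γ), D'.rep x = ι g * D'.rep x' → x = x')
    (e : X ≃ X') (t : X → Γ) (hrep : ∀ x, D'.rep (e x) = ι (t x) * D.rep x) :
    (D'.heckeHom : (Additive Γ →+ A) →+ (Additive Γ →+ A)) = D.heckeHom := by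
  refine AddMonoidHom.ext fun φ => AddMonoidHom.ext fun g' => ?_
  obtain ⟨g, rfl⟩ := Additive.ofMul.surjective g'
  have h := fun g x => perm_coc_of_conj D D' hι huniq (MonoidHom.id G) (MonoidHom.id Γ)
    (fun _ => rfl) e t hrep g x
  exact heckeHom_comp_of_rel D D' (MonoidHom.id Γ) e t (fun g x => (h g x).2) φ g

/-- **compatibility with an automorphism**: if `κ : G →* G` induces `c` on `Γ` and permutes the
cosets `ι(Γ) * rep x`, then the operator commutes with composition by `c` -/
theorem heckeHom_comp_aut (hι : Function.Injective ι)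
    (huniq : ∀ (x x' : X) (g : Γ), D.rep x = ι g * D.rep x' → x = x')
    (κ : G →* G) (c : Γ →* Γ) (hκ : ∀ g, κ (ι g) = ι (c g)) (σ : X ≃ X) (t : X → Γ)
    (hrep : ∀ x, κ (D.rep x) = ι (t x) * D.rep (σ x)) (φ : Additive Γ →+ A) :
    (D.heckeHom φ).comp (MonoidHom.toAdditive c) =
      D.heckeHom (φ.comp (MonoidHom.toAdditive c)) := by
  refine AddMonoidHom.ext fun g' => ?_
  obtain ⟨g, rfl⟩ := Additive.ofMul.surjective g'
  have h := fun g x => perm_coc_of_conj D D hι huniq κ c hκ σ (fun x => (t x)⁻¹)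
    (fun x => by rw [hrep, map_inv, inv_mul_cancel_left]) g x
  exact heckeHom_comp_of_rel D D c σ (fun x => (t x)⁻¹) (fun g x => (h g x).2) φ g

end Indep

section IndepMul

variable [Fintype X] [Fintype X'] {M : Type*} [CommGroup M]

/-- `heckeHomMul` in terms of `heckeHom` -/
theorem heckeHomMul_eq_toMul (ψ : Γ →* M) :
    D.heckeHomMul ψ = MonoidHom.toAdditive.symm (D.heckeHom (MonoidHom.toAdditive ψ)) := by
  rw [heckeHom_toAdditive, Equiv.symm_apply_apply]

/-- independence of the representatives, multiplicative twin -/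
theorem heckeHomMul_eq_of_reps (hι : Function.Injective ι)
    (huniq : ∀ (x x' : X') (g : Γ), D'.rep x = ι g * D'.rep x' → x = x')
    (e : X ≃ X') (t : X → Γ) (hrep : ∀ x, D'.rep (e x) = ι (t x) * D.rep x) :
    (D'.heckeHomMul : (Γ →* M) →* (Γ →* M)) = D.heckeHomMul := by
  refine MonoidHom.ext fun ψ => ?_
  rw [heckeHomMul_eq_toMul, heckeHomMul_eq_toMul, heckeHom_eq_of_reps D D' hι huniq e t hrep]

/-- compatibility with an automorphism, multiplicative twin -/
theorem heckeHomMul_comp_aut (hι : Function.Injective ι)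
    (huniq : ∀ (x x' : X) (g : Γ), D.rep x = ι g * D.rep x' → x = x')
    (κ : G →* G) (c : Γ →* Γ) (hκ : ∀ g, κ (ι g) = ι (c g)) (σ : X ≃ X) (t : X → Γ)
    (hrep : ∀ x, κ (D.rep x) = ι (t x) * D.rep (σ x)) (ψ : Γ →* M) :
    (D.heckeHomMul ψ).comp c = D.heckeHomMul (ψ.comp c) := by
  have h := heckeHom_comp_aut D hι huniq κ c hκ σ t hrep (MonoidHom.toAdditive ψ)
  refine MonoidHom.ext fun g => ?_
  have h2 := DFunLike.congr_fun h (Additive.ofMul g)
  rw [heckeHom_toAdditive] at h2
  have h3 : (MonoidHom.toAdditive ψ).comp (MonoidHom.toAdditive c) =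
      MonoidHom.toAdditive (ψ.comp c) := rfl
  rw [h3, heckeHom_toAdditive] at h2
  exact congrArg Additive.toMul h2

end IndepMul

/-! ### twisting the representatives -/

section Twist

/-- the coset data with the representatives `ι (t x) * D.rep x`, transported along `e` -/
def twist (e : X ≃ X') (t : X → Γ) : CosetData ι X' where
  rep x' := ι (t (e.symm x')) * D.rep (e.symm x')
  perm g := (e.symm.trans (D.perm g)).trans e
  coc g x' := t (e.symm x') * D.coc g (e.symm x') * (t (D.perm g (e.symm x')))⁻¹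
  rel g x' := by
    simp only [Equiv.trans_apply, Equiv.symm_apply_apply, map_mul, map_inv]
    rw [mul_assoc, D.rel]
    simp only [mul_assoc, inv_mul_cancel_left]
  perm_mul g h x' := by
    simp only [Equiv.trans_apply, Equiv.symm_apply_apply, D.perm_mul]
  coc_mul g h x' := by
    simp only [Equiv.trans_apply, Equiv.symm_apply_apply, D.perm_mul, D.coc_mul]
    simp only [mul_assoc, inv_mul_cancel_left]

@[simp] theorem twist_rep (e : X ≃ X') (t : X → Γ) (x : X) :
    (D.twist e t).rep (e x) = ι (t x) * D.rep x := by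
  simp [twist]

@[simp] theorem twist_perm (e : X ≃ X') (t : X → Γ) (g : Γ) (x : X) :
    (D.twist e t).perm g (e x) = e (D.perm g x) := by
  simp [twist]

@[simp] theorem twist_coc (e : X ≃ X') (t : X → Γ) (g : Γ) (x : X) :
    (D.twist e t).coc g (e x) = t x * D.coc g x * (t (D.perm g x))⁻¹ := by
  simp [twist]

variable [Fintype X] [Fintype X']

/-- twisting does not change the operator (no injectivity or separation needed) -/
theorem heckeHom_twist {A : Type*} [AddCommGroup A] (e : X ≃ X') (t : X → Γ) :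
    ((D.twist e t).heckeHom : (Additive Γ →+ A) →+ (Additive Γ →+ A)) = D.heckeHom := by
  refine AddMonoidHom.ext fun φ => AddMonoidHom.ext fun g' => ?_
  obtain ⟨g, rfl⟩ := Additive.ofMul.surjective g'
  exact heckeHom_comp_of_rel D (D.twist e t) (MonoidHom.id Γ) e t
    (fun g x => twist_coc D e t g x) φ g

theorem heckeHomMul_twist {M : Type*} [CommGroup M] (e : X ≃ X') (t : X → Γ) :
    ((D.twist e t).heckeHomMul : (Γ →* M) →* (Γ →* M)) = D.heckeHomMul := by
  refine MonoidHom.ext fun ψ => ?_
  rw [heckeHomMul_eq_toMul, heckeHomMul_eq_toMul, heckeHom_twist]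

/-- change of representatives in the sum `∑ x, F (rep x • z)` -/
theorem sum_smul_reps {A : Type*} [AddCommGroup A] {Z : Type*} [MulAction G Z] (F : Z → A)
    (φ : Additive Γ →+ A) (hF : ∀ (g : Γ) (z : Z), F (ι g • z) - F z = φ (Additive.ofMul g))
    (rep' : X' → G) (e : X ≃ X') (t : X → Γ) (hrep : ∀ x, rep' (e x) = ι (t x) * D.rep x)
    (z : Z) :
    ∑ x', F (rep' x' • z) = ∑ x, F (D.rep x • z) + ∑ x, φ (Additive.ofMul (t x)) := by
  rw [← Equiv.sum_comp e, ← Finset.sum_add_distrib]
  refine Finset.sum_congr rfl fun x _ => ?_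
  rw [hrep, mul_smul, ← hF (t x) (D.rep x • z)]
  abel

/-- change of representatives in the product `∏ x, F (rep x • z)` -/
theorem prod_smul_reps {M : Type*} [CommGroup M] {W : Type*} [CommMonoid W] (j : M →* W)
    {Z : Type*} [MulAction G Z] (F : Z → W) (ψ : Γ →* M)
    (hF : ∀ (g : Γ) (z : Z), F (ι g • z) = j (ψ g) * F z)
    (rep' : X' → G) (e : X ≃ X') (t : X → Γ) (hrep : ∀ x, rep' (e x) = ι (t x) * D.rep x)
    (z : Z) :
    ∏ x', F (rep' x' • z) = j (∏ x, ψ (t x)) * ∏ x, F (D.rep x • z) := by
  rw [← Equiv.prod_comp e, map_prod, ← Finset.prod_mul_distrib]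
  refine Finset.prod_congr rfl fun x _ => ?_
  rw [hrep, mul_smul, hF]

/-- **the multiplier lemma for any system of representatives of the same cosets** -/
theorem prod_smul_of_reps {M : Type*} [CommGroup M] {W : Type*} [CommMonoid W] (j : M →* W)
    {Z : Type*} [MulAction G Z] (F : Z → W) (ψ : Γ →* M)
    (hF : ∀ (g : Γ) (z : Z), F (ι g • z) = j (ψ g) * F z)
    (rep' : X' → G) (e : X ≃ X') (t : X → Γ) (hrep : ∀ x, rep' (e x) = ι (t x) * D.rep x)
    (g : Γ) (z : Z) :
    ∏ x', F (rep' x' • ι g • z) = j (D.heckeHomMul ψ g) * ∏ x', F (rep' x' • z) := by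
  rw [prod_smul_reps D j F ψ hF rep' e t hrep, prod_smul_reps D j F ψ hF rep' e t hrep,
    D.prod_smul j F ψ hF g z]
  exact mul_left_comm _ _ _

end Twist

end CosetData

end Fermat.Agent.S30.Hecke.DoubleCoset
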