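import Mathlib
import Fermat.Prelude.Def_ModularForm_HeckeOperator
import Fermat.Agent.S30.Hecke.DoubleCoset

/-!
# PROJECT J (S30), slice J-4-H (H2): the cosets of the Hecke operators `T_p`, `U_p` on `Γ₀(N)`

`G = GL₂(ℝ)`, `Γ = Γ₀(N)`, `ι = iota N : Γ₀(N) →* GL₂(ℝ)`.  The representatives are the matrices of
the prelude (`ModularForm.heckeMatrix p j = [1, j; 0, p]`, `heckeDiagMatrix p = [p, 0; 0, 1]`):

* `cosetT hp hpN : CosetData (iota N) (Option (Fin p))` for a prime `p ∤ N`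
  (`rep (some j) = heckeMatrix p j`, `rep none = heckeDiagMatrix p`);
* `cosetU hp hpN : CosetData (iota N) (Fin p)` for a prime `p ∣ N` (`rep j = heckeMatrix p j`);
* `tauT`, `tauU` : the double-coset operators on `Additive (Γ₀(N)) →+ A`.
-/

set_option autoImplicit false
set_option linter.unusedSectionVars false
set_option linter.style.haveILetI false

open CongruenceSubgroup Matrix.SpecialLinearGroup ModularForm
open scoped MatrixGroups

noncomputable section

namespace Fermat.Agent.S30.Hecke.Gamma0Cosets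

open Fermat.Agent.S30.Hecke.DoubleCoset


/-- the inclusion `Γ₀(N) → GL₂(ℝ)` -/
def iota (N : ℕ) : ↥(Gamma0 N) →* GL (Fin 2) ℝ := (mapGL ℝ).comp (Gamma0 N).subtype

theorem iota_injective (N : ℕ) : Function.Injective (iota N) := by
  intro g h hgh
  apply Subtype.ext
  exact mapGL_injective hgh

theorem iota_smul (N : ℕ) (g : Gamma0 N) (z : UpperHalfPlane) :
    iota N g • z = (g : SL(2, ℤ)) • z := rfl

theorem coe_iota (N : ℕ) (g : Gamma0 N) :
    ((iota N g : GL (Fin 2) ℝ) : Matrix (Fin 2) (Fin 2) ℝ) =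
      ((g : SL(2, ℤ)) : Matrix (Fin 2) (Fin 2) ℤ).map (Int.cast : ℤ → ℝ) := by
  show ((mapGL ℝ (g : SL(2, ℤ)) : GL (Fin 2) ℝ) : Matrix (Fin 2) (Fin 2) ℝ) = _
  rw [mapGL_coe_matrix]
  rfl


/-- solving a linear congruence modulo a prime -/
theorem exists_lt_dvd_sub {p : ℕ} (hp : p.Prime) (u w : ℤ) (hu : ¬ (p : ℤ) ∣ u) :
    ∃ j : ℕ, j < p ∧ (p : ℤ) ∣ w - u * j := by
  have : Fact p.Prime := ⟨hp⟩
  have hu' : (u : ZMod p) ≠ 0 := by
    rwa [Ne, ZMod.intCast_zmod_eq_zero_iff_dvd]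
  refine ⟨((w : ZMod p) * (u : ZMod p)⁻¹).val, ZMod.val_lt _, ?_⟩
  rw [← ZMod.intCast_zmod_eq_zero_iff_dvd]
  push_cast
  rw [ZMod.natCast_val, ZMod.cast_id', id, mul_comm (w : ZMod p), ← mul_assoc,
    mul_inv_cancel₀ hu', one_mul, sub_self]

/-- an element of `SL₂(ℤ)` from its entries -/
def mkSL (a b c d : ℤ) (hdet : a * d - b * c = 1) : SL(2, ℤ) :=
  ⟨!![a, b; c, d], by rw [Matrix.det_fin_two_of]; exact hdet⟩

/-- an element of `Γ₀(N)` from its entries -/
def mkGamma0 (N : ℕ) (a b c d : ℤ) (hdet : a * d - b * c = 1) (hc : (N : ℤ) ∣ c) : Gamma0 N :=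
  ⟨mkSL a b c d hdet, by
    rw [Gamma0_mem]
    show ((!![a, b; c, d] 1 0 : ℤ) : ZMod N) = 0
    rw [ZMod.intCast_zmod_eq_zero_iff_dvd]
    simpa using hc⟩

theorem coe_mkGamma0 (N : ℕ) (a b c d : ℤ) (hdet : a * d - b * c = 1) (hc : (N : ℤ) ∣ c) :
    (((mkGamma0 N a b c d hdet hc : Gamma0 N) : SL(2, ℤ)) : Matrix (Fin 2) (Fin 2) ℤ) =
      !![a, b; c, d] := rfl

/-- the entries of an element of `Γ₀(N)` -/
theorem coe_eq_of (N : ℕ) (g : Gamma0 N) :
    ((g : SL(2, ℤ)) : Matrix (Fin 2) (Fin 2) ℤ) =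
      !![(g : SL(2, ℤ)) 0 0, (g : SL(2, ℤ)) 0 1; (g : SL(2, ℤ)) 1 0, (g : SL(2, ℤ)) 1 1] :=
  Matrix.eta_fin_two _

theorem det_entries (N : ℕ) (g : Gamma0 N) :
    (g : SL(2, ℤ)) 0 0 * (g : SL(2, ℤ)) 1 1 - (g : SL(2, ℤ)) 0 1 * (g : SL(2, ℤ)) 1 0 = 1 := by
  have h := (g : SL(2, ℤ)).det_coe
  rwa [Matrix.det_fin_two] at h

theorem dvd_entry (N : ℕ) (g : Gamma0 N) : (N : ℤ) ∣ (g : SL(2, ℤ)) 1 0 := by
  have h := Gamma0_mem.mp g.2
  rwa [ZMod.intCast_zmod_eq_zero_iff_dvd] at h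

/-- the integral representatives: `some j ↦ [1, j; 0, p]`, `none ↦ [p, 0; 0, 1]` -/
def repZ (p : ℕ) : Option (Fin p) → Matrix (Fin 2) (Fin 2) ℤ
  | some j => !![1, ((j : ℕ) : ℤ); 0, (p : ℤ)]
  | none => !![(p : ℤ), 0; 0, 1]

theorem of_eq {R : Type*} {a b c d a' b' c' d' : R} (h1 : a = a') (h2 : b = b') (h3 : c = c')
    (h4 : d = d') : !![a, b; c, d] = !![a', b'; c', d'] := by
  subst h1 h2 h3 h4; rfl

theorem dvd_of_dvd_mul_prime {N p : ℕ} (hp : p.Prime) (hpN : ¬ p ∣ N) {c' : ℤ}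
    (h : (N : ℤ) ∣ (p : ℤ) * c') : (N : ℤ) ∣ c' := by
  have hcop : IsCoprime (N : ℤ) (p : ℤ) := by
    rw [Int.isCoprime_iff_gcd_eq_one, Int.gcd_natCast_natCast]
    exact (Nat.Coprime.symm ((Nat.Prime.coprime_iff_not_dvd hp).mpr hpN))
  exact hcop.dvd_of_dvd_mul_left h

/-- **existence of the coset of `rep x * g`** (`p ∤ N`), over `ℤ` -/
theorem exists_rel_T {N p : ℕ} (hp : p.Prime) (hpN : ¬ p ∣ N) (x : Option (Fin p))
    (g : Gamma0 N) :
    ∃ (x' : Option (Fin p)) (g' : Gamma0 N),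
      repZ p x * ((g : SL(2, ℤ)) : Matrix (Fin 2) (Fin 2) ℤ) =
        ((g' : SL(2, ℤ)) : Matrix (Fin 2) (Fin 2) ℤ) * repZ p x' := by
  have hdet := det_entries N g
  have hc := dvd_entry N g
  rw [coe_eq_of N g]
  generalize (g : SL(2, ℤ)) 0 0 = a at *
  generalize (g : SL(2, ℤ)) 0 1 = b at *
  generalize (g : SL(2, ℤ)) 1 0 = c at *
  generalize (g : SL(2, ℤ)) 1 1 = d at *
  rcases x with _ | j
  · -- `x = none`
    by_cases hpc : (p : ℤ) ∣ c
    · obtain ⟨c', hc'⟩ := hpc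
      have hNc' : (N : ℤ) ∣ c' := dvd_of_dvd_mul_prime hp hpN (hc' ▸ hc)
      refine ⟨none, mkGamma0 N a (p * b) c' d (by rw [← hdet, hc']; ring) hNc', ?_⟩
      rw [coe_mkGamma0]
      simp only [repZ, Matrix.mul_fin_two]
      exact of_eq (by ring) (by ring) (by linear_combination hc') (by ring)
    · obtain ⟨j', hj', ⟨d', hd'⟩⟩ := exists_lt_dvd_sub hp c d hpc
      refine ⟨some ⟨j', hj'⟩, mkGamma0 N (p * a) (b - a * j') c d'
        (by
          have : (p : ℤ) * d' = d - c * j' := hd'.symm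
          rw [← hdet]
          linear_combination a * this) hc, ?_⟩
      rw [coe_mkGamma0]
      simp only [repZ, Matrix.mul_fin_two]
      exact of_eq (by ring) (by ring) (by ring) (by linear_combination hd')
  · -- `x = some j`
    by_cases hpu : (p : ℤ) ∣ a + (j : ℕ) * c
    · obtain ⟨a', ha'⟩ := hpu
      refine ⟨none, mkGamma0 N a' (b + (j : ℕ) * d) c (p * d)
        (by rw [← hdet]; linear_combination d * ha'.symm) hc, ?_⟩
      rw [coe_mkGamma0]
      simp only [repZ, Matrix.mul_fin_two]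
      exact of_eq (by linear_combination ha') (by ring) (by ring) (by ring)
    · obtain ⟨j', hj', ⟨b', hb'⟩⟩ :=
        exists_lt_dvd_sub hp (a + (j : ℕ) * c) (b + (j : ℕ) * d) hpu
      refine ⟨some ⟨j', hj'⟩, mkGamma0 N (a + (j : ℕ) * c) b' (p * c) (d - c * j')
        (by rw [← hdet]; linear_combination (-c) * hb'.symm)
        (Dvd.dvd.mul_left hc _), ?_⟩
      rw [coe_mkGamma0]
      simp only [repZ, Matrix.mul_fin_two]
      exact of_eq (by ring) (by linear_combination hb') (by ring) (by ring)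

/-- uniqueness of the coset, over `ℤ` (for any integral matrix `M`) -/
theorem repZ_unique {p : ℕ} (hp : 1 < p) (x x' : Option (Fin p)) (M : Matrix (Fin 2) (Fin 2) ℤ)
    (h : repZ p x = M * repZ p x') : x = x' := by
  rw [Matrix.eta_fin_two M] at h
  generalize M 0 0 = a at h
  generalize M 0 1 = b at h
  generalize M 1 0 = c at h
  generalize M 1 1 = d at h
  have hp' : ¬ (p : ℤ) ∣ 1 := by
    intro hd
    have := Int.eq_one_of_dvd_one (by positivity) hd
    omega
  rcases x with _ | j <;> rcases x' with _ | j'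
  · rfl
  · exfalso
    simp only [repZ, Matrix.mul_fin_two] at h
    have h10 := congrFun (congrFun h 1) 0
    have h11 := congrFun (congrFun h 1) 1
    simp at h10 h11
    rw [← h10] at h11
    exact hp' ⟨d, by linear_combination h11⟩
  · exfalso
    simp only [repZ, Matrix.mul_fin_two] at h
    have h00 := congrFun (congrFun h 0) 0
    simp at h00
    exact hp' ⟨a, by linear_combination h00⟩
  · simp only [repZ, Matrix.mul_fin_two] at h
    have h00 := congrFun (congrFun h 0) 0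
    have h01 := congrFun (congrFun h 0) 1
    simp at h00 h01
    rw [← h00] at h01
    have hdvd : (p : ℤ) ∣ ((j : ℕ) : ℤ) - ((j' : ℕ) : ℤ) := ⟨b, by linear_combination h01⟩
    have hj := j.2
    have hj' := j'.2
    have : ((j : ℕ) : ℤ) = ((j' : ℕ) : ℤ) := by
      have h1 := Int.emod_emod_of_dvd ((j : ℕ) : ℤ) (dvd_refl (p : ℤ))
      have := (Int.emod_eq_emod_iff_emod_sub_eq_zero).mpr (Int.emod_eq_zero_of_dvd hdvd)
      rwa [Int.emod_eq_of_lt (by positivity) (by exact_mod_cast hj),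
        Int.emod_eq_of_lt (by positivity) (by exact_mod_cast hj')] at this
    congr 1
    exact Fin.ext (by exact_mod_cast this)

/-- **existence of the coset of `rep j * g`** (`p ∣ N`), over `ℤ` -/
theorem exists_rel_U {N p : ℕ} (hp : p.Prime) (hpN : p ∣ N) (j : Fin p) (g : Gamma0 N) :
    ∃ (j' : Fin p) (g' : Gamma0 N),
      repZ p (some j) * ((g : SL(2, ℤ)) : Matrix (Fin 2) (Fin 2) ℤ) =
        ((g' : SL(2, ℤ)) : Matrix (Fin 2) (Fin 2) ℤ) * repZ p (some j') := by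
  have hdet := det_entries N g
  have hc := dvd_entry N g
  rw [coe_eq_of N g]
  generalize (g : SL(2, ℤ)) 0 0 = a at *
  generalize (g : SL(2, ℤ)) 0 1 = b at *
  generalize (g : SL(2, ℤ)) 1 0 = c at *
  generalize (g : SL(2, ℤ)) 1 1 = d at *
  have hpc : (p : ℤ) ∣ c := dvd_trans (by exact_mod_cast hpN) hc
  have hpu : ¬ (p : ℤ) ∣ a + (j : ℕ) * c := by
    intro hd
    have hpa : (p : ℤ) ∣ a := by
      have := dvd_sub hd (Dvd.dvd.mul_left hpc ((j : ℕ) : ℤ))
      rwa [add_sub_cancel_right] at this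
    have h1 : (p : ℤ) ∣ 1 := by
      rw [← hdet]
      exact dvd_sub (Dvd.dvd.mul_right hpa d) (Dvd.dvd.mul_left hpc b)
    have := Int.eq_one_of_dvd_one (by positivity) h1
    have := hp.one_lt
    omega
  obtain ⟨j', hj', ⟨b', hb'⟩⟩ :=
    exists_lt_dvd_sub hp (a + (j : ℕ) * c) (b + (j : ℕ) * d) hpu
  refine ⟨⟨j', hj'⟩, mkGamma0 N (a + (j : ℕ) * c) b' (p * c) (d - c * j')
    (by rw [← hdet]; linear_combination (-c) * hb'.symm)
    (Dvd.dvd.mul_left hc _), ?_⟩
  rw [coe_mkGamma0]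
  simp only [repZ, Matrix.mul_fin_two]
  exact of_eq (by ring) (by linear_combination hb') (by ring) (by ring)

/-! ### the representatives in `GL₂(ℝ)` -/

/-- the representatives of `T_p` : the matrices of the prelude -/
def repT (p : ℕ) : Option (Fin p) → GL (Fin 2) ℝ
  | some j => heckeMatrix p j
  | none => heckeDiagMatrix p

theorem coe_repT {p : ℕ} (hp : p ≠ 0) (x : Option (Fin p)) :
    ((repT p x : GL (Fin 2) ℝ) : Matrix (Fin 2) (Fin 2) ℝ) =
      (repZ p x).map (Int.castRingHom ℝ) := by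
  rcases x with _ | j
  · show ((heckeDiagMatrix p : GL (Fin 2) ℝ) : Matrix (Fin 2) (Fin 2) ℝ) = _
    rw [val_heckeDiagMatrix hp]
    ext i k
    fin_cases i <;> fin_cases k <;> simp [repZ]
  · show ((heckeMatrix p j : GL (Fin 2) ℝ) : Matrix (Fin 2) (Fin 2) ℝ) = _
    rw [val_heckeMatrix hp]
    ext i k
    fin_cases i <;> fin_cases k <;> simp [repZ]

theorem coe_iota' (N : ℕ) (g : Gamma0 N) :
    ((iota N g : GL (Fin 2) ℝ) : Matrix (Fin 2) (Fin 2) ℝ) =
      ((g : SL(2, ℤ)) : Matrix (Fin 2) (Fin 2) ℤ).map (Int.castRingHom ℝ) := coe_iota N g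

/-- from the integral relation to the relation in `GL₂(ℝ)` -/
theorem rel_of_relZ {N p : ℕ} (hp : p ≠ 0) {x x' : Option (Fin p)} {g g' : Gamma0 N}
    (h : repZ p x * ((g : SL(2, ℤ)) : Matrix (Fin 2) (Fin 2) ℤ) =
      ((g' : SL(2, ℤ)) : Matrix (Fin 2) (Fin 2) ℤ) * repZ p x') :
    repT p x * iota N g = iota N g' * repT p x' := by
  apply Units.ext
  rw [Units.val_mul, Units.val_mul, coe_repT hp, coe_repT hp, coe_iota', coe_iota',
    ← Matrix.map_mul, ← Matrix.map_mul, h]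

/-- from the relation in `GL₂(ℝ)` to the integral relation -/
theorem relZ_of_rel {N p : ℕ} (hp : p ≠ 0) {x x' : Option (Fin p)} {g : Gamma0 N}
    (h : repT p x = iota N g * repT p x') :
    repZ p x = ((g : SL(2, ℤ)) : Matrix (Fin 2) (Fin 2) ℤ) * repZ p x' := by
  have h1 := congrArg (fun u : GL (Fin 2) ℝ => (u : Matrix (Fin 2) (Fin 2) ℝ)) h
  simp only [Units.val_mul] at h1
  rw [coe_repT hp, coe_repT hp, coe_iota', ← Matrix.map_mul] at h1
  exact Matrix.map_injective (Int.cast_injective (α := ℝ)) h1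

/-! ### the coset data -/

variable {N p : ℕ}

/-- **the coset data of `T_p`, `p ∤ N`** -/
def cosetT (hp : p.Prime) (hpN : ¬ p ∣ N) : CosetData (iota N) (Option (Fin p)) :=
  CosetData.ofExists (iota_injective N) (repT p)
    (fun x g => by
      obtain ⟨x', g', h⟩ := exists_rel_T hp hpN x g
      exact ⟨x', g', rel_of_relZ hp.ne_zero h⟩)
    (fun x x' g h => repZ_unique hp.one_lt x x' _ (relZ_of_rel hp.ne_zero h))

@[simp] theorem cosetT_rep (hp : p.Prime) (hpN : ¬ p ∣ N) : (cosetT hp hpN).rep = repT p := rfl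

/-- **the coset data of `U_p`, `p ∣ N`** -/
def cosetU (hp : p.Prime) (hpN : p ∣ N) : CosetData (iota N) (Fin p) :=
  CosetData.ofExists (iota_injective N) (fun j => repT p (some j))
    (fun j g => by
      obtain ⟨j', g', h⟩ := exists_rel_U hp hpN j g
      exact ⟨j', g', rel_of_relZ hp.ne_zero h⟩)
    (fun j j' g h => Option.some_injective _
      (repZ_unique hp.one_lt (some j) (some j') _ (relZ_of_rel hp.ne_zero h)))

@[simp] theorem cosetU_rep (hp : p.Prime) (hpN : p ∣ N) (j : Fin p) :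
    (cosetU hp hpN).rep j = heckeMatrix p j := rfl

theorem cosetT_rep_some (hp : p.Prime) (hpN : ¬ p ∣ N) (j : Fin p) :
    (cosetT hp hpN).rep (some j) = heckeMatrix p j := rfl

theorem cosetT_rep_none (hp : p.Prime) (hpN : ¬ p ∣ N) :
    (cosetT hp hpN).rep none = heckeDiagMatrix p := rfl

/-- the representatives are separated (`T_p`) -/
theorem cosetT_sep (hp : p.Prime) (hpN : ¬ p ∣ N) (x x' : Option (Fin p)) (g : Gamma0 N)
    (h : (cosetT hp hpN).rep x = iota N g * (cosetT hp hpN).rep x') : x = x' :=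
  repZ_unique hp.one_lt x x' _ (relZ_of_rel hp.ne_zero h)

/-- the representatives are separated (`U_p`) -/
theorem cosetU_sep (hp : p.Prime) (hpN : p ∣ N) (j j' : Fin p) (g : Gamma0 N)
    (h : (cosetU hp hpN).rep j = iota N g * (cosetU hp hpN).rep j') : j = j' :=
  Option.some_injective _
    (repZ_unique hp.one_lt (some j) (some j') _ (relZ_of_rel hp.ne_zero h))

/-! ### the operators -/

variable {A : Type*} [AddCommGroup A]

/-- **`τ_p` for `p ∤ N`** on `Hom(Γ₀(N), A)` -/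
def tauT (hp : p.Prime) (hpN : ¬ p ∣ N) :
    (Additive (Gamma0 N) →+ A) →+ (Additive (Gamma0 N) →+ A) :=
  (cosetT hp hpN).heckeHom

/-- **`τ_p` for `p ∣ N`** on `Hom(Γ₀(N), A)` -/
def tauU (hp : p.Prime) (hpN : p ∣ N) :
    (Additive (Gamma0 N) →+ A) →+ (Additive (Gamma0 N) →+ A) :=
  (cosetU hp hpN).heckeHom

/-- `τ_r` for every prime `r` -/
def tauAll (N : ℕ) (r : ℕ) (hr : r.Prime) :
    (Additive (Gamma0 N) →+ A) →+ (Additive (Gamma0 N) →+ A) :=
  if h : r ∣ N then tauU hr h else tauT hr h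

end Fermat.Agent.S30.Hecke.Gamma0Cosets
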