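import Mathlib
import Fermat.Prelude.Def_ModularForm_HeckeOperatorForms
import Fermat.Agent.S21.Primitive
import Fermat.Agent.S30.Hecke.Gamma0Cosets

/-!
# PROJECT J (S30), slice J-4-H (H3): the period map is Hecke-equivariant

For `f ∈ S₂(Γ₀(N))` with canonical primitive `primH f` (`S21/Primitive`):

* `primH_heckeT`, `primH_heckeU` : `primH (T_p f) z = ∑ x, primH f (rep x • z)` over the
  representatives of `Gamma0Cosets.cosetT` (resp. `cosetU`);
* **`periodMap_heckeT`, `periodMap_heckeU`** :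
  `periodMap N (T_p f) = tauT hp hpN (periodMap N f)` (resp. `U_p`, `tauU`).
-/

set_option autoImplicit false
set_option linter.unusedSectionVars false

open UpperHalfPlane CongruenceSubgroup Filter Topology ModularCurve ModularCurve.Period ModularForm
open scoped MatrixGroups

noncomputable section

namespace Fermat.Agent.S30.Hecke.PeriodEquivariance

open Fermat.Agent.S30.Hecke.DoubleCoset Fermat.Agent.S30.Hecke.Gamma0Cosets
  Fermat.Agent.S21.Primitive Fermat.Agent.S22.Primitive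

variable {N : ℕ}

/-- a primitive of `f` on `ℍ` tending to `0` at `i∞` is the canonical one -/
theorem eq_primH_of_hasDerivAt {f : CuspForm (Gamma0 N) 2} {G : ℍ → ℂ}
    (hd : ∀ τ : ℍ, HasDerivAt (G ∘ ofComplex) (f τ) (τ : ℂ))
    (hlim : Tendsto G atImInfty (𝓝 0)) : G = primH f := by
  obtain ⟨C, hC⟩ := exists_const_of_hasDerivAt (φ := ⇑f ∘ ofComplex)
    (F := G ∘ ofComplex) (F' := primH f ∘ ofComplex)
    (fun z hz => by
      have := hd ⟨z, hz⟩
      simpa [ofComplex_apply_of_im_pos hz] using this)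
    (fun z hz => by
      have := hasDerivAt_primH f ⟨z, hz⟩
      simpa [ofComplex_apply_of_im_pos hz] using this)
  have hC' : ∀ z : ℍ, G z - primH f z = C := fun z => by
    have := hC (z : ℂ) z.im_pos
    simpa using this
  have h1 : Tendsto (fun z : ℍ => G z - primH f z) atImInfty (𝓝 (0 - 0)) :=
    hlim.sub (tendsto_primH f)
  rw [sub_zero] at h1
  have h2 : Tendsto (fun z : ℍ => G z - primH f z) atImInfty (𝓝 C) :=
    tendsto_const_nhds.congr fun z => (hC' z).symm
  have hC0 : C = 0 := tendsto_nhds_unique h2 h1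
  funext z
  have := hC' z
  rw [hC0, sub_eq_zero] at this
  exact this

/-! ### the primitive along the representatives -/

section Reps

variable {p : ℕ} (hp : p ≠ 0) (f : CuspForm (Gamma0 N) 2)

include hp in
theorem hasDerivAt_primH_heckeMatrix (j : ℕ) (τ : ℍ) :
    HasDerivAt (fun z : ℂ => (primH f ∘ ofComplex) ((z + (j : ℂ)) / (p : ℂ)))
      (f (heckeMatrix p j • τ) * (p : ℂ)⁻¹) (τ : ℂ) := by
  have hin : HasDerivAt (fun z : ℂ => (z + (j : ℂ)) / (p : ℂ)) ((p : ℂ)⁻¹) (τ : ℂ) := by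
    have := ((hasDerivAt_id (τ : ℂ)).add_const (j : ℂ)).div_const (p : ℂ)
    simpa [one_div] using this
  have hout : HasDerivAt (primH f ∘ ofComplex) (f (heckeMatrix p j • τ))
      ((fun z : ℂ => (z + (j : ℂ)) / (p : ℂ)) (τ : ℂ)) := by
    have := hasDerivAt_primH f (heckeMatrix p j • τ)
    rw [coe_heckeMatrix_smul hp] at this
    exact this
  exact HasDerivAt.comp (h₂ := primH f ∘ ofComplex) (τ : ℂ) hout hin

include hp in
theorem hasDerivAt_primH_heckeDiagMatrix (τ : ℍ) :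
    HasDerivAt (fun z : ℂ => (primH f ∘ ofComplex) ((p : ℂ) * z))
      (f (heckeDiagMatrix p • τ) * (p : ℂ)) (τ : ℂ) := by
  have hin : HasDerivAt (fun z : ℂ => (p : ℂ) * z) (p : ℂ) (τ : ℂ) := by
    have := (hasDerivAt_id (τ : ℂ)).const_mul (p : ℂ)
    simpa using this
  have hout : HasDerivAt (primH f ∘ ofComplex) (f (heckeDiagMatrix p • τ))
      ((fun z : ℂ => (p : ℂ) * z) (τ : ℂ)) := by
    have := hasDerivAt_primH f (heckeDiagMatrix p • τ)
    rw [coe_heckeDiagMatrix_smul hp] at this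
    exact this
  exact HasDerivAt.comp (h₂ := primH f ∘ ofComplex) (τ : ℂ) hout hin

include hp in
theorem primH_heckeMatrix_smul (j : ℕ) {z : ℂ} (hz : 0 < z.im) :
    primH f (heckeMatrix p j • ofComplex z) = (primH f ∘ ofComplex) ((z + (j : ℂ)) / (p : ℂ)) := by
  have h1 := coe_heckeMatrix_smul hp j (ofComplex z)
  rw [ofComplex_apply_of_im_pos hz] at h1 ⊢
  rw [Function.comp_apply]
  have h2 : (z + (j : ℂ)) / (p : ℂ) = ((heckeMatrix p j • (⟨z, hz⟩ : ℍ) : ℍ) : ℂ) := h1.symm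
  rw [h2, ofComplex_apply]

include hp in
theorem primH_heckeDiagMatrix_smul {z : ℂ} (hz : 0 < z.im) :
    primH f (heckeDiagMatrix p • ofComplex z) = (primH f ∘ ofComplex) ((p : ℂ) * z) := by
  have h1 := coe_heckeDiagMatrix_smul hp (ofComplex z)
  rw [ofComplex_apply_of_im_pos hz] at h1 ⊢
  rw [Function.comp_apply]
  have h2 : (p : ℂ) * z = ((heckeDiagMatrix p • (⟨z, hz⟩ : ℍ) : ℍ) : ℂ) := h1.symm
  rw [h2, ofComplex_apply]

include hp in
theorem tendsto_heckeMatrix_smul (j : ℕ) :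
    Tendsto (fun z : ℍ => heckeMatrix p j • z) atImInfty atImInfty := by
  rw [atImInfty, tendsto_comap_iff]
  have h1 : (UpperHalfPlane.im ∘ fun z : ℍ => heckeMatrix p j • z) =
      fun z : ℍ => z.im / (p : ℝ) := by
    funext z
    have h2 := congrArg Complex.im (coe_heckeMatrix_smul hp j z)
    rw [Function.comp_apply]
    show ((heckeMatrix p j • z : ℍ) : ℂ).im = _
    rw [h2]
    have : ((z : ℂ) + (j : ℂ)) / (p : ℂ) = (((z : ℂ) + ((j : ℝ) : ℂ)) / ((p : ℝ) : ℂ)) := by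
      push_cast; rfl
    rw [this, Complex.div_ofReal_im]
    simp
  rw [h1]
  have hp' : (0 : ℝ) < (p : ℝ) := by exact_mod_cast Nat.pos_of_ne_zero hp
  exact Tendsto.atTop_div_const hp' tendsto_comap

include hp in
theorem tendsto_heckeDiagMatrix_smul :
    Tendsto (fun z : ℍ => heckeDiagMatrix p • z) atImInfty atImInfty := by
  rw [atImInfty, tendsto_comap_iff]
  have h1 : (UpperHalfPlane.im ∘ fun z : ℍ => heckeDiagMatrix p • z) =
      fun z : ℍ => (p : ℝ) * z.im := by
    funext z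
    have h2 := congrArg Complex.im (coe_heckeDiagMatrix_smul hp z)
    rw [Function.comp_apply]
    show ((heckeDiagMatrix p • z : ℍ) : ℂ).im = _
    rw [h2]
    have : (p : ℂ) * (z : ℂ) = ((p : ℝ) : ℂ) * (z : ℂ) := by push_cast; rfl
    rw [this, Complex.im_ofReal_mul]
    rfl
  rw [h1]
  have hp' : (0 : ℝ) < (p : ℝ) := by exact_mod_cast Nat.pos_of_ne_zero hp
  exact Tendsto.const_mul_atTop hp' tendsto_comap

end Reps

/-! ### the primitive of `T_p f` and `U_p f` -/

section Hecke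

variable {p : ℕ}

/-- the candidate primitive of `U_p f` -/
def sumU (p : ℕ) (f : CuspForm (Gamma0 N) 2) (z : ℍ) : ℂ :=
  ∑ j : Fin p, primH f (heckeMatrix p j • z)

/-- the candidate primitive of `T_p f` -/
def sumT (p : ℕ) (f : CuspForm (Gamma0 N) 2) (z : ℍ) : ℂ :=
  sumU p f z + primH f (heckeDiagMatrix p • z)

theorem hasDerivAt_sumU (hp : p ≠ 0) (f : CuspForm (Gamma0 N) 2) (τ : ℍ) :
    HasDerivAt (sumU p f ∘ ofComplex) (heckeU 2 p ⇑f τ) (τ : ℂ) := by
  have h1 : HasDerivAt (fun z : ℂ => ∑ j : Fin p, (primH f ∘ ofComplex) ((z + ((j : ℕ) : ℂ)) / (p : ℂ)))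
      (∑ j : Fin p, f (heckeMatrix p j • τ) * (p : ℂ)⁻¹) (τ : ℂ) :=
    HasDerivAt.fun_sum fun j _ => hasDerivAt_primH_heckeMatrix hp f j τ
  have h2 : heckeU 2 p ⇑f τ = ∑ j : Fin p, f (heckeMatrix p j • τ) * (p : ℂ)⁻¹ := by
    rw [heckeU_apply 2 hp, Finset.mul_sum,
      ← Fin.sum_univ_eq_sum_range (fun j => (p : ℂ)⁻¹ * f (heckeMatrix p j • τ))]
    exact Finset.sum_congr rfl fun j _ => mul_comm _ _
  rw [h2]
  refine h1.congr_of_eventuallyEq ?_
  filter_upwards [(Complex.continuous_im.isOpen_preimage _ isOpen_Ioi).mem_nhds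
    (show (τ : ℂ) ∈ Complex.im ⁻¹' Set.Ioi 0 from τ.im_pos)] with z hz
  rw [Function.comp_apply, sumU]
  exact Finset.sum_congr rfl fun j _ => primH_heckeMatrix_smul hp f j hz

theorem hasDerivAt_sumT (hp : p ≠ 0) (f : CuspForm (Gamma0 N) 2) (τ : ℍ) :
    HasDerivAt (sumT p f ∘ ofComplex) (heckeT 2 p ⇑f τ) (τ : ℂ) := by
  have h1 : HasDerivAt (fun z : ℂ => (sumU p f ∘ ofComplex) z +
      (primH f ∘ ofComplex) ((p : ℂ) * z))
      (heckeU 2 p ⇑f τ + f (heckeDiagMatrix p • τ) * (p : ℂ)) (τ : ℂ) :=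
    (hasDerivAt_sumU hp f τ).add (hasDerivAt_primH_heckeDiagMatrix hp f τ)
  have h2 : heckeT 2 p ⇑f τ = heckeU 2 p ⇑f τ + f (heckeDiagMatrix p • τ) * (p : ℂ) := by
    rw [heckeT_apply 2 hp, heckeU_apply 2 hp]
    norm_num
    exact mul_comm _ _
  rw [h2]
  refine h1.congr_of_eventuallyEq ?_
  filter_upwards [(Complex.continuous_im.isOpen_preimage _ isOpen_Ioi).mem_nhds
    (show (τ : ℂ) ∈ Complex.im ⁻¹' Set.Ioi 0 from τ.im_pos)] with z hz
  rw [Function.comp_apply, sumT, primH_heckeDiagMatrix_smul hp f hz]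
  rfl

theorem tendsto_sumU (hp : p ≠ 0) (f : CuspForm (Gamma0 N) 2) :
    Tendsto (sumU p f) atImInfty (𝓝 0) := by
  have h1 : Tendsto (fun z : ℍ => ∑ j : Fin p, primH f (heckeMatrix p j • z)) atImInfty
      (𝓝 (∑ _j : Fin p, (0 : ℂ))) :=
    tendsto_finsetSum _ fun j _ => (tendsto_primH f).comp (tendsto_heckeMatrix_smul hp j)
  rw [Finset.sum_const_zero] at h1
  exact h1

theorem tendsto_sumT (hp : p ≠ 0) (f : CuspForm (Gamma0 N) 2) :
    Tendsto (sumT p f) atImInfty (𝓝 0) := by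
  have h1 : Tendsto (fun z : ℍ => sumU p f z + primH f (heckeDiagMatrix p • z)) atImInfty
      (𝓝 (0 + 0)) :=
    (tendsto_sumU hp f).add ((tendsto_primH f).comp (tendsto_heckeDiagMatrix_smul hp))
  rw [add_zero] at h1
  exact h1

/-- **the primitive of `T_p f`** -/
theorem primH_heckeT (hp : p.Prime) (hpN : ¬ p ∣ N) (f : CuspForm (Gamma0 N) 2) (z : ℍ) :
    primH (CuspForm.heckeTLin 2 hp hpN f) z = ∑ x, primH f ((cosetT hp hpN).rep x • z) := by
  have h1 : sumT p f = primH (CuspForm.heckeTLin 2 hp hpN f) :=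
    eq_primH_of_hasDerivAt (f := CuspForm.heckeTLin 2 hp hpN f)
      (fun τ => hasDerivAt_sumT hp.ne_zero f τ) (tendsto_sumT hp.ne_zero f)
  rw [← h1, Fintype.sum_option, sumT, sumU, add_comm]
  rfl

/-- **the primitive of `U_p f`** -/
theorem primH_heckeU [NeZero N] (hp : p.Prime) (hpN : p ∣ N) (f : CuspForm (Gamma0 N) 2) (z : ℍ) :
    primH (CuspForm.heckeULin 2 hpN f) z = ∑ x, primH f ((cosetU hp hpN).rep x • z) := by
  have h1 : sumU p f = primH (CuspForm.heckeULin 2 hpN f) :=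
    eq_primH_of_hasDerivAt (f := CuspForm.heckeULin 2 hpN f)
      (fun τ => hasDerivAt_sumU hp.ne_zero f τ) (tendsto_sumU hp.ne_zero f)
  rw [← h1]
  rfl

/-- **the period map is `T_p`-equivariant** -/
theorem periodMap_heckeT (hp : p.Prime) (hpN : ¬ p ∣ N) (f : CuspForm (Gamma0 N) 2) :
    periodMap N (CuspForm.heckeTLin 2 hp hpN f) = tauT hp hpN (periodMap N f) := by
  have : NeZero N := ⟨fun h => hpN (h ▸ dvd_zero p)⟩
  refine AddMonoidHom.ext fun g' => ?_
  obtain ⟨g, rfl⟩ := Additive.ofMul.surjective g'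
  have z : ℍ := UpperHalfPlane.I
  rw [periodMap_apply _ g z, primH_heckeT, primH_heckeT, tauT]
  exact (cosetT hp hpN).sum_smul_sub (primH f) (periodMap N f)
    (fun γ w => (periodMap_apply f γ w).symm) g z

/-- **the period map is `U_p`-equivariant** -/
theorem periodMap_heckeU [NeZero N] (hp : p.Prime) (hpN : p ∣ N) (f : CuspForm (Gamma0 N) 2) :
    periodMap N (CuspForm.heckeULin 2 hpN f) = tauU hp hpN (periodMap N f) := by
  refine AddMonoidHom.ext fun g' => ?_
  obtain ⟨g, rfl⟩ := Additive.ofMul.surjective g'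
  have z : ℍ := UpperHalfPlane.I
  rw [periodMap_apply _ g z, primH_heckeU hp, primH_heckeU hp, tauU]
  exact (cosetU hp hpN).sum_smul_sub (primH f) (periodMap N f)
    (fun γ w => (periodMap_apply f γ w).symm) g z

/-- the Hecke operator on forms at every prime `r` (`T_r` if `r ∤ N`, `U_r` if `r ∣ N`) -/
def heckeAll (N : ℕ) [NeZero N] (r : ℕ) (hr : r.Prime) :
    CuspForm (Gamma0 N) 2 →ₗ[ℂ] CuspForm (Gamma0 N) 2 :=
  if h : r ∣ N then CuspForm.heckeULin 2 h else CuspForm.heckeTLin 2 hr h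

theorem heckeAll_of_dvd [NeZero N] {r : ℕ} (hr : r.Prime) (h : r ∣ N) :
    heckeAll N r hr = CuspForm.heckeULin 2 h := dif_pos h

theorem heckeAll_of_not_dvd [NeZero N] {r : ℕ} (hr : r.Prime) (h : ¬ r ∣ N) :
    heckeAll N r hr = CuspForm.heckeTLin 2 hr h := dif_neg h

/-- **the period map is Hecke-equivariant at every prime** -/
theorem periodMap_heckeAll [NeZero N] {r : ℕ} (hr : r.Prime) (f : CuspForm (Gamma0 N) 2) :
    periodMap N (heckeAll N r hr f) = tauAll N r hr (periodMap N f) := by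
  by_cases h : r ∣ N
  · rw [heckeAll_of_dvd hr h, periodMap_heckeU hr h, tauAll, dif_pos h]
  · rw [heckeAll_of_not_dvd hr h, periodMap_heckeT hr h, tauAll, dif_neg h]

end Hecke

end Fermat.Agent.S30.Hecke.PeriodEquivariance
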