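import Mathlib
import Fermat.Prelude.Def_ModularCurve_PeriodHomPair
import Fermat.Agent.S30.Hecke.DoubleCosetIndep
import Fermat.Agent.S30.Hecke.PeriodEquivariance

/-!
# PROJECT J (S30), slice J-4-H (H6): the Hecke operators commute with the complex-conjugation
involution; the pair of period maps is Hecke-equivariant

* `kappa` : conjugation by `J = diag(1, -1)` on `GL₂(ℝ)`; `kappa_iota` :
  `kappa (iota N g) = iota N (jConjGamma0 N g)`;
* `sigmaT p : Option (Fin p) ≃ Option (Fin p)` (`some j ↦ some (-j)`), `transl N p x : Γ₀(N)` and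
  `kappa_repT : kappa (repT p x) = iota N (transl N p x) * repT p (sigmaT p x)`;
* **`tauT_charInvolution`, `tauU_charInvolution`, `tauAll_charInvolution`** :
  `τ_r (charInvolution N R A φ) = charInvolution N R A (τ_r φ)`;
* **`periodHomPair_heckeAll`** : `periodHomPair N (T_r f, T_r g) = τ_r (periodHomPair N (f, g))`.
-/

set_option autoImplicit false
set_option linter.unusedSectionVars false

open CongruenceSubgroup ModularCurve ModularCurve.Period
open scoped MatrixGroups

noncomputable section

namespace Fermat.Agent.S30.Hecke.Involution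

open Fermat.Agent.S30.Hecke.DoubleCoset Fermat.Agent.S30.Hecke.Gamma0Cosets
  Fermat.Agent.S30.Hecke.PeriodEquivariance

/-! ### conjugation by `J = diag(1, -1)` -/

/-- `J = diag(1, -1)` over `ℤ` -/
def jZ : Matrix (Fin 2) (Fin 2) ℤ := !![1, 0; 0, -1]

/-- `J = diag(1, -1)` over `ℝ` -/
def jR : Matrix (Fin 2) (Fin 2) ℝ := !![1, 0; 0, -1]

theorem jR_mul_jR : jR * jR = 1 := by
  simp [jR, Matrix.one_fin_two]

theorem jZ_map : jZ.map (Int.castRingHom ℝ) = jR := by
  ext i k
  fin_cases i <;> fin_cases k <;> simp [jZ, jR]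

/-- `J` in `GL₂(ℝ)` -/
def jGL : GL (Fin 2) ℝ := ⟨jR, jR, jR_mul_jR, jR_mul_jR⟩

/-- conjugation by `J` -/
def kappa : GL (Fin 2) ℝ →* GL (Fin 2) ℝ := (MulAut.conj jGL).toMonoidHom

theorem coe_kappa (g : GL (Fin 2) ℝ) :
    ((kappa g : GL (Fin 2) ℝ) : Matrix (Fin 2) (Fin 2) ℝ) =
      jR * (g : Matrix (Fin 2) (Fin 2) ℝ) * jR := rfl

theorem jZ_mul_mul_jZ (A : Matrix (Fin 2) (Fin 2) ℤ) : jZ * A * jZ = jConjMat A := by
  rw [Matrix.eta_fin_two A]
  simp [jZ, jConjMat]

/-- `kappa` of the image of an integral matrix -/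
theorem jR_mul_map_mul_jR (A : Matrix (Fin 2) (Fin 2) ℤ) :
    jR * A.map (Int.castRingHom ℝ) * jR = (jZ * A * jZ).map (Int.castRingHom ℝ) := by
  rw [Matrix.map_mul, Matrix.map_mul, jZ_map]

variable {N : ℕ}

theorem kappa_iota (g : Gamma0 N) : kappa (iota N g) = iota N (jConjGamma0 N g) := by
  apply Units.ext
  rw [coe_kappa, coe_iota', coe_iota', jR_mul_map_mul_jR, jZ_mul_mul_jZ]
  rfl

/-! ### the action on the representatives -/

section Reps

variable (N) (p : ℕ) [NeZero p]

/-- the permutation of the representatives induced by `J` -/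
def sigmaT : Option (Fin p) ≃ Option (Fin p) := Equiv.optionCongr (Equiv.neg (Fin p))

/-- the translation `[1, -m; 0, 1]` -/
def translMat (m : ℤ) : Gamma0 N := mkGamma0 N 1 (-m) 0 1 (by ring) (dvd_zero _)

/-- the correcting translations -/
def transl : Option (Fin p) → Gamma0 N
  | some j => translMat N ((((j : ℕ) + ((-j : Fin p) : ℕ)) / p : ℕ) : ℤ)
  | none => 1

theorem dvd_add_neg (j : Fin p) : p ∣ (j : ℕ) + ((-j : Fin p) : ℕ) := by
  rw [Fin.val_neg']
  have hj := j.2
  rw [Nat.dvd_iff_mod_eq_zero, Nat.add_mod, Nat.mod_mod, ← Nat.add_mod,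
    Nat.add_sub_cancel' hj.le, Nat.mod_self]

theorem relZ_sigmaT (x : Option (Fin p)) :
    jZ * repZ p x * jZ =
      ((transl N p x : Gamma0 N) : SL(2, ℤ)).1 * repZ p (sigmaT p x) := by
  rcases x with _ | j
  · show jZ * repZ p none * jZ = ((1 : Gamma0 N) : SL(2, ℤ)).1 * repZ p none
    rw [OneMemClass.coe_one, Matrix.SpecialLinearGroup.coe_one, one_mul]
    simp [jZ, repZ]
  · show jZ * repZ p (some j) * jZ = ((translMat N _ : Gamma0 N) : SL(2, ℤ)).1 *
      repZ p (some (-j))
    rw [translMat, coe_mkGamma0]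
    obtain ⟨m, hm⟩ := dvd_add_neg p j
    have hp : 0 < p := Nat.pos_of_ne_zero (NeZero.ne p)
    rw [hm, Nat.mul_div_cancel_left m hp]
    have hm' : ((j : ℕ) : ℤ) + (((-j : Fin p) : ℕ) : ℤ) = (p : ℤ) * (m : ℤ) := by
      exact_mod_cast hm
    simp only [jZ, repZ, Matrix.mul_fin_two]
    exact of_eq (by ring) (by linear_combination (-1 : ℤ) * hm') (by ring) (by ring)

theorem kappa_repT (x : Option (Fin p)) :
    kappa (repT p x) = iota N (transl N p x) * repT p (sigmaT p x) := by
  apply Units.ext
  rw [coe_kappa, Units.val_mul, coe_repT (NeZero.ne p), coe_repT (NeZero.ne p), coe_iota',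
    jR_mul_map_mul_jR, relZ_sigmaT N p x, Matrix.map_mul]

end Reps

/-! ### commutation with `charInvolution` -/

section Comm

variable (R : Type*) [Semiring R] (A : Type*) [AddCommGroup A] [Module R A] {p : ℕ}

theorem charInvolution_eq_comp (φ : Additive (Gamma0 N) →+ A) :
    charInvolution N R A φ = φ.comp (MonoidHom.toAdditive (jConjGamma0 N)) := rfl

/-- **`T_p` commutes with the involution** -/
theorem tauT_charInvolution (hp : p.Prime) (hpN : ¬ p ∣ N) (φ : Additive (Gamma0 N) →+ A) :
    tauT hp hpN (charInvolution N R A φ) = charInvolution N R A (tauT hp hpN φ) := by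
  have : NeZero p := ⟨hp.ne_zero⟩
  rw [charInvolution_eq_comp, charInvolution_eq_comp]
  exact ((cosetT hp hpN).heckeHom_comp_aut (iota_injective N) (cosetT_sep hp hpN) kappa
    (jConjGamma0 N) kappa_iota (sigmaT p) (transl N p) (fun x => kappa_repT N p x) φ).symm

/-- the permutation of the representatives of `U_p` induced by `J` -/
theorem kappa_repU [NeZero p] (j : Fin p) :
    kappa (repT p (some j)) =
      iota N (transl N p (some j)) * repT p (some ((Equiv.neg (Fin p)) j)) :=
  kappa_repT N p (some j)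

/-- **`U_p` commutes with the involution** -/
theorem tauU_charInvolution (hp : p.Prime) (hpN : p ∣ N) (φ : Additive (Gamma0 N) →+ A) :
    tauU hp hpN (charInvolution N R A φ) = charInvolution N R A (tauU hp hpN φ) := by
  have : NeZero p := ⟨hp.ne_zero⟩
  rw [charInvolution_eq_comp, charInvolution_eq_comp]
  exact ((cosetU hp hpN).heckeHom_comp_aut (iota_injective N) (cosetU_sep hp hpN) kappa
    (jConjGamma0 N) kappa_iota (Equiv.neg (Fin p)) (fun j => transl N p (some j))
    (fun j => kappa_repU j) φ).symm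

/-- **`τ_r` commutes with the involution, every prime `r`** -/
theorem tauAll_charInvolution {r : ℕ} (hr : r.Prime) (φ : Additive (Gamma0 N) →+ A) :
    tauAll N r hr (charInvolution N R A φ) = charInvolution N R A (tauAll N r hr φ) := by
  unfold tauAll
  split_ifs with h
  · exact tauU_charInvolution R A hr h φ
  · exact tauT_charInvolution R A hr h φ

end Comm

/-! ### the pair of period maps -/

section Pair

variable [NeZero N]

/-- **Hecke-equivariance of `periodHomPair`** -/
theorem periodHomPair_heckeAll {r : ℕ} (hr : r.Prime) (f g : CuspForm (Gamma0 N) 2) :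
    periodHomPair N (heckeAll N r hr f, heckeAll N r hr g) =
      tauAll N r hr (periodHomPair N (f, g)) := by
  obtain ⟨pml, hpml, hdef⟩ :=
    periodHomPair_def N (Fermat.Agent.S21.Primitive.existsPeriodMapLinear (N := N))
  rw [hdef]
  simp only [LinearMap.coprod_apply, LinearMap.comp_apply, LinearMap.add_apply,
    LinearMap.sub_apply, LinearMap.id_apply, hpml, periodMap_heckeAll hr, map_add, map_sub,
    tauAll_charInvolution ℂ ℂ hr]

/-- the explicit formula for `periodHomPair` -/
theorem periodHomPair_apply (f g : CuspForm (Gamma0 N) 2) :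
    periodHomPair N (f, g) =
      (periodMap N f + charInvolution N ℂ ℂ (periodMap N f)) +
        (periodMap N g - charInvolution N ℂ ℂ (periodMap N g)) := by
  obtain ⟨pml, hpml, hdef⟩ :=
    periodHomPair_def N (Fermat.Agent.S21.Primitive.existsPeriodMapLinear (N := N))
  rw [hdef]
  simp only [LinearMap.coprod_apply, LinearMap.comp_apply, LinearMap.add_apply,
    LinearMap.sub_apply, LinearMap.id_apply, hpml]

end Pair

end Fermat.Agent.S30.Hecke.Involution
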