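import Mathlib
import Fermat.Prelude.Def_ModularCurve_PeriodMap
import Fermat.Agent.S30.Hecke.Gamma0Cosets
import Fermat.Agent.S30.Lattice.BaseChange

/-!
# PROJECT J (S30), slice J-4-H (H5): the double-coset operators preserve parabolic homomorphisms

* `trace_pow_sq_eq_four` : `det M = 1`, `(tr M)² = 4` imply `(tr (M ^ m))² = 4` (`2 × 2` integral);
* `trace_eq_of_conj` : `ι h = r * ι g * r⁻¹` in `GL₂(ℝ)` implies `tr h = tr g`;
* **`heckeHom_isParabolicHom`** : for ANY coset data `D` over `iota N`, `D.heckeHom` preserves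
  `IsParabolicHom (Gamma0 N)`;
* `tauAllLin R N r hr` (the `R`-linear `tauAll`), **`tauPar R A N r hr`** `: Module.End R
  (parabolicHoms R (Gamma0 N) A)`, `coe_tauPar`, `tauPar_apply`;
* **`tauPar_castPar`** : `tauPar R R N r hr (castPar _ R φ) = castPar _ R (tauPar ℤ ℤ N r hr φ)`,
  the hypothesis of `Lattice.BaseChange.baseChangeEquiv_comm`; `baseChangeEquiv_tauPar`.
-/

set_option autoImplicit false
set_option linter.unusedSectionVars false

open CongruenceSubgroup ModularCurve.Period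
open scoped MatrixGroups TensorProduct

noncomputable section

namespace Fermat.Agent.S30.Hecke.Parabolic

open Fermat.Agent.S30.Hecke.DoubleCoset Fermat.Agent.S30.Hecke.Gamma0Cosets
  Fermat.Agent.S30.Lattice.BaseChange

/-! ### traces of powers -/

theorem mul_self_eq (M : Matrix (Fin 2) (Fin 2) ℤ) :
    M * M = M.trace • M - M.det • (1 : Matrix (Fin 2) (Fin 2) ℤ) := by
  rw [Matrix.trace_fin_two, Matrix.det_fin_two]
  ext i j
  fin_cases i <;> fin_cases j <;>
    simp only [Matrix.mul_apply, Fin.sum_univ_two, Matrix.smul_apply, Matrix.sub_apply,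
      Matrix.one_apply, smul_eq_mul, Fin.zero_eta, Fin.mk_one, Fin.isValue, if_true, if_false,
      zero_ne_one, one_ne_zero] <;> ring

theorem trace_pow_succ_succ (M : Matrix (Fin 2) (Fin 2) ℤ) (m : ℕ) :
    (M ^ (m + 2)).trace = M.trace * (M ^ (m + 1)).trace - M.det * (M ^ m).trace := by
  have h1 : M ^ (m + 2) = M.trace • M ^ (m + 1) - M.det • M ^ m := by
    rw [pow_add, pow_two, mul_self_eq, mul_sub, mul_smul_comm, mul_smul_comm, mul_one, ← pow_succ]
  rw [h1, Matrix.trace_sub, Matrix.trace_smul, Matrix.trace_smul, smul_eq_mul, smul_eq_mul]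

theorem trace_pow_of_trace_eq_two (M : Matrix (Fin 2) (Fin 2) ℤ) (hdet : M.det = 1)
    (htr : M.trace = 2) (m : ℕ) : (M ^ m).trace = 2 := by
  induction m using Nat.twoStepInduction with
  | zero => simp
  | one => rw [pow_one, htr]
  | more m ih1 ih2 => rw [trace_pow_succ_succ, ih1, ih2, hdet, htr]; norm_num

theorem trace_pow_of_trace_eq_neg_two (M : Matrix (Fin 2) (Fin 2) ℤ) (hdet : M.det = 1)
    (htr : M.trace = -2) (m : ℕ) : (M ^ m).trace = 2 * (-1) ^ m := by
  induction m using Nat.twoStepInduction with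
  | zero => simp
  | one => rw [pow_one, htr]; norm_num
  | more m ih1 ih2 => rw [trace_pow_succ_succ, ih1, ih2, hdet, htr]; ring

theorem trace_pow_sq_eq_four (M : Matrix (Fin 2) (Fin 2) ℤ) (hdet : M.det = 1)
    (htr : M.trace ^ 2 = 4) (m : ℕ) : (M ^ m).trace ^ 2 = 4 := by
  have h : M.trace = 2 ∨ M.trace = -2 := by
    have h' : (M.trace - 2) * (M.trace + 2) = 0 := by linear_combination htr
    rcases mul_eq_zero.1 h' with h1 | h1
    · left; linarith
    · right; linarith
  rcases h with h | h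
  · rw [trace_pow_of_trace_eq_two M hdet h]; norm_num
  · rw [trace_pow_of_trace_eq_neg_two M hdet h, mul_pow, ← pow_mul, mul_comm m 2, pow_mul]
    norm_num

variable {N : ℕ}

theorem trace_pow_Gamma0 (g : Gamma0 N)
    (hg : ((g : SL(2, ℤ)) : Matrix (Fin 2) (Fin 2) ℤ).trace ^ 2 = 4) (m : ℕ) :
    (((g ^ m : Gamma0 N) : SL(2, ℤ)) : Matrix (Fin 2) (Fin 2) ℤ).trace ^ 2 = 4 := by
  rw [SubgroupClass.coe_pow, Matrix.SpecialLinearGroup.coe_pow]
  exact trace_pow_sq_eq_four _ (g : SL(2, ℤ)).det_coe hg m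

/-! ### traces and conjugation -/

theorem trace_iota (g : Gamma0 N) :
    ((iota N g : GL (Fin 2) ℝ) : Matrix (Fin 2) (Fin 2) ℝ).trace =
      ((((g : SL(2, ℤ)) : Matrix (Fin 2) (Fin 2) ℤ).trace : ℤ) : ℝ) := by
  rw [coe_iota, Matrix.trace_fin_two, Matrix.trace_fin_two]
  simp

theorem trace_eq_of_conj {g h : Gamma0 N} {r : GL (Fin 2) ℝ}
    (hc : iota N h = r * iota N g * r⁻¹) :
    ((h : SL(2, ℤ)) : Matrix (Fin 2) (Fin 2) ℤ).trace =
      ((g : SL(2, ℤ)) : Matrix (Fin 2) (Fin 2) ℤ).trace := by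
  have h1 : ((iota N h : GL (Fin 2) ℝ) : Matrix (Fin 2) (Fin 2) ℝ).trace =
      ((iota N g : GL (Fin 2) ℝ) : Matrix (Fin 2) (Fin 2) ℝ).trace := by
    rw [hc, Units.val_mul, Units.val_mul, Matrix.trace_units_conj]
  rw [trace_iota, trace_iota] at h1
  exact_mod_cast h1

/-! ### the operators preserve parabolic homomorphisms -/

section Preserve

variable {X : Type*} [Fintype X] {A : Type*} [AddCommGroup A]

/-- **any double-coset operator over `iota N` preserves parabolic homomorphisms** -/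
theorem heckeHom_isParabolicHom (D : CosetData (iota N) X) {φ : Additive (Gamma0 N) →+ A}
    (hφ : IsParabolicHom (Gamma0 N) φ) : IsParabolicHom (Gamma0 N) (D.heckeHom φ) := by
  classical
  intro g hg
  refine D.heckeHom_apply_eq_zero φ g fun x m _ hfix => ?_
  refine hφ _ ?_
  rw [trace_eq_of_conj (D.map_coc_of_fixed hfix)]
  exact trace_pow_Gamma0 g hg m

theorem tauT_isParabolicHom {p : ℕ} (hp : p.Prime) (hpN : ¬ p ∣ N)
    {φ : Additive (Gamma0 N) →+ A} (hφ : IsParabolicHom (Gamma0 N) φ) :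
    IsParabolicHom (Gamma0 N) (tauT hp hpN φ) :=
  heckeHom_isParabolicHom _ hφ

theorem tauU_isParabolicHom {p : ℕ} (hp : p.Prime) (hpN : p ∣ N)
    {φ : Additive (Gamma0 N) →+ A} (hφ : IsParabolicHom (Gamma0 N) φ) :
    IsParabolicHom (Gamma0 N) (tauU hp hpN φ) :=
  heckeHom_isParabolicHom _ hφ

theorem tauAll_isParabolicHom {r : ℕ} (hr : r.Prime)
    {φ : Additive (Gamma0 N) →+ A} (hφ : IsParabolicHom (Gamma0 N) φ) :
    IsParabolicHom (Gamma0 N) (tauAll N r hr φ) := by
  unfold tauAll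
  split_ifs with h
  · exact tauU_isParabolicHom hr h hφ
  · exact tauT_isParabolicHom hr h hφ

end Preserve

/-! ### the bundled operators on `parabolicHoms` -/

section Bundled

variable (R : Type*) [Semiring R] (A : Type*) [AddCommGroup A] [Module R A]

/-- the `R`-linear version of `tauAll` -/
def tauAllLin (N : ℕ) (r : ℕ) (hr : r.Prime) :
    (Additive (Gamma0 N) →+ A) →ₗ[R] (Additive (Gamma0 N) →+ A) :=
  if h : r ∣ N then (cosetU hr h).heckeLin R else (cosetT hr h).heckeLin R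

theorem tauAllLin_apply (N : ℕ) (r : ℕ) (hr : r.Prime) (φ : Additive (Gamma0 N) →+ A) :
    tauAllLin R A N r hr φ = tauAll N r hr φ := by
  unfold tauAllLin tauAll
  split_ifs with h <;> rfl

/-- **the Hecke operator `τ_r` on `parabolicHoms R (Gamma0 N) A`** -/
def tauPar (N : ℕ) (r : ℕ) (hr : r.Prime) : Module.End R (parabolicHoms R (Gamma0 N) A) :=
  (tauAllLin R A N r hr).restrict (p := parabolicHoms R (Gamma0 N) A)
    (q := parabolicHoms R (Gamma0 N) A) fun φ hφ => by
      rw [tauAllLin_apply]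
      exact tauAll_isParabolicHom hr hφ

theorem coe_tauPar (N : ℕ) (r : ℕ) (hr : r.Prime) (φ : parabolicHoms R (Gamma0 N) A) :
    ((tauPar R A N r hr φ : parabolicHoms R (Gamma0 N) A) : Additive (Gamma0 N) →+ A) =
      tauAll N r hr (φ : Additive (Gamma0 N) →+ A) := by
  show tauAllLin R A N r hr φ = _
  rw [tauAllLin_apply]

end Bundled

/-- naturality of `tauAll` in the coefficients -/
theorem comp_tauAll {A B : Type*} [AddCommGroup A] [AddCommGroup B] (f : A →+ B)
    (r : ℕ) (hr : r.Prime) (φ : Additive (Gamma0 N) →+ A) :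
    f.comp (tauAll N r hr φ) = tauAll N r hr (f.comp φ) := by
  unfold tauAll
  split_ifs with h
  · exact CosetData.comp_heckeHom _ f φ
  · exact CosetData.comp_heckeHom _ f φ

section Cast

variable [NeZero N] (R : Type*) [CommRing R] [Module.Flat ℤ R]

/-- **`τ_r` is compatible with the change of coefficients `ℤ → R`** (the hypothesis of
`Lattice.BaseChange.baseChangeEquiv_comm`) -/
theorem tauPar_castPar (r : ℕ) (hr : r.Prime) (φ : parabolicHoms ℤ (Gamma0 N) ℤ) :
    tauPar R R N r hr (castPar (Gamma0 N) R φ) = castPar (Gamma0 N) R (tauPar ℤ ℤ N r hr φ) := by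
  apply Subtype.ext
  rw [coe_tauPar]
  have h1 : ((castPar (Gamma0 N) R φ : parabolicHoms R (Gamma0 N) R) :
      Additive (Gamma0 N) →+ R) = (Int.castAddHom R).comp (φ : Additive (Gamma0 N) →+ ℤ) := rfl
  have h2 : ((castPar (Gamma0 N) R (tauPar ℤ ℤ N r hr φ) : parabolicHoms R (Gamma0 N) R) :
      Additive (Gamma0 N) →+ R) = (Int.castAddHom R).comp
        ((tauPar ℤ ℤ N r hr φ : parabolicHoms ℤ (Gamma0 N) ℤ) : Additive (Gamma0 N) →+ ℤ) := rfl
  rw [h1, h2, coe_tauPar, comp_tauAll]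

/-- **`τ_r` on `Hom_par(Γ₀(N), R)` is the base change of `τ_r` on `Hom_par(Γ₀(N), ℤ)`** -/
theorem baseChangeEquiv_tauPar (r : ℕ) (hr : r.Prime)
    (x : R ⊗[ℤ] (parabolicHoms ℤ (Gamma0 N) ℤ)) :
    baseChangeEquiv (Gamma0 N) R ((tauPar ℤ ℤ N r hr).baseChange R x) =
      tauPar R R N r hr (baseChangeEquiv (Gamma0 N) R x) :=
  baseChangeEquiv_comm (Gamma0 N) R (tauPar ℤ ℤ N r hr) (tauPar R R N r hr)
    (tauPar_castPar R r hr) x

end Cast

end Fermat.Agent.S30.Hecke.Parabolic
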