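import Mathlib
import Fermat.Agent.S30.Hecke.DoubleCosetIndep

/-!
# PROJECT J (S30), slice J-4-H (H8): conjugating coset data by an element normalising `ι(Γ)`

`D : CosetData ι X`, `θ : Γ ≃* Γ`, `w : G` with `ι (θ g) = w * ι g * w⁻¹`.

* `CosetData.conjAut D θ w hw : CosetData ι X` with `rep' x = w⁻¹ * rep x * w`,
  `perm' g = perm (θ g)`, `coc' g x = θ.symm (coc (θ g) x)`;
* **`heckeHom_conjAut`** : `(D.conjAut θ w hw).heckeHom φ = (D.heckeHom (φ ∘ θ⁻¹)) ∘ θ`;
  `heckeHomMul_conjAut` the multiplicative twin;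
* `conjAut_sep` : separation of the representatives is preserved.
-/

set_option autoImplicit false
set_option linter.unusedSectionVars false

namespace Fermat.Agent.S30.Hecke.DoubleCoset

variable {Γ G : Type*} [Group Γ] [Group G]

namespace CosetData

variable {ι : Γ →* G} {X : Type*} (D : CosetData ι X)

section ConjAut

variable (θ : Γ ≃* Γ) (w : G) (hw : ∀ g, ι (θ g) = w * ι g * w⁻¹)

include hw in
theorem map_symm_of_conj (h : Γ) : ι (θ.symm h) = w⁻¹ * ι h * w := by
  have h1 := hw (θ.symm h)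
  rw [MulEquiv.apply_symm_apply] at h1
  rw [h1]
  group

/-- **the coset data conjugated by `w`** -/
def conjAut : CosetData ι X where
  rep x := w⁻¹ * D.rep x * w
  perm g := D.perm (θ g)
  coc g x := θ.symm (D.coc (θ g) x)
  rel g x := by
    rw [map_symm_of_conj θ w hw]
    have h1 : w⁻¹ * D.rep x * w * ι g = w⁻¹ * (D.rep x * ι (θ g)) * w := by
      rw [hw]
      group
    rw [h1, D.rel]
    group
  perm_mul g h x := by
    rw [map_mul, D.perm_mul]
  coc_mul g h x := by
    rw [map_mul, D.coc_mul, map_mul]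

@[simp] theorem conjAut_rep (x : X) : (D.conjAut θ w hw).rep x = w⁻¹ * D.rep x * w := rfl

@[simp] theorem conjAut_perm (g : Γ) (x : X) :
    (D.conjAut θ w hw).perm g x = D.perm (θ g) x := rfl

@[simp] theorem conjAut_coc (g : Γ) (x : X) :
    (D.conjAut θ w hw).coc g x = θ.symm (D.coc (θ g) x) := rfl

/-- separation is preserved -/
theorem conjAut_sep (huniq : ∀ (x x' : X) (g : Γ), D.rep x = ι g * D.rep x' → x = x')
    (x x' : X) (g : Γ) (h : (D.conjAut θ w hw).rep x = ι g * (D.conjAut θ w hw).rep x') :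
    x = x' := by
  refine huniq x x' (θ g) ?_
  rw [hw]
  simp only [conjAut_rep] at h
  have h2 : D.rep x = w * (w⁻¹ * D.rep x * w) * w⁻¹ := by group
  rw [h2, h]
  group

variable [Fintype X]

/-- **the operator of the conjugated coset data** -/
theorem heckeHom_conjAut {A : Type*} [AddCommGroup A] (φ : Additive Γ →+ A) :
    (D.conjAut θ w hw).heckeHom φ =
      (D.heckeHom (φ.comp (MonoidHom.toAdditive θ.symm.toMonoidHom))).comp
        (MonoidHom.toAdditive θ.toMonoidHom) := by
  refine AddMonoidHom.ext fun g' => ?_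
  obtain ⟨g, rfl⟩ := Additive.ofMul.surjective g'
  rfl

theorem heckeHom_conjAut_apply {A : Type*} [AddCommGroup A] (φ : Additive Γ →+ A) (g : Γ) :
    (D.conjAut θ w hw).heckeHom φ (Additive.ofMul g) =
      D.heckeHom (φ.comp (MonoidHom.toAdditive θ.symm.toMonoidHom)) (Additive.ofMul (θ g)) := by
  rw [heckeHom_conjAut]
  rfl

/-- the multiplicative twin -/
theorem heckeHomMul_conjAut {M : Type*} [CommGroup M] (ψ : Γ →* M) :
    (D.conjAut θ w hw).heckeHomMul ψ =
      (D.heckeHomMul (ψ.comp θ.symm.toMonoidHom)).comp θ.toMonoidHom := by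
  refine MonoidHom.ext fun g => ?_
  rfl

end ConjAut

end CosetData

end Fermat.Agent.S30.Hecke.DoubleCoset
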