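import Mathlib
import Fermat.Agent.S30.Hecke.DoubleCosetConj
import Fermat.Agent.S30.Hecke.Gamma0Cosets

/-!
# PROJECT J (S30), slice J-4-H (H9): the Fricke involution and the coset data of `diag(r, 1)`

* `wGL N : GL (Fin 2) ℝ` the Fricke matrix `W = [0, -1; N, 0]`; **`frickeEquiv N : Γ₀(N) ≃* Γ₀(N)`**,
  `[a, b; c, d] ↦ [d, -c/N; -N b, a]`, with `iota_frickeEquiv : iota N (θ g) = W * iota N g * W⁻¹`,
  `trace_frickeEquiv`, `frickeEquiv_frickeEquiv`;
* `dGL r = diag(r, 1)`, `sStar`, `tStar` : explicit elements of `Γ₀(N)` with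
  `W⁻¹ * rep x * W = (iota N (tStar x))⁻¹ * dGL r * iota N (sStar x)` for the standard
  representatives `rep x` of `T_r` / `U_r`;
* **`cosetStarT hr hrN : CosetData (iota N) (Option (Fin r))`**, **`cosetStarU`** with
  `cosetStarT_rep : rep x = dGL r * iota N (sStarT x)` (the shape of `(NS-α)`), separation,
  `sStarT_inj`, `sStarT_surj` (a system of representatives of `Γ₀(N r) \ Γ₀(N)`);
* **(GT)** `heckeHom_cosetStarT : (cosetStarT hr hrN).heckeHom φ = (tauT hr hrN (φ ∘ θ⁻¹)) ∘ θ`, same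
  for `U`, and the multiplicative twins.
-/

set_option autoImplicit false
set_option linter.unusedSectionVars false

open CongruenceSubgroup
open scoped MatrixGroups

noncomputable section

namespace Fermat.Agent.S30.Hecke.DoubleCoset.CosetData

variable {Γ G : Type*} [Group Γ] [Group G] {ι : Γ →* G} {X X' : Type*} (D : CosetData ι X)

/-- twisting preserves separation -/
theorem twist_sep (huniq : ∀ (x x' : X) (g : Γ), D.rep x = ι g * D.rep x' → x = x')
    (e : X ≃ X') (t : X → Γ) (y y' : X') (g : Γ)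
    (h : (D.twist e t).rep y = ι g * (D.twist e t).rep y') : y = y' := by
  obtain ⟨x, rfl⟩ := e.surjective y
  obtain ⟨x', rfl⟩ := e.surjective y'
  rw [twist_rep, twist_rep] at h
  congr 1
  refine huniq x x' ((t x)⁻¹ * g * t x') ?_
  calc D.rep x = (ι (t x))⁻¹ * (ι (t x) * D.rep x) := by rw [inv_mul_cancel_left]
    _ = ι ((t x)⁻¹ * g * t x') * D.rep x' := by
      rw [h]
      simp only [map_mul, map_inv, mul_assoc]

end Fermat.Agent.S30.Hecke.DoubleCoset.CosetData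

namespace Fermat.Agent.S30.Hecke.CosetStar

open Fermat.Agent.S30.Hecke.DoubleCoset Fermat.Agent.S30.Hecke.Gamma0Cosets

/-! ### the Fricke matrix -/

/-- `W = [0, -1; N, 0]` over `ℤ` -/
def wZ (N : ℕ) : Matrix (Fin 2) (Fin 2) ℤ := !![0, -1; (N : ℤ), 0]

/-- `N • W⁻¹ = [0, 1; -N, 0]` over `ℤ` -/
def wZ' (N : ℕ) : Matrix (Fin 2) (Fin 2) ℤ := !![0, 1; -(N : ℤ), 0]

theorem wZ_mul_wZ' (N : ℕ) : wZ N * wZ' N = (N : ℤ) • (1 : Matrix (Fin 2) (Fin 2) ℤ) := by
  ext i j
  fin_cases i <;> fin_cases j <;> simp [wZ, wZ', Matrix.mul_apply, Fin.sum_univ_two]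

variable (N : ℕ) [NeZero N]

/-- `W` in `GL₂(ℝ)` -/
def wGL : GL (Fin 2) ℝ :=
  Matrix.GeneralLinearGroup.mkOfDetNeZero ((wZ N).map (Int.castRingHom ℝ)) (by
    have h : ((wZ N).map (Int.castRingHom ℝ)).det = (N : ℝ) := by
      rw [Matrix.det_fin_two]
      simp [wZ]
    rw [h]
    exact_mod_cast NeZero.ne N)

theorem coe_wGL : ((wGL N : GL (Fin 2) ℝ) : Matrix (Fin 2) (Fin 2) ℝ) =
    (wZ N).map (Int.castRingHom ℝ) := rfl

variable {N}

/-- from an integral relation `W * A = B * W` to `B = W * A * W⁻¹` in `GL₂(ℝ)` -/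
theorem eq_conj_of_relZ {a b : GL (Fin 2) ℝ} {A B : Matrix (Fin 2) (Fin 2) ℤ}
    (ha : (a : Matrix (Fin 2) (Fin 2) ℝ) = A.map (Int.castRingHom ℝ))
    (hb : (b : Matrix (Fin 2) (Fin 2) ℝ) = B.map (Int.castRingHom ℝ))
    (h : wZ N * A = B * wZ N) : b = wGL N * a * (wGL N)⁻¹ := by
  rw [eq_mul_inv_iff_mul_eq]
  apply Units.ext
  rw [Units.val_mul, Units.val_mul, ha, hb, coe_wGL, ← Matrix.map_mul, ← Matrix.map_mul, h]

/-! ### the Fricke involution of `Γ₀(N)` -/

/-- the Fricke involution as a function -/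
def frickeFun (g : Gamma0 N) : Gamma0 N :=
  mkGamma0 N ((g : SL(2, ℤ)) 1 1) (-((g : SL(2, ℤ)) 1 0 / (N : ℤ)))
    (-((N : ℤ) * (g : SL(2, ℤ)) 0 1)) ((g : SL(2, ℤ)) 0 0)
    (by
      have hdet := det_entries N g
      have hc := Int.mul_ediv_cancel' (dvd_entry N g)
      linear_combination hdet - (g : SL(2, ℤ)) 0 1 * hc)
    (Dvd.dvd.neg_right (Dvd.intro _ rfl))

theorem coe_frickeFun (g : Gamma0 N) :
    (((frickeFun g : Gamma0 N) : SL(2, ℤ)) : Matrix (Fin 2) (Fin 2) ℤ) =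
      !![(g : SL(2, ℤ)) 1 1, -((g : SL(2, ℤ)) 1 0 / (N : ℤ));
        -((N : ℤ) * (g : SL(2, ℤ)) 0 1), (g : SL(2, ℤ)) 0 0] := rfl

theorem wZ_mul_coe (g : Gamma0 N) :
    wZ N * ((g : SL(2, ℤ)) : Matrix (Fin 2) (Fin 2) ℤ) =
      (((frickeFun g : Gamma0 N) : SL(2, ℤ)) : Matrix (Fin 2) (Fin 2) ℤ) * wZ N := by
  rw [coe_frickeFun]
  have hc := Int.mul_ediv_cancel' (dvd_entry N g)
  conv_lhs => rw [coe_eq_of N g]
  simp only [wZ, Matrix.mul_fin_two]
  exact of_eq (by linear_combination hc) (by ring) (by ring) (by ring)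

theorem iota_frickeFun (g : Gamma0 N) :
    iota N (frickeFun g) = wGL N * iota N g * (wGL N)⁻¹ :=
  eq_conj_of_relZ (coe_iota' N g) (coe_iota' N (frickeFun g)) (wZ_mul_coe g)

theorem frickeFun_mul (g h : Gamma0 N) : frickeFun (g * h) = frickeFun g * frickeFun h := by
  apply iota_injective N
  rw [map_mul, iota_frickeFun, iota_frickeFun, iota_frickeFun, map_mul]
  group

theorem frickeFun_frickeFun (g : Gamma0 N) : frickeFun (frickeFun g) = g := by
  apply Subtype.ext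
  apply Subtype.ext
  rw [coe_frickeFun, coe_eq_of N g]
  have hN : (N : ℤ) ≠ 0 := by exact_mod_cast NeZero.ne N
  have hc := Int.mul_ediv_cancel' (dvd_entry N g)
  have e01 : (((frickeFun g : Gamma0 N) : SL(2, ℤ)) 0 1) = -((g : SL(2, ℤ)) 1 0 / (N : ℤ)) := rfl
  have e10 : (((frickeFun g : Gamma0 N) : SL(2, ℤ)) 1 0) = -((N : ℤ) * (g : SL(2, ℤ)) 0 1) := rfl
  have e00 : (((frickeFun g : Gamma0 N) : SL(2, ℤ)) 0 0) = (g : SL(2, ℤ)) 1 1 := rfl
  have e11 : (((frickeFun g : Gamma0 N) : SL(2, ℤ)) 1 1) = (g : SL(2, ℤ)) 0 0 := rfl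
  rw [e01, e10, e00, e11]
  refine of_eq rfl ?_ ?_ rfl
  · rw [← mul_neg, Int.mul_ediv_cancel_left _ hN, neg_neg]
  · rw [mul_neg, neg_neg, hc]

variable (N) in
/-- **the Fricke involution of `Γ₀(N)`** -/
def frickeEquiv : Gamma0 N ≃* Gamma0 N where
  toFun := frickeFun
  invFun := frickeFun
  left_inv := frickeFun_frickeFun
  right_inv := frickeFun_frickeFun
  map_mul' := frickeFun_mul

theorem frickeEquiv_apply (g : Gamma0 N) : frickeEquiv N g = frickeFun g := rfl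

theorem frickeEquiv_symm : (frickeEquiv N).symm = frickeEquiv N := rfl

theorem frickeEquiv_frickeEquiv (g : Gamma0 N) : frickeEquiv N (frickeEquiv N g) = g :=
  frickeFun_frickeFun g

theorem iota_frickeEquiv (g : Gamma0 N) :
    iota N (frickeEquiv N g) = wGL N * iota N g * (wGL N)⁻¹ := iota_frickeFun g

theorem trace_frickeEquiv (g : Gamma0 N) :
    (((frickeEquiv N g : Gamma0 N) : SL(2, ℤ)) : Matrix (Fin 2) (Fin 2) ℤ).trace =
      ((g : SL(2, ℤ)) : Matrix (Fin 2) (Fin 2) ℤ).trace := by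
  rw [frickeEquiv_apply, coe_frickeFun, Matrix.trace_fin_two_of, Matrix.trace_fin_two, add_comm]

/-! ### the Fricke twist `c_W` on homomorphisms and characters -/

section CW

variable (N)

/-- `c_W φ = φ ∘ θ` on `Hom(Γ₀(N), A)` -/
def cW (A : Type*) [AddCommGroup A] : (Additive (Gamma0 N) →+ A) ≃+ (Additive (Gamma0 N) →+ A) where
  toFun φ := φ.comp (MonoidHom.toAdditive (frickeEquiv N).toMonoidHom)
  invFun φ := φ.comp (MonoidHom.toAdditive (frickeEquiv N).toMonoidHom)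
  left_inv φ := by
    refine AddMonoidHom.ext fun g => ?_
    show φ (Additive.ofMul (frickeEquiv N (frickeEquiv N (Additive.toMul g)))) = φ g
    rw [frickeEquiv_frickeEquiv]
    rfl
  right_inv φ := by
    refine AddMonoidHom.ext fun g => ?_
    show φ (Additive.ofMul (frickeEquiv N (frickeEquiv N (Additive.toMul g)))) = φ g
    rw [frickeEquiv_frickeEquiv]
    rfl
  map_add' _ _ := rfl

theorem cW_apply {A : Type*} [AddCommGroup A] (φ : Additive (Gamma0 N) →+ A) (g : Gamma0 N) :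
    cW N A φ (Additive.ofMul g) = φ (Additive.ofMul (frickeEquiv N g)) := rfl

theorem cW_symm_apply {A : Type*} [AddCommGroup A] (φ : Additive (Gamma0 N) →+ A)
    (g : Gamma0 N) :
    (cW N A).symm φ (Additive.ofMul g) = φ (Additive.ofMul (frickeEquiv N g)) := rfl

/-- `c_W ψ = ψ ∘ θ` on characters -/
def cWMul (M : Type*) [CommGroup M] : (Gamma0 N →* M) ≃* (Gamma0 N →* M) where
  toFun ψ := ψ.comp (frickeEquiv N).toMonoidHom
  invFun ψ := ψ.comp (frickeEquiv N).toMonoidHom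
  left_inv ψ := by
    refine MonoidHom.ext fun g => ?_
    show ψ (frickeEquiv N (frickeEquiv N g)) = ψ g
    rw [frickeEquiv_frickeEquiv]
  right_inv ψ := by
    refine MonoidHom.ext fun g => ?_
    show ψ (frickeEquiv N (frickeEquiv N g)) = ψ g
    rw [frickeEquiv_frickeEquiv]
  map_mul' _ _ := rfl

theorem cWMul_apply {M : Type*} [CommGroup M] (ψ : Gamma0 N →* M) (g : Gamma0 N) :
    cWMul N M ψ g = ψ (frickeEquiv N g) := rfl

theorem cWMul_symm_apply {M : Type*} [CommGroup M] (ψ : Gamma0 N →* M) (g : Gamma0 N) :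
    (cWMul N M).symm ψ g = ψ (frickeEquiv N g) := rfl

end CW

/-! ### the representatives of `Γ₀(N) diag(r, 1) Γ₀(N)` -/

section Reps

variable (N) (r : ℕ)

/-- `s_j = [1, 0; -N j, 1]` -/
def sMat (j : ℕ) : Gamma0 N :=
  mkGamma0 N 1 0 (-((N : ℤ) * (j : ℤ))) 1 (by ring) (Dvd.dvd.neg_right (Dvd.intro _ rfl))

theorem sMat_zero : sMat N 0 = 1 := by
  apply Subtype.ext
  apply Subtype.ext
  show !![(1 : ℤ), 0; -((N : ℤ) * ((0 : ℕ) : ℤ)), 1] = 1
  simp [Matrix.one_fin_two]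

/-- `W⁻¹ [1, j; 0, r] W = diag(r, 1) [1, 0; -N j, 1]`, integrally -/
theorem relZ_some (j : Fin r) :
    repZ r (some j) * wZ N =
      wZ N * (repZ r none * (((sMat N j : Gamma0 N) : SL(2, ℤ)) : Matrix (Fin 2) (Fin 2) ℤ)) := by
  rw [sMat, coe_mkGamma0]
  simp only [repZ, wZ, Matrix.mul_fin_two]
  exact of_eq (by ring) (by ring) (by ring) (by ring)

/-- from an integral relation `A * W = W * B` to `W⁻¹ * a * W = b` in `GL₂(ℝ)` -/
theorem conj_eq_of_relZ {a b : GL (Fin 2) ℝ} {A B : Matrix (Fin 2) (Fin 2) ℤ}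
    (ha : (a : Matrix (Fin 2) (Fin 2) ℝ) = A.map (Int.castRingHom ℝ))
    (hb : (b : Matrix (Fin 2) (Fin 2) ℝ) = B.map (Int.castRingHom ℝ))
    (h : A * wZ N = wZ N * B) : (wGL N)⁻¹ * a * wGL N = b := by
  rw [mul_assoc, inv_mul_eq_iff_eq_mul]
  apply Units.ext
  rw [Units.val_mul, Units.val_mul, ha, hb, coe_wGL, ← Matrix.map_mul, ← Matrix.map_mul, h]

theorem coe_diag_mul_iota {r : ℕ} (hr : r ≠ 0) (g : Gamma0 N) :
    ((ModularForm.heckeDiagMatrix r * iota N g : GL (Fin 2) ℝ) : Matrix (Fin 2) (Fin 2) ℝ) =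
      (repZ r none * ((g : SL(2, ℤ)) : Matrix (Fin 2) (Fin 2) ℤ)).map (Int.castRingHom ℝ) := by
  rw [Units.val_mul, Matrix.map_mul, ← coe_iota', ← coe_repT hr none]
  rfl

end Reps

/-! ### `U`-type: `r ∣ N` -/

section StarU

variable {r : ℕ} (hr : r.Prime) (hrN : r ∣ N)

/-- **the coset data of `Γ₀(N) diag(r, 1) Γ₀(N)`, `r ∣ N`** -/
def cosetStarU : CosetData (iota N) (Fin r) :=
  (cosetU hr hrN).conjAut (frickeEquiv N) (wGL N) iota_frickeEquiv

/-- the system of representatives of `Γ₀(N r) \ Γ₀(N)`, `r ∣ N` -/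
def sStarU (r : ℕ) (j : Fin r) : Gamma0 N := sMat N j

theorem cosetStarU_rep (j : Fin r) :
    (cosetStarU hr hrN).rep j = ModularForm.heckeDiagMatrix r * iota N (sStarU r j) := by
  show (wGL N)⁻¹ * repT r (some j) * wGL N = _
  exact conj_eq_of_relZ N (coe_repT hr.ne_zero (some j)) (coe_diag_mul_iota N hr.ne_zero _)
    (relZ_some N r j)

theorem cosetStarU_sep (j j' : Fin r) (g : Gamma0 N)
    (h : (cosetStarU hr hrN).rep j = iota N g * (cosetStarU hr hrN).rep j') : j = j' :=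
  CosetData.conjAut_sep _ _ _ _ (cosetU_sep hr hrN) j j' g h

/-- **(GT), `r ∣ N`** -/
theorem heckeHom_cosetStarU {A : Type*} [AddCommGroup A] (φ : Additive (Gamma0 N) →+ A) :
    (cosetStarU hr hrN).heckeHom φ = cW N A (tauU hr hrN ((cW N A).symm φ)) :=
  CosetData.heckeHom_conjAut _ _ _ _ φ

/-- **(GT), `r ∣ N`, multiplicative** -/
theorem heckeHomMul_cosetStarU {M : Type*} [CommGroup M] (ψ : Gamma0 N →* M) :
    (cosetStarU hr hrN).heckeHomMul ψ =
      cWMul N M ((cosetU hr hrN).heckeHomMul ((cWMul N M).symm ψ)) :=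
  CosetData.heckeHomMul_conjAut _ _ _ _ ψ

end StarU

/-! ### `T`-type: `r ∤ N` -/

section StarT

variable {r : ℕ} (hr : r.Prime) (hrN : ¬ r ∣ N)

include hr hrN in
theorem exists_bezout : ∃ b d : ℤ, (r : ℤ) * d - b * (N : ℤ) = 1 := by
  have hcop : IsCoprime (r : ℤ) (N : ℤ) := by
    rw [Int.isCoprime_iff_gcd_eq_one, Int.gcd_natCast_natCast]
    exact (Nat.Prime.coprime_iff_not_dvd hr).mpr hrN
  obtain ⟨u, v, huv⟩ := hcop
  exact ⟨-v, u, by linear_combination huv⟩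

/-- Bezout coefficient `b` -/
def bezB : ℤ := (exists_bezout hr hrN).choose

/-- Bezout coefficient `d` -/
def bezD : ℤ := (exists_bezout hr hrN).choose_spec.choose

theorem bez_spec : (r : ℤ) * bezD hr hrN - bezB hr hrN * (N : ℤ) = 1 :=
  (exists_bezout hr hrN).choose_spec.choose_spec

/-- the system of representatives of `Γ₀(N r) \ Γ₀(N)`, `r ∤ N` -/
def sStarT : Option (Fin r) → Gamma0 N
  | some j => sMat N j
  | none => mkGamma0 N 1 (bezB hr hrN) N (r * bezD hr hrN)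
      (by linear_combination bez_spec hr hrN) (dvd_refl _)

/-- the twisting elements -/
def uStarT : Option (Fin r) → Gamma0 N
  | some _ => 1
  | none => mkGamma0 N (bezD hr hrN) (-1) (-((N : ℤ) * bezB hr hrN)) r
      (by linear_combination bez_spec hr hrN) (Dvd.dvd.neg_right (Dvd.intro _ rfl))

theorem relZ_star (x : Option (Fin r)) :
    (((uStarT hr hrN x : Gamma0 N) : SL(2, ℤ)) : Matrix (Fin 2) (Fin 2) ℤ) * repZ r x * wZ N =
      wZ N * (repZ r none *
        (((sStarT hr hrN x : Gamma0 N) : SL(2, ℤ)) : Matrix (Fin 2) (Fin 2) ℤ)) := by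
  rcases x with _ | j
  · simp only [uStarT, sStarT, coe_mkGamma0, repZ, wZ, Matrix.mul_fin_two]
    exact of_eq (by ring) (by ring) (by ring) (by ring)
  · show (((1 : Gamma0 N) : SL(2, ℤ)) : Matrix (Fin 2) (Fin 2) ℤ) * repZ r (some j) * wZ N = _
    rw [OneMemClass.coe_one, Matrix.SpecialLinearGroup.coe_one, one_mul]
    exact relZ_some N r j

/-- **the coset data of `Γ₀(N) diag(r, 1) Γ₀(N)`, `r ∤ N`** -/
def cosetStarT : CosetData (iota N) (Option (Fin r)) :=
  ((cosetT hr hrN).twist (Equiv.refl _) (uStarT hr hrN)).conjAut (frickeEquiv N) (wGL N)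
    iota_frickeEquiv

theorem cosetStarT_rep (x : Option (Fin r)) :
    (cosetStarT hr hrN).rep x =
      ModularForm.heckeDiagMatrix r * iota N (sStarT hr hrN x) := by
  show (wGL N)⁻¹ * ((cosetT hr hrN).twist (Equiv.refl _) (uStarT hr hrN)).rep
    ((Equiv.refl _) x) * wGL N = _
  rw [CosetData.twist_rep]
  refine conj_eq_of_relZ N (A := (((uStarT hr hrN x : Gamma0 N) : SL(2, ℤ)) :
    Matrix (Fin 2) (Fin 2) ℤ) * repZ r x) ?_ (coe_diag_mul_iota N hr.ne_zero _)
    (relZ_star hr hrN x)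
  rw [Units.val_mul, Matrix.map_mul, ← coe_iota', cosetT_rep, ← coe_repT hr.ne_zero x]

theorem cosetStarT_sep (x x' : Option (Fin r)) (g : Gamma0 N)
    (h : (cosetStarT hr hrN).rep x = iota N g * (cosetStarT hr hrN).rep x') : x = x' :=
  CosetData.conjAut_sep _ _ _ _
    (CosetData.twist_sep _ (cosetT_sep hr hrN) (Equiv.refl _) (uStarT hr hrN)) x x' g h

/-- **(GT), `r ∤ N`** -/
theorem heckeHom_cosetStarT {A : Type*} [AddCommGroup A] (φ : Additive (Gamma0 N) →+ A) :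
    (cosetStarT hr hrN).heckeHom φ = cW N A (tauT hr hrN ((cW N A).symm φ)) := by
  have h := CosetData.heckeHom_conjAut
    ((cosetT hr hrN).twist (Equiv.refl _) (uStarT hr hrN)) (frickeEquiv N) (wGL N)
    iota_frickeEquiv φ
  rw [CosetData.heckeHom_twist] at h
  exact h

/-- **(GT), `r ∤ N`, multiplicative** -/
theorem heckeHomMul_cosetStarT {M : Type*} [CommGroup M] (ψ : Gamma0 N →* M) :
    (cosetStarT hr hrN).heckeHomMul ψ =
      cWMul N M ((cosetT hr hrN).heckeHomMul ((cWMul N M).symm ψ)) := by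
  have h := CosetData.heckeHomMul_conjAut
    ((cosetT hr hrN).twist (Equiv.refl _) (uStarT hr hrN)) (frickeEquiv N) (wGL N)
    iota_frickeEquiv ψ
  rw [CosetData.heckeHomMul_twist] at h
  exact h

end StarT

end Fermat.Agent.S30.Hecke.CosetStar
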