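import Mathlib
import Fermat.Agent.S30.Spec
import Fermat.Agent.S30.Hecke.Parabolic

/-!
# PROJECT J (S30), slice J-4-H (H7): the double-coset operators preserve `Spec.charGroup N`

* `CosetData.heckeHomMul_apply_eq_one` : the multiplicative cycle lemma;
* `CosetData.isOfFinOrder_coc` : at a fixed point, the cocycle of an element of finite order has
  finite order (`ι` injective);
* `CosetData.heckeHom_apply_eq_zero_of_isOfFinOrder`, `heckeHomMul_apply_eq_one_of_isOfFinOrder` :
  a homomorphism killing the elements of finite order is mapped to such a homomorphism;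
* **`heckeHomMul_isParChar`, `heckeHomMul_isEllFree`, `heckeHomMul_mem_charGroup`** : for ANY coset
  data over `iota N`;
* `tauAllMul N r hr : (Gamma0 N →* ℂˣ) →* (Gamma0 N →* ℂˣ)` the multiplicative `τ_r`,
  `tauAll_toAdditive`, `tauAllMul_mem_charGroup`, **`tauChar N r hr : charGroup N →* charGroup N`**.
-/

set_option autoImplicit false
set_option linter.unusedSectionVars false

open CongruenceSubgroup ModularCurve.Period
open scoped MatrixGroups

noncomputable section

namespace Fermat.Agent.S30.Hecke.DoubleCoset.CosetData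

variable {Γ G : Type*} [Group Γ] [Group G] {ι : Γ →* G} {X : Type*} [Fintype X]
  (D : CosetData ι X)

/-- **the multiplicative cycle lemma** -/
theorem heckeHomMul_apply_eq_one [DecidableEq X] {M : Type*} [CommGroup M] (ψ : Γ →* M) (g : Γ)
    (h : ∀ (x : X) (m : ℕ), 0 < m → D.perm (g ^ m) x = x → ψ (D.coc (g ^ m) x) = 1) :
    D.heckeHomMul ψ g = 1 := by
  have h1 := D.heckeHom_apply_eq_zero (MonoidHom.toAdditive ψ) g (fun x m hm hx => by
    show Additive.ofMul (ψ (D.coc (g ^ m) x)) = 0
    rw [h x m hm hx, ofMul_one])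
  rw [heckeHom_toAdditive] at h1
  exact congrArg Additive.toMul h1

/-- at a fixed point, the cocycle of an element of finite order has finite order -/
theorem isOfFinOrder_coc (hι : Function.Injective ι) {g : Γ} {x : X} (hg : IsOfFinOrder g)
    (hx : D.perm g x = x) : IsOfFinOrder (D.coc g x) := by
  obtain ⟨k, hk, hgk⟩ := isOfFinOrder_iff_pow_eq_one.mp hg
  refine isOfFinOrder_iff_pow_eq_one.mpr ⟨k, hk, hι ?_⟩
  have h2 : ι (D.coc g x) = MulAut.conj (D.rep x) (ι g) := by
    rw [D.map_coc_of_fixed hx, MulAut.conj_apply]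
  rw [map_pow, h2, ← map_pow, ← map_pow, hgk, map_one, map_one]

/-- a homomorphism killing the elements of finite order is mapped to such a homomorphism -/
theorem heckeHom_apply_eq_zero_of_isOfFinOrder (hι : Function.Injective ι) {A : Type*}
    [AddCommGroup A] {φ : Additive Γ →+ A}
    (hφ : ∀ g : Γ, IsOfFinOrder g → φ (Additive.ofMul g) = 0) {g : Γ} (hg : IsOfFinOrder g) :
    D.heckeHom φ (Additive.ofMul g) = 0 := by
  classical
  exact D.heckeHom_apply_eq_zero φ g fun x m _ hx =>
    hφ _ (D.isOfFinOrder_coc hι hg.pow hx)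

theorem heckeHomMul_apply_eq_one_of_isOfFinOrder (hι : Function.Injective ι) {M : Type*}
    [CommGroup M] {ψ : Γ →* M} (hψ : ∀ g : Γ, IsOfFinOrder g → ψ g = 1) {g : Γ}
    (hg : IsOfFinOrder g) : D.heckeHomMul ψ g = 1 := by
  classical
  exact D.heckeHomMul_apply_eq_one ψ g fun x m _ hx =>
    hψ _ (D.isOfFinOrder_coc hι hg.pow hx)

end Fermat.Agent.S30.Hecke.DoubleCoset.CosetData

namespace Fermat.Agent.S30.Hecke.EllFree

open Fermat.Agent.S30.Hecke.DoubleCoset Fermat.Agent.S30.Hecke.Gamma0Cosets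
  Fermat.Agent.S30.Hecke.Parabolic Fermat.Agent.S30.Spec

variable {N : ℕ}

theorem isParChar_iff (ψ : Gamma0 N →* ℂˣ) :
    IsParChar ψ ↔ IsParabolicHom (Gamma0 N) (MonoidHom.toAdditive ψ) := by
  constructor
  · intro h γ hγ
    show Additive.ofMul (ψ γ) = 0
    rw [h γ hγ, ofMul_one]
  · intro h γ hγ
    have := h γ hγ
    exact congrArg Additive.toMul this

section Preserve

variable {X : Type*} [Fintype X] (D : CosetData (iota N) X)

/-- **any double-coset operator over `iota N` preserves parabolic characters** -/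
theorem heckeHomMul_isParChar {ψ : Gamma0 N →* ℂˣ} (hψ : IsParChar ψ) :
    IsParChar (D.heckeHomMul ψ) := by
  rw [isParChar_iff] at hψ ⊢
  rw [← CosetData.heckeHom_toAdditive]
  exact heckeHom_isParabolicHom D hψ

/-- **any double-coset operator over `iota N` preserves characters trivial on torsion** -/
theorem heckeHomMul_isEllFree {ψ : Gamma0 N →* ℂˣ} (hψ : IsEllFree ψ) :
    IsEllFree (D.heckeHomMul ψ) := fun _ hγ =>
  D.heckeHomMul_apply_eq_one_of_isOfFinOrder (iota_injective N) hψ hγ

/-- **any double-coset operator over `iota N` preserves `charGroup N`** -/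
theorem heckeHomMul_mem_charGroup {ψ : Gamma0 N →* ℂˣ} (hψ : ψ ∈ charGroup N) :
    D.heckeHomMul ψ ∈ charGroup N :=
  ⟨heckeHomMul_isParChar D hψ.1, heckeHomMul_isEllFree D hψ.2⟩

end Preserve

/-! ### the multiplicative `τ_r` -/

/-- the multiplicative twin of `tauAll` -/
def tauAllMul (N : ℕ) (r : ℕ) (hr : r.Prime) : (Gamma0 N →* ℂˣ) →* (Gamma0 N →* ℂˣ) :=
  if h : r ∣ N then (cosetU hr h).heckeHomMul else (cosetT hr h).heckeHomMul

theorem tauAllMul_of_dvd {r : ℕ} (hr : r.Prime) (h : r ∣ N) :
    tauAllMul N r hr = (cosetU hr h).heckeHomMul := dif_pos h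

theorem tauAllMul_of_not_dvd {r : ℕ} (hr : r.Prime) (h : ¬ r ∣ N) :
    tauAllMul N r hr = (cosetT hr h).heckeHomMul := dif_neg h

/-- compatibility of `tauAll` (with `A := Additive ℂˣ`) and `tauAllMul` -/
theorem tauAll_toAdditive {r : ℕ} (hr : r.Prime) (ψ : Gamma0 N →* ℂˣ) :
    tauAll N r hr (MonoidHom.toAdditive ψ) = MonoidHom.toAdditive (tauAllMul N r hr ψ) := by
  unfold tauAll tauAllMul
  split_ifs with h
  · exact CosetData.heckeHom_toAdditive _ ψ
  · exact CosetData.heckeHom_toAdditive _ ψ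

theorem tauAllMul_mem_charGroup {r : ℕ} (hr : r.Prime) {ψ : Gamma0 N →* ℂˣ}
    (hψ : ψ ∈ charGroup N) : tauAllMul N r hr ψ ∈ charGroup N := by
  unfold tauAllMul
  split_ifs with h
  · exact heckeHomMul_mem_charGroup _ hψ
  · exact heckeHomMul_mem_charGroup _ hψ

/-- **`τ_r` on the character group `X = charGroup N`** -/
def tauChar (N : ℕ) (r : ℕ) (hr : r.Prime) : charGroup N →* charGroup N :=
  ((tauAllMul N r hr).comp (charGroup N).subtype).codRestrict (charGroup N)
    fun ψ => tauAllMul_mem_charGroup hr ψ.2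

theorem coe_tauChar {r : ℕ} (hr : r.Prime) (ψ : charGroup N) :
    ((tauChar N r hr ψ : charGroup N) : Gamma0 N →* ℂˣ) = tauAllMul N r hr ψ := rfl

end Fermat.Agent.S30.Hecke.EllFree
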