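import Mathlib
import Fermat.Agent.S30.Hecke.CosetStar
import Fermat.Agent.S30.Hecke.EllFree

/-!
# PROJECT J (S30), slice J-4-H (H10): `sStarT` / `sStarU` are systems of representatives of
`Γ₀(N r) \ Γ₀(N)`; the Fricke twist preserves `charGroup N` and `parabolicHoms`

* `mem_Gamma0_mul_of_relZ`, `exists_relZ_of_mem` : `Γ₀(N r) = Γ₀(N) ∩ d⁻¹ Γ₀(N) d`, `d = diag(r, 1)`;
* `sys_surj`, `sys_inj` : for any coset data over `iota N` with `rep x = diag(r,1) * iota N (s x)`;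
* **`sStarT_inj`, `sStarT_surj`, `sStarU_inj`, `sStarU_surj`** in the shape of
  `NormEmbReps.isSystem_of_surj`;
* **`cWMul_mem_charGroup_iff`**, `cW_mem_parabolicHoms_iff`;
* **`exists_cosetStar`** : the all-primes package consumed by `PhiEquivariant` / `FrickeTwist`.
-/

set_option autoImplicit false
set_option linter.unusedSectionVars false

open CongruenceSubgroup ModularCurve.Period
open scoped MatrixGroups

noncomputable section

namespace Fermat.Agent.S30.Hecke.CosetStarSys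

open Fermat.Agent.S30.Hecke.DoubleCoset Fermat.Agent.S30.Hecke.Gamma0Cosets
  Fermat.Agent.S30.Hecke.CosetStar Fermat.Agent.S30.Spec

variable {N : ℕ} [NeZero N] {r : ℕ}

/-! ### `Γ₀(N r)` and conjugation by `diag(r, 1)` -/

theorem mem_Gamma0_mul_of_relZ {k : SL(2, ℤ)} {c : Gamma0 N}
    (h : repZ r none * (k : Matrix (Fin 2) (Fin 2) ℤ) =
      ((c : SL(2, ℤ)) : Matrix (Fin 2) (Fin 2) ℤ) * repZ r none) : k ∈ Gamma0 (N * r) := by
  rw [Gamma0_mem, ZMod.intCast_zmod_eq_zero_iff_dvd]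
  have h10 := congrFun (congrFun h 1) 0
  simp only [repZ, Matrix.mul_apply, Fin.sum_univ_two] at h10
  simp at h10
  obtain ⟨m, hm⟩ := dvd_entry N c
  refine ⟨m, ?_⟩
  rw [h10, hm]
  push_cast
  ring

theorem exists_relZ_of_mem {k : SL(2, ℤ)} (hk : k ∈ Gamma0 (N * r)) :
    ∃ c : Gamma0 N, repZ r none * (k : Matrix (Fin 2) (Fin 2) ℤ) =
      ((c : SL(2, ℤ)) : Matrix (Fin 2) (Fin 2) ℤ) * repZ r none := by
  rw [Gamma0_mem, ZMod.intCast_zmod_eq_zero_iff_dvd] at hk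
  obtain ⟨m, hm⟩ := hk
  have hdet := k.det_coe
  rw [Matrix.det_fin_two] at hdet
  have hm' : (k : Matrix (Fin 2) (Fin 2) ℤ) 1 0 = (N : ℤ) * (r : ℤ) * m := by
    rw [hm]
    push_cast
    ring
  refine ⟨mkGamma0 N (k 0 0) (r * k 0 1) (N * m) (k 1 1) ?_ (Dvd.intro _ rfl), ?_⟩
  · linear_combination hdet + (k : Matrix (Fin 2) (Fin 2) ℤ) 0 1 * hm'
  · rw [coe_mkGamma0]
    conv_lhs => rw [Matrix.eta_fin_two (k : Matrix (Fin 2) (Fin 2) ℤ)]
    simp only [repZ, Matrix.mul_fin_two]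
    exact of_eq (by ring) (by ring) (by linear_combination hm') (by ring)

/-- from `GL₂(ℝ)` to `ℤ` -/
theorem relZ_of_diag_rel (hr : r ≠ 0) {k c : Gamma0 N}
    (h : ModularForm.heckeDiagMatrix r * iota N k = iota N c * ModularForm.heckeDiagMatrix r) :
    repZ r none * ((k : SL(2, ℤ)) : Matrix (Fin 2) (Fin 2) ℤ) =
      ((c : SL(2, ℤ)) : Matrix (Fin 2) (Fin 2) ℤ) * repZ r none := by
  have h1 := congrArg (fun u : GL (Fin 2) ℝ => (u : Matrix (Fin 2) (Fin 2) ℝ)) h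
  simp only [Units.val_mul] at h1
  have hd : ((ModularForm.heckeDiagMatrix r : GL (Fin 2) ℝ) : Matrix (Fin 2) (Fin 2) ℝ) =
      (repZ r none).map (Int.castRingHom ℝ) := coe_repT hr none
  rw [hd, coe_iota', coe_iota', ← Matrix.map_mul, ← Matrix.map_mul] at h1
  exact Matrix.map_injective (Int.cast_injective (α := ℝ)) h1

/-- from `ℤ` to `GL₂(ℝ)` -/
theorem diag_rel_of_relZ (hr : r ≠ 0) {k c : Gamma0 N}
    (h : repZ r none * ((k : SL(2, ℤ)) : Matrix (Fin 2) (Fin 2) ℤ) =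
      ((c : SL(2, ℤ)) : Matrix (Fin 2) (Fin 2) ℤ) * repZ r none) :
    ModularForm.heckeDiagMatrix r * iota N k = iota N c * ModularForm.heckeDiagMatrix r :=
  rel_of_relZ (N := N) hr (x := none) (x' := none) h

/-! ### systems of representatives from coset data -/

section Sys

variable {X : Type*} (D : CosetData (iota N) X) (s : X → Gamma0 N)
  (hrep : ∀ x, D.rep x = ModularForm.heckeDiagMatrix r * iota N (s x))

include hrep in
theorem sys_surj (hr : r ≠ 0) (x₀ : X) (h₀ : s x₀ = 1) (g : Gamma0 N) :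
    ∃ x, (g : SL(2, ℤ)) * ((s x : Gamma0 N) : SL(2, ℤ))⁻¹ ∈ Gamma0 (N * r) := by
  refine ⟨D.perm g x₀, ?_⟩
  have h1 := D.rel g x₀
  rw [hrep, hrep, h₀, map_one, mul_one] at h1
  have h2 : ModularForm.heckeDiagMatrix r * iota N (g * (s (D.perm g x₀))⁻¹) =
      iota N (D.coc g x₀) * ModularForm.heckeDiagMatrix r := by
    rw [map_mul, map_inv, ← mul_assoc, h1]
    simp only [mul_assoc, mul_inv_cancel, mul_one]
  exact mem_Gamma0_mul_of_relZ (relZ_of_diag_rel hr h2)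

include hrep in
theorem sys_inj (hr : r ≠ 0)
    (hsep : ∀ (x x' : X) (g : Gamma0 N), D.rep x = iota N g * D.rep x' → x = x') (x y : X)
    (h : ((s y : Gamma0 N) : SL(2, ℤ)) * ((s x : Gamma0 N) : SL(2, ℤ))⁻¹ ∈ Gamma0 (N * r)) :
    x = y := by
  obtain ⟨c, hc⟩ := exists_relZ_of_mem (N := N) h
  have h2 : ModularForm.heckeDiagMatrix r * iota N (s y * (s x)⁻¹) =
      iota N c * ModularForm.heckeDiagMatrix r := diag_rel_of_relZ hr hc
  refine (hsep y x c ?_).symm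
  rw [hrep, hrep, ← mul_assoc, ← h2, map_mul, map_inv]
  simp only [mul_assoc, inv_mul_cancel, mul_one]

end Sys

/-! ### the concrete systems -/

section Concrete

theorem sStarT_zero (hr : r.Prime) (hrN : ¬ r ∣ N) : sStarT hr hrN (some ⟨0, hr.pos⟩) = 1 := sMat_zero N

theorem sStarU_zero (hr : r.Prime) : sStarU (N := N) r ⟨0, hr.pos⟩ = 1 := sMat_zero N

/-- **`sStarT` is injective modulo `Γ₀(N r)`** -/
theorem sStarT_inj (hr : r.Prime) (hrN : ¬ r ∣ N) (x y : Option (Fin r))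
    (h : ((sStarT hr hrN y : Gamma0 N) : SL(2, ℤ)) *
      ((sStarT hr hrN x : Gamma0 N) : SL(2, ℤ))⁻¹ ∈ Gamma0 (N * r)) : x = y :=
  sys_inj (cosetStarT hr hrN) (sStarT hr hrN) (cosetStarT_rep hr hrN) hr.ne_zero
    (cosetStarT_sep hr hrN) x y h

/-- **`sStarT` is surjective modulo `Γ₀(N r)`** -/
theorem sStarT_surj (hr : r.Prime) (hrN : ¬ r ∣ N) (g : SL(2, ℤ)) (hg : g ∈ Gamma0 N) :
    ∃ x, g * ((sStarT hr hrN x : Gamma0 N) : SL(2, ℤ))⁻¹ ∈ Gamma0 (N * r) :=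
  sys_surj (cosetStarT hr hrN) (sStarT hr hrN) (cosetStarT_rep hr hrN) hr.ne_zero
    (some ⟨0, hr.pos⟩) (sStarT_zero hr hrN) ⟨g, hg⟩

/-- **`sStarU` is injective modulo `Γ₀(N r)`** -/
theorem sStarU_inj (hr : r.Prime) (hrN : r ∣ N) (x y : Fin r)
    (h : ((sStarU (N := N) r y : Gamma0 N) : SL(2, ℤ)) *
      ((sStarU (N := N) r x : Gamma0 N) : SL(2, ℤ))⁻¹ ∈ Gamma0 (N * r)) : x = y :=
  sys_inj (cosetStarU hr hrN) (sStarU r) (cosetStarU_rep hr hrN) hr.ne_zero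
    (cosetStarU_sep hr hrN) x y h

/-- **`sStarU` is surjective modulo `Γ₀(N r)`** -/
theorem sStarU_surj (hr : r.Prime) (hrN : r ∣ N) (g : SL(2, ℤ)) (hg : g ∈ Gamma0 N) :
    ∃ x, g * ((sStarU (N := N) r x : Gamma0 N) : SL(2, ℤ))⁻¹ ∈ Gamma0 (N * r) :=
  sys_surj (cosetStarU hr hrN) (sStarU r) (cosetStarU_rep hr hrN) hr.ne_zero
    ⟨0, hr.pos⟩ (sStarU_zero hr) ⟨g, hg⟩

end Concrete

/-! ### the Fricke twist preserves `charGroup N` and parabolic homomorphisms -/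

section Preserve

theorem isOfFinOrder_frickeEquiv {g : Gamma0 N} (h : IsOfFinOrder g) :
    IsOfFinOrder (frickeEquiv N g) :=
  MonoidHom.isOfFinOrder (frickeEquiv N).toMonoidHom h

theorem trace_sq_frickeEquiv {γ : Gamma0 N}
    (hγ : ((γ : SL(2, ℤ)) : Matrix (Fin 2) (Fin 2) ℤ).trace ^ 2 = 4) :
    (((frickeEquiv N γ : Gamma0 N) : SL(2, ℤ)) : Matrix (Fin 2) (Fin 2) ℤ).trace ^ 2 = 4 := by
  rw [trace_frickeEquiv]
  exact hγ

theorem cWMul_isParChar {ψ : Gamma0 N →* ℂˣ} (h : IsParChar ψ) : IsParChar (cWMul N ℂˣ ψ) :=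
  fun γ hγ => h (frickeEquiv N γ) (trace_sq_frickeEquiv hγ)

theorem cWMul_isEllFree {ψ : Gamma0 N →* ℂˣ} (h : IsEllFree ψ) : IsEllFree (cWMul N ℂˣ ψ) :=
  fun γ hγ => h (frickeEquiv N γ) (isOfFinOrder_frickeEquiv hγ)

theorem cWMul_cWMul (ψ : Gamma0 N →* ℂˣ) : cWMul N ℂˣ (cWMul N ℂˣ ψ) = ψ :=
  (cWMul N ℂˣ).symm_apply_apply ψ

/-- **the Fricke twist preserves `charGroup N`** -/
theorem cWMul_mem_charGroup_iff (ψ : Gamma0 N →* ℂˣ) :
    cWMul N ℂˣ ψ ∈ charGroup N ↔ ψ ∈ charGroup N := by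
  constructor
  · intro h
    rw [← cWMul_cWMul ψ]
    exact ⟨cWMul_isParChar h.1, cWMul_isEllFree h.2⟩
  · intro h
    exact ⟨cWMul_isParChar h.1, cWMul_isEllFree h.2⟩

theorem cWMul_symm_mem_charGroup_iff (ψ : Gamma0 N →* ℂˣ) :
    (cWMul N ℂˣ).symm ψ ∈ charGroup N ↔ ψ ∈ charGroup N :=
  cWMul_mem_charGroup_iff ψ

theorem cW_isParabolicHom {A : Type*} [AddCommGroup A] {φ : Additive (Gamma0 N) →+ A}
    (h : IsParabolicHom (Gamma0 N) φ) : IsParabolicHom (Gamma0 N) (cW N A φ) :=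
  fun γ hγ => h (frickeEquiv N γ) (trace_sq_frickeEquiv hγ)

theorem cW_cW {A : Type*} [AddCommGroup A] (φ : Additive (Gamma0 N) →+ A) :
    cW N A (cW N A φ) = φ :=
  (cW N A).symm_apply_apply φ

/-- the Fricke twist preserves parabolic homomorphisms -/
theorem cW_isParabolicHom_iff {A : Type*} [AddCommGroup A] (φ : Additive (Gamma0 N) →+ A) :
    IsParabolicHom (Gamma0 N) (cW N A φ) ↔ IsParabolicHom (Gamma0 N) φ := by
  constructor
  · intro h
    rw [← cW_cW φ]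
    exact cW_isParabolicHom h
  · exact cW_isParabolicHom

end Preserve

end Fermat.Agent.S30.Hecke.CosetStarSys
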