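import Mathlib
import Fermat.Agent.S30.Analytic.Character
import Fermat.Agent.S30.Hecke.DoubleCoset

/-!
# PROJECT J (S30), slice J-4-C: the character of a product over coset representatives (helper5)

Function level.  `Γ ≤ SL(2, ℤ)`, `incl Γ : Γ →* GL₂(ℝ)` the inclusion, `D : CosetData (incl Γ) X`
coset data (`Hecke/DoubleCoset`) whose representatives have positive determinant.

* `smul_slash_of_pos`, `slash_incl`, `slash_rep_slash` : `(G ∣[k] rep x) ∣[k] γ =
  (G ∣[k] coc γ x) ∣[k] rep (perm γ x)`;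
* **`hasChar_prod_slash`** : `HasChar Γ k G ψ → HasChar Γ (k * card X) (∏ x, G ∣[k] rep x)
  (heckeHomMul D ψ)`;
* `mdifferentiable_prod_slash`, `prod_slash_ne_zero` : holomorphy and nonvanishing of the product;
* `IsRootChar.smul` : the root character is insensitive to constant factors;
* **`isRootChar_prod_slash`** : `IsRootChar Γ n k F ψ → IsRootChar Γ n (k * card X)
  (∏ x, F ∣[n * k] rep x) (heckeHomMul D ψ)`;
* `isRootChar_prod_slash_pair` : the same for `F = a * b ^ (n - 1)` in terms of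
  `(∏ x, a ∣[k] rep x) * (∏ x, b ∣[k] rep x) ^ (n - 1)`.
-/

set_option autoImplicit false

noncomputable section

namespace Fermat.Agent.S30.Hecke.CharProduct

open UpperHalfPlane ModularForm Matrix.SpecialLinearGroup
open scoped Manifold MatrixGroups ModularForm
open Fermat.Agent.S30.Analytic.Character Fermat.Agent.S30.Hecke.DoubleCoset

/-- the inclusion `Γ → GL₂(ℝ)` -/
def incl (Γ : Subgroup SL(2, ℤ)) : ↥Γ →* GL (Fin 2) ℝ := (mapGL ℝ).comp Γ.subtype

theorem slash_incl {Γ : Subgroup SL(2, ℤ)} (k : ℤ) (f : ℍ → ℂ) (γ : Γ) :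
    f ∣[k] (incl Γ γ) = f ∣[k] (γ : SL(2, ℤ)) := rfl

theorem sigma_of_pos {g : GL (Fin 2) ℝ} (hg : 0 < g.det.val) (c : ℂ) : σ g c = c := by
  rw [σ, if_pos hg]
  rfl

theorem smul_slash_of_pos {g : GL (Fin 2) ℝ} (hg : 0 < g.det.val) (k : ℤ) (f : ℍ → ℂ) (c : ℂ) :
    (c • f) ∣[k] g = c • f ∣[k] g := by
  rw [ModularForm.smul_slash, sigma_of_pos hg]

theorem real_smul_eq (r : ℝ) (f : ℍ → ℂ) : r • f = (r : ℂ) • f := by
  ext τ
  rw [Pi.smul_apply, Pi.smul_apply, Complex.real_smul, smul_eq_mul]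

section Coset

variable {Γ : Subgroup SL(2, ℤ)} {X : Type*} [Fintype X] (D : CosetData (incl Γ) X)

omit [Fintype X] in
/-- moving `γ ∈ Γ` across a representative -/
theorem slash_rep_slash (k : ℤ) (G : ℍ → ℂ) (γ : Γ) (x : X) :
    (G ∣[k] D.rep x) ∣[k] (γ : SL(2, ℤ)) =
      (G ∣[k] ((D.coc γ x : Γ) : SL(2, ℤ))) ∣[k] D.rep (D.perm γ x) := by
  rw [← slash_incl, ← SlashAction.slash_mul, D.rel, SlashAction.slash_mul, slash_incl]

variable (hdet : ∀ x, 0 < (D.rep x).det.val)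

include hdet in
/-- **the character of the product over the coset representatives** -/
theorem hasChar_prod_slash {k : ℤ} {G : ℍ → ℂ} {ψ : Γ →* ℂˣ} (h : HasChar Γ k G ψ) :
    HasChar Γ (k * (Fintype.card X : ℤ)) (∏ x, G ∣[k] D.rep x) (D.heckeHomMul ψ) := by
  intro γ
  have h1 : (∏ x, G ∣[k] D.rep x) ∣[k * (Fintype.card X : ℤ)] (γ : SL(2, ℤ)) =
      ∏ x, (G ∣[k] D.rep x) ∣[k] (γ : SL(2, ℤ)) := by
    rw [SL_slash, ← Finset.card_univ, ModularForm.prod_slash]
    have hd : |(((γ : SL(2, ℤ)) : GL (Fin 2) ℝ)).det.val| = 1 := by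
      simp
    rw [hd, one_zpow, one_smul]
    rfl
  rw [h1]
  have h2 : ∀ x, (G ∣[k] D.rep x) ∣[k] (γ : SL(2, ℤ)) =
      ((ψ (D.coc γ x) : ℂˣ) : ℂ) • G ∣[k] D.rep (D.perm γ x) := by
    intro x
    rw [slash_rep_slash, h (D.coc γ x), smul_slash_of_pos (hdet _)]
  rw [Finset.prod_congr rfl fun x _ => h2 x]
  ext τ
  rw [Finset.prod_apply, Pi.smul_apply, Finset.prod_apply, smul_eq_mul, D.heckeHomMul_apply]
  simp only [Pi.smul_apply, smul_eq_mul]
  rw [Finset.prod_mul_distrib, Units.coe_prod]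
  congr 1
  exact Equiv.prod_comp (D.perm γ) (fun y => (G ∣[k] D.rep y) τ)

/-- holomorphy of the product -/
theorem mdifferentiable_prod_slash {k : ℤ} {G : ℍ → ℂ} (hG : MDiff G) :
    MDiff (∏ x, G ∣[k] D.rep x) := by
  classical
  have : ∀ s : Finset X, MDiff (∏ x ∈ s, G ∣[k] D.rep x) := by
    intro s
    induction s using Finset.induction_on with
    | empty =>
      rw [Finset.prod_empty]
      exact mdifferentiable_const
    | insert a s ha ih =>
      rw [Finset.prod_insert ha]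
      exact (hG.slash k _).mul ih
  exact this Finset.univ

/-- nonvanishing of the product -/
theorem prod_slash_ne_zero {k : ℤ} {G : ℍ → ℂ} (hG : MDiff G) (hG0 : G ≠ 0) :
    (∏ x, G ∣[k] D.rep x) ≠ 0 := by
  classical
  have hs : ∀ s : Finset X, MDiff (∏ x ∈ s, G ∣[k] D.rep x) := by
    intro s
    induction s using Finset.induction_on with
    | empty =>
      rw [Finset.prod_empty]
      exact mdifferentiable_const
    | insert a s ha ih =>
      rw [Finset.prod_insert ha]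
      exact (hG.slash k _).mul ih
  have : ∀ s : Finset X, (∏ x ∈ s, G ∣[k] D.rep x) ≠ 0 := by
    intro s
    induction s using Finset.induction_on with
    | empty =>
      rw [Finset.prod_empty]
      exact one_ne_zero
    | insert a s ha ih =>
      rw [Finset.prod_insert ha]
      intro h0
      rcases eq_zero_or_eq_zero_of_mul_eq_zero (hG.slash k _) (hs s) h0 with h1 | h1
      · exact hG0 ((SlashAction.slash_eq_zero_iff k (D.rep a) G).mp h1)
      · exact ih h1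
  exact this Finset.univ

end Coset

/-! ### root characters -/

/-- the root character is insensitive to constant factors -/
theorem IsRootChar.smul {Γ : Subgroup SL(2, ℤ)} {n : ℕ} (hn : n ≠ 0) {k : ℤ} {F : ℍ → ℂ}
    {ψ : Γ →* ℂˣ} (C : ℂ) (h : IsRootChar Γ n k F ψ) : IsRootChar Γ n k (C • F) ψ := by
  obtain ⟨c, hc⟩ := IsAlgClosed.exists_pow_nat_eq C (Nat.pos_of_ne_zero hn)
  rw [← hc]
  exact h.const_smul c

/-- the converse for `C ≠ 0` -/
theorem IsRootChar.of_smul {Γ : Subgroup SL(2, ℤ)} {n : ℕ} (hn : n ≠ 0) {k : ℤ} {F : ℍ → ℂ}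
    {ψ : Γ →* ℂˣ} {C : ℂ} (hC : C ≠ 0) (h : IsRootChar Γ n k (C • F) ψ) :
    IsRootChar Γ n k F ψ := by
  have := IsRootChar.smul hn C⁻¹ h
  rwa [smul_smul, inv_mul_cancel₀ hC, one_smul] at this

/-- the slash of a power by an element of `GL₂(ℝ)` -/
theorem pow_slash_GL (G : ℍ → ℂ) (k : ℤ) (n : ℕ) (g : GL (Fin 2) ℝ) :
    (G ^ n) ∣[(n : ℤ) * k] g = ((|g.det.val| ^ ((n : ℤ) - 1) : ℝ) : ℂ) • (G ∣[k] g) ^ n := by
  have := ModularForm.prod_slash (k := k) (g := g) (f := fun _ : ℕ => G) (s := Finset.range n)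
  rw [Finset.prod_const, Finset.prod_const, Finset.card_range, real_smul_eq] at this
  rw [mul_comm]
  exact this

section Coset

variable {Γ : Subgroup SL(2, ℤ)} {X : Type*} [Fintype X] (D : CosetData (incl Γ) X)
  (hdet : ∀ x, 0 < (D.rep x).det.val)

/-- the product of the slashes of a power -/
theorem prod_pow_slash (G : ℍ → ℂ) (k : ℤ) (n : ℕ) :
    ∏ x, (G ^ n) ∣[(n : ℤ) * k] D.rep x =
      (∏ x, ((|(D.rep x).det.val| ^ ((n : ℤ) - 1) : ℝ) : ℂ)) • (∏ x, G ∣[k] D.rep x) ^ n := by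
  rw [Finset.prod_congr rfl fun x _ => pow_slash_GL G k n (D.rep x)]
  ext τ
  simp only [Finset.prod_apply, Pi.smul_apply, Pi.pow_apply, smul_eq_mul]
  rw [Finset.prod_mul_distrib, Finset.prod_pow]

include hdet in
/-- **the root character of the product over the coset representatives** -/
theorem isRootChar_prod_slash {n : ℕ} (hn : n ≠ 0) {k : ℤ} {F : ℍ → ℂ} {ψ : Γ →* ℂˣ}
    (h : IsRootChar Γ n k F ψ) :
    IsRootChar Γ n (k * (Fintype.card X : ℤ)) (∏ x, F ∣[(n : ℤ) * k] D.rep x)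
      (D.heckeHomMul ψ) := by
  obtain ⟨G, hG, hGF, hGψ⟩ := h
  rw [← hGF, prod_pow_slash]
  exact IsRootChar.smul hn _
    ⟨∏ x, G ∣[k] D.rep x, mdifferentiable_prod_slash D hG, rfl, hasChar_prod_slash D hdet hGψ⟩

/-- the slash of `a * b ^ (n - 1)` -/
theorem mul_pow_slash_GL (a b : ℍ → ℂ) (k : ℤ) {n : ℕ} (hn : n ≠ 0) (g : GL (Fin 2) ℝ) :
    (a * b ^ (n - 1)) ∣[(n : ℤ) * k] g =
      ((|g.det.val| ^ ((n : ℤ) - 1) : ℝ) : ℂ) • (a ∣[k] g * (b ∣[k] g) ^ (n - 1)) := by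
  obtain ⟨m, rfl⟩ : ∃ m, n = m + 1 := ⟨n - 1, (Nat.succ_pred_eq_of_ne_zero hn).symm⟩
  rw [Nat.add_sub_cancel]
  have hk : ((m + 1 : ℕ) : ℤ) * k = k + (m : ℤ) * k := by push_cast; ring
  rw [hk, ModularForm.mul_slash, pow_slash_GL, real_smul_eq, mul_smul_comm, smul_smul]
  congr 1
  have h0 : |g.det.val| ≠ 0 := abs_ne_zero.mpr (Matrix.GeneralLinearGroup.det_ne_zero g)
  have h1 : ((m + 1 : ℕ) : ℤ) - 1 = 1 + ((m : ℤ) - 1) := by push_cast; ring
  rw [h1, zpow_add₀ h0, zpow_one]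
  push_cast
  rfl

include hdet in
/-- **the root character of the product, for `F = a * b ^ (n - 1)`** (`a`, `b` of weight `k`) -/
theorem isRootChar_prod_slash_pair {n : ℕ} (hn : n ≠ 0) {k : ℤ} {a b : ℍ → ℂ} {ψ : Γ →* ℂˣ}
    (h : IsRootChar Γ n k (a * b ^ (n - 1)) ψ) :
    IsRootChar Γ n (k * (Fintype.card X : ℤ))
      ((∏ x, a ∣[k] D.rep x) * (∏ x, b ∣[k] D.rep x) ^ (n - 1)) (D.heckeHomMul ψ) := by
  have h1 := isRootChar_prod_slash D hdet hn h
  rw [Finset.prod_congr rfl fun x _ => mul_pow_slash_GL a b k hn (D.rep x)] at h1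
  have h2 : ∏ x, ((|(D.rep x).det.val| ^ ((n : ℤ) - 1) : ℝ) : ℂ) •
      (a ∣[k] D.rep x * (b ∣[k] D.rep x) ^ (n - 1)) =
      (∏ x, ((|(D.rep x).det.val| ^ ((n : ℤ) - 1) : ℝ) : ℂ)) •
        ((∏ x, a ∣[k] D.rep x) * (∏ x, b ∣[k] D.rep x) ^ (n - 1)) := by
    ext τ
    simp only [Finset.prod_apply, Pi.smul_apply, Pi.mul_apply, Pi.pow_apply, smul_eq_mul]
    rw [Finset.prod_mul_distrib, Finset.prod_mul_distrib, Finset.prod_pow]
  rw [h2] at h1
  refine IsRootChar.of_smul hn ?_ h1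
  refine Finset.prod_ne_zero_iff.mpr fun x _ => ?_
  exact Complex.ofReal_ne_zero.mpr
    (zpow_ne_zero _ (abs_ne_zero.mpr (Matrix.GeneralLinearGroup.det_ne_zero _)))

end Coset

end Fermat.Agent.S30.Hecke.CharProduct
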