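import Mathlib
import Fermat.Agent.S24.Bridge
import Fermat.Agent.S24.AllPlaces
import Fermat.Agent.S24.LaurentPt
import Fermat.Agent.S37.ES.DegreeBeta
import Fermat.Agent.S37.Hecke.Integral

/-!
# J-4-N (N2): the norm along `α : ℚ̄(X₀(N)) → ℚ̄(X₀(N r))` is the product over coset translates

`F_N = modularFunctionFieldBar N`, `α = heckeAlphaBar ℚ̄ N r` (the inclusion), `r ≥ 1` arbitrary.

* (a) `finrankAlong_alpha_eq_relIndex` : `[F_{N r} : α F_N] = [Γ₀(N) : Γ₀(N r)]`.
* (b) `Lfam_norm` : for every expansion functional `T` and every `γ`,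
  `Lfam N ι T γ (Norm g) = ∏ q, Lfam (N r) ι T (rep q * γ) g`, `q` running over
  `Γ₀(N) ⧸ Γ₀(N r)` (as subgroups of `GL(2, ℝ)`, the index set of Mathlib's `ModularForm.norm`) and
  `rep q ∈ Γ₀(N)` the element of `SL(2, ℤ)` with image `q.out⁻¹`.
* (c) `isRepOf_norm` : if `toRepField (N r) ι g` is represented by the forms `(A, B)` of weight `k`
  on `Γ₀(N r)` then `toRepField N ι (Norm g)` is represented by
  `(ModularForm.norm (G0 N) A, ModularForm.norm (G0 N) B)`.
-/

set_option autoImplicit false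
set_option linter.unusedSectionVars false
set_option linter.style.haveILetI false

noncomputable section

namespace Fermat.Agent.S30.Hecke.NormEmbForms

open CongruenceSubgroup UpperHalfPlane ModularCurve AlgebraicCurve IntermediateField
open Fermat.Agent.S20 Fermat.Agent.S23.QRing Fermat.Agent.S24.RepHom Fermat.Agent.S24.RepAll
  Fermat.Agent.S24.Bridge Fermat.Agent.S24.DegreeAlg

open scoped MatrixGroups ModularForm Manifold

local notation "Kb" => AlgebraicClosure ℚ

/-! ### Group theory: `Γ₀(N r) ≤ Γ₀(N)` and the index set -/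

section Group

variable (N r : ℕ)

theorem Gamma0_mul_le : Gamma0 (N * r) ≤ Gamma0 N := by
  intro g hg
  rw [Gamma0_mem, ZMod.intCast_zmod_eq_zero_iff_dvd] at hg ⊢
  exact dvd_trans (by exact_mod_cast dvd_mul_right N r) hg

theorem G0_mul_le : G0 (N * r) ≤ G0 N :=
  Subgroup.map_mono (Gamma0_mul_le N r)

/-- The index set of Mathlib's `ModularForm.norm` from level `N r` to level `N`. -/
abbrev Q : Type := ↥(G0 N) ⧸ (G0 (N * r)).subgroupOf (G0 N)

theorem card_Q : Nat.card (Q N r) = (Gamma0 (N * r)).relIndex (Gamma0 N) := by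
  rw [← Subgroup.index_eq_card]
  exact Subgroup.relIndex_map_map_of_injective (Gamma0 (N * r)) (Gamma0 N)
    Matrix.SpecialLinearGroup.mapGL_injective

theorem exists_rep (q : Q N r) :
    ∃ s : SL(2, ℤ), s ∈ Gamma0 N ∧
      Matrix.SpecialLinearGroup.mapGL ℝ s = ((Quotient.out q : ↥(G0 N)) : GL (Fin 2) ℝ)⁻¹ := by
  obtain ⟨s, hs, hs'⟩ := (Quotient.out q : ↥(G0 N)).2
  exact ⟨s⁻¹, inv_mem hs, by rw [map_inv, hs']⟩

/-- The representative in `SL(2, ℤ)` of the inverse of `q.out`. -/
def rep (q : Q N r) : SL(2, ℤ) := Classical.choose (exists_rep N r q)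

theorem rep_mem (q : Q N r) : rep N r q ∈ Gamma0 N := (Classical.choose_spec (exists_rep N r q)).1

theorem mapGL_rep (q : Q N r) :
    Matrix.SpecialLinearGroup.mapGL ℝ (rep N r q) =
      ((Quotient.out q : ↥(G0 N)) : GL (Fin 2) ℝ)⁻¹ :=
  (Classical.choose_spec (exists_rep N r q)).2

/-- Distinct cosets have representatives in distinct right cosets of `Γ₀(N r)`. -/
theorem eq_of_rep_mul_inv_mem {q q' : Q N r}
    (h : rep N r q' * (rep N r q)⁻¹ ∈ Gamma0 (N * r)) : q = q' := by
  have h1 : Matrix.SpecialLinearGroup.mapGL ℝ (rep N r q' * (rep N r q)⁻¹) ∈ G0 (N * r) :=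
    Subgroup.mem_map_of_mem _ h
  rw [map_mul, map_inv, mapGL_rep, mapGL_rep, inv_inv] at h1
  have h2 : (QuotientGroup.mk (Quotient.out q') : Q N r) = QuotientGroup.mk (Quotient.out q) := by
    rw [QuotientGroup.eq, Subgroup.mem_subgroupOf]
    exact h1
  rw [QuotientGroup.out_eq', QuotientGroup.out_eq'] at h2
  exact h2.symm

end Group

/-! ### (a) the degree of `α` -/

section Degree

variable (N r : ℕ) [NeZero N] [NeZero r]

theorem dedekindPsi_eq_index : dedekindPsi N = (Gamma0 N).index := by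
  rw [Subgroup.index_eq_card, ← Fermat.Agent.S24.Degree.finrank_eq_card,
    Fermat.Agent.S18.C.Forms.finrank_bar_eq_dedekindPsi]

theorem index_Gamma0_pos : 0 < (Gamma0 N).index := by
  rw [← dedekindPsi_eq_index]
  exact Fermat.Agent.S37.ES.DegreeBeta.dedekindPsi_pos N

/-- **(a)** `[ℚ̄(X₀(N r)) : α ℚ̄(X₀(N))] = [Γ₀(N) : Γ₀(N r)]`. -/
theorem finrankAlong_alpha_eq_relIndex :
    finrankAlong Kb (heckeAlphaBar Kb N r) = (Gamma0 (N * r)).relIndex (Gamma0 N) := by
  rw [Fermat.Agent.S37.ES.DegreeBeta.finrankAlong_eq_relfinrank (AlgHom.id Kb (LaurentSeries Kb))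
    (heckeAlphaBar Kb N r) (fun x => coe_heckeAlphaBar N r x)]
  have : (modularFunctionFieldBar N).map (AlgHom.id Kb (LaurentSeries Kb))
      = modularFunctionFieldBar N := IntermediateField.map_id _
  rw [this]
  have h := IntermediateField.relfinrank_mul_relfinrank
    (Fermat.Agent.S37.ES.DegreeBeta.kJ_le_bar N) (Fermat.Agent.S37.ES.DegreeBeta.bar_le_bar N r)
  rw [Fermat.Agent.S37.ES.DegreeBeta.relfinrank_kJ_bar,
    Fermat.Agent.S37.ES.DegreeBeta.relfinrank_kJ_bar, dedekindPsi_eq_index, dedekindPsi_eq_index,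
    ← Subgroup.relIndex_mul_index (Gamma0_mul_le N r), mul_comm] at h
  exact Nat.eq_of_mul_eq_mul_right (index_Gamma0_pos N) h

theorem relIndex_pos : 0 < (Gamma0 (N * r)).relIndex (Gamma0 N) := by
  rw [← finrankAlong_alpha_eq_relIndex]
  unfold finrankAlong
  letI := algebraAlong (heckeAlphaBar Kb N r)
  haveI : Module.Finite ↥(modularFunctionFieldBar N) ↥(modularFunctionFieldBar (N * r)) :=
    Fermat.Agent.S37.Hecke.Integral.finiteAlong_alpha N r
  exact Module.finrank_pos

instance isFiniteRelIndex : (G0 (N * r)).IsFiniteRelIndex (G0 N) where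
  relIndex_ne_zero := by
    have := card_Q N r
    rw [← Subgroup.index_eq_card] at this
    show ((G0 (N * r)).subgroupOf (G0 N)).index ≠ 0
    rw [this]
    exact (relIndex_pos N r).ne'

instance finite_Q : Finite (Q N r) := by
  apply Nat.finite_of_card_ne_zero
  rw [card_Q]
  exact (relIndex_pos N r).ne'

end Degree

/-! ### (b) the norm along `α` under the expansion homomorphisms -/

section Lfam

variable {N r : ℕ} [NeZero N] [NeZero r] (ι : Kb →+* ℂ)
variable {P : (ℍ → ℂ) → Prop} {Ω : Type*} [Field Ω] [Algebra ℂ Ω] (T : HolHom P Ω)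

/-- A form of level `N` is a form of level `N r`. -/
theorem isMF_mul {k : ℤ} {a : ℍ → ℂ} (h : IsMF (G0 N) k a) : IsMF (G0 (N * r)) k a :=
  h.mono (G0_mul_le N r)

theorem isRepOf_mul {g : LaurentSeries ℂ} {k : ℤ} {a b : ℍ → ℂ} (h : IsRepOf N g k a b) :
    IsRepOf (N * r) g k a b :=
  ⟨isMF_mul h.ha, isMF_mul h.hb, h.hb0, h.eq⟩

/-- The class `P` contains the translates of the forms of level `N` as soon as it contains those
of the forms of level `N r`. -/
theorem slashP_of_mul {γ : SL(2, ℤ)} (hP : SlashP (N * r) P γ) : SlashP N P γ :=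
  fun k a h => hP k a (isMF_mul h)

theorem coe_toRepField_alpha (y : ↥(modularFunctionFieldBar N)) :
    ((toRepField (N * r) ι (heckeAlphaBar Kb N r y) : repField (N * r)) : LaurentSeries ℂ) =
      ((toRepField N ι y : repField N) : LaurentSeries ℂ) := by
  rw [coe_toRepField, coe_toRepField, coe_heckeAlphaBar]

variable {ι T}

/-- `hbase`: on `α F_N` the homomorphism attached to `δ * γ`, `δ ∈ Γ₀(N)`, is the one attached to
`γ` at level `N`. -/
theorem Lfam_alpha {γ δ : SL(2, ℤ)} (hδ : δ ∈ Gamma0 N) (hP : SlashP (N * r) P (δ * γ))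
    (hP0 : SlashP N P γ) (y : ↥(modularFunctionFieldBar N)) :
    Lfam ι T (δ * γ) hP (heckeAlphaBar Kb N r y) = Lfam ι T γ hP0 y := by
  obtain ⟨k, a, b, h⟩ := (toRepField N ι y).2
  have h' : IsRepOf (N * r)
      ((toRepField (N * r) ι (heckeAlphaBar Kb N r y) : repField (N * r)) : LaurentSeries ℂ)
      k a b := by
    rw [coe_toRepField_alpha]
    exact isRepOf_mul h
  rw [Lfam_apply, Lfam_apply, Lmap_eq_div hP _ h', Lmap_eq_div hP0 _ h,
    slash_mul_left_of_mem hδ h.ha, slash_mul_left_of_mem hδ h.hb]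

variable (ι T)

/-- **(b)** The norm along `α` under the expansion homomorphisms. -/
theorem Lfam_norm (hsub : ∀ f g : ℍ → ℂ, P f → P g → P (f - g)) (γ : SL(2, ℤ))
    (hP : ∀ δ : SL(2, ℤ), SlashP (N * r) P δ) (g : ↥(modularFunctionFieldBar (N * r))) :
    letI := algebraAlong (heckeAlphaBar Kb N r)
    letI := Fintype.ofFinite (Q N r)
    Lfam ι T γ (slashP_of_mul (hP γ)) (Algebra.norm ↥(modularFunctionFieldBar N) g) =
      ∏ q : Q N r, Lfam ι T (rep N r q * γ) (hP _) g := by
  classical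
  letI := algebraAlong (heckeAlphaBar Kb N r)
  letI := Fintype.ofFinite (Q N r)
  haveI : Module.Finite ↥(modularFunctionFieldBar N) ↥(modularFunctionFieldBar (N * r)) :=
    Fermat.Agent.S37.Hecke.Integral.finiteAlong_alpha N r
  haveI : FiniteDimensional ↥(modularFunctionFieldBar N) ↥(modularFunctionFieldBar (N * r)) :=
    this
  haveI : Algebra.IsSeparable ↥(modularFunctionFieldBar N) ↥(modularFunctionFieldBar (N * r)) :=
    Algebra.IsAlgebraic.isSeparable_of_perfectField
  have hcard : Fintype.card (Q N r) =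
      Module.finrank ↥(modularFunctionFieldBar N) ↥(modularFunctionFieldBar (N * r)) := by
    rw [← Nat.card_eq_fintype_card, card_Q, ← finrankAlong_alpha_eq_relIndex]
    rfl
  have hbase : ∀ (q : Q N r) (y : ↥(modularFunctionFieldBar N)),
      Lfam ι T (rep N r q * γ) (hP _)
        (algebraMap ↥(modularFunctionFieldBar N) ↥(modularFunctionFieldBar (N * r)) y) =
      Lfam ι T γ (slashP_of_mul (hP γ)) y := fun q y =>
    Lfam_alpha (rep_mem N r q) (hP _) (slashP_of_mul (hP γ)) y
  have hinj : Function.Injective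
      (fun q : Q N r => Lfam (N := N * r) ι T (rep N r q * γ) (hP _)) := by
    intro q q' hqq
    have h1 := congrArg (fun f : ↥(modularFunctionFieldBar (N * r)) →+* Ω =>
      f (jdivF (N * r) ⟨N * r, dvd_rfl⟩)) hqq
    beta_reduce at h1
    rw [Lfam_jdivF_self, Lfam_jdivF_self] at h1
    have h2 := Fermat.Agent.S24.LmapSep.mem_Gamma0_of_Lmap_eq T hsub (hP _) (hP _) h1
    apply eq_of_rep_mul_inv_mem
    have : rep N r q' * γ * (rep N r q * γ)⁻¹ = rep N r q' * (rep N r q)⁻¹ := by group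
    rwa [this] at h2
  exact Fermat.Agent.S24.AllPlaces.map_norm_eq_prod _ hinj hcard _ hbase g

end Lfam

/-! ### (c) the norm of a representation -/

section Norm

variable {N r : ℕ} [NeZero N] [NeZero r] (ι : Kb →+* ℂ)

/-- The coset translates entering Mathlib's `ModularForm.norm` are the translates by `rep q`. -/
theorem quotientFunc_eq_slash_rep {k : ℤ} (F : ModularForm (G0 (N * r)) k) (q : Q N r) :
    SlashInvariantForm.quotientFunc (ℋ := G0 N) F q = (⇑F : ℍ → ℂ) ∣[k] (rep N r q) := by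
  conv_lhs => rw [← Quotient.out_eq q]
  rw [SlashInvariantForm.quotientFunc_mk, ModularForm.SL_slash]
  rw [← mapGL_rep N r q]
  rfl

theorem coe_norm_eq_prod_rep {k : ℤ} (F : ModularForm (G0 (N * r)) k) :
    letI := Fintype.ofFinite (Q N r)
    (⇑(ModularForm.norm (G0 N) F) : ℍ → ℂ) = ∏ q : Q N r, (⇑F : ℍ → ℂ) ∣[k] (rep N r q) := by
  letI := Fintype.ofFinite (Q N r)
  rw [ModularForm.coe_norm]
  exact Finset.prod_congr rfl fun q _ => quotientFunc_eq_slash_rep F q

/-- An expansion functional is multiplicative on finite products. -/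
theorem holHom_map_prod {P : (ℍ → ℂ) → Prop} {Ω : Type*} [Field Ω] [Algebra ℂ Ω] (T : HolHom P Ω)
    (h1 : P (fun _ => (1 : ℂ))) {α : Type*} (s : Finset α) (f : α → ℍ → ℂ)
    (hf : ∀ i ∈ s, P (f i)) :
    P (∏ i ∈ s, f i) ∧ T.T (∏ i ∈ s, f i) = ∏ i ∈ s, T.T (f i) := by
  classical
  induction s using Finset.induction_on with
  | empty =>
    rw [Finset.prod_empty, Finset.prod_empty]
    refine ⟨h1, ?_⟩
    have := T.map_const 1
    rw [map_one] at this
    exact this
  | insert i t hi IH =>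
    obtain ⟨hPt, hTt⟩ := IH fun j hj => hf j (Finset.mem_insert_of_mem hj)
    have hPi := hf i (Finset.mem_insert_self i t)
    rw [Finset.prod_insert hi, Finset.prod_insert hi]
    exact ⟨T.P_mul _ _ hPi hPt, by rw [T.map_mul _ _ hPi hPt, hTt]⟩

/-- **(c)**, form level: the norm along `α` of a function represented by `(A, B)` is represented
by `(Norm A, Norm B)` (Mathlib's `ModularForm.norm` from `Γ₀(N r)` to `Γ₀(N)`). -/
theorem isRepOf_norm_forms (g : ↥(modularFunctionFieldBar (N * r))) {k : ℤ}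
    (FA FB : ModularForm (G0 (N * r)) k)
    (h : IsRepOf (N * r) ((toRepField (N * r) ι g : repField (N * r)) : LaurentSeries ℂ) k
      ⇑FA ⇑FB) :
    letI := algebraAlong (heckeAlphaBar Kb N r)
    IsRepOf N
      ((toRepField N ι (Algebra.norm ↥(modularFunctionFieldBar N) g) : repField N) :
        LaurentSeries ℂ)
      (k * Nat.card (Q N r)) ⇑(ModularForm.norm (G0 N) FA) ⇑(ModularForm.norm (G0 N) FB) := by
  classical
  letI := algebraAlong (heckeAlphaBar Kb N r)
  letI := Fintype.ofFinite (Q N r)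
  obtain ⟨k', a', b', h'⟩ :=
    (toRepField N ι (Algebra.norm ↥(modularFunctionFieldBar N) g)).2
  set T := Fermat.Agent.S24.LaurentPt.taylorHolHom UpperHalfPlane.I with hT
  have hP : ∀ δ : SL(2, ℤ), SlashP (N * r) (fun f : ℍ → ℂ => MDiff f) δ :=
    fun δ => slashP_mdiff (N * r) δ
  have hP0 : SlashP N (fun f : ℍ → ℂ => MDiff f) 1 := slashP_of_mul (hP 1)
  have hnorm := Lfam_norm ι T Fermat.Agent.S24.LmapSep.mdiff_sub_closed 1 hP g
  rw [Lfam_apply, Lmap_eq_div hP0 _ h', SlashAction.slash_one, SlashAction.slash_one] at hnorm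
  have hfac : ∀ q : Q N r, Lfam ι T (rep N r q * 1) (hP _) g =
      T.T ((⇑FA : ℍ → ℂ) ∣[k] rep N r q) / T.T ((⇑FB : ℍ → ℂ) ∣[k] rep N r q) := by
    intro q
    rw [Lfam_apply, Lmap_eq_div (hP _) _ h, mul_one]
  rw [Finset.prod_congr rfl fun q _ => hfac q, Finset.prod_div_distrib] at hnorm
  have h1 : MDiff (fun _ : ℍ => (1 : ℂ)) := mdifferentiable_const
  have hA := holHom_map_prod T h1 Finset.univ (fun q : Q N r => (⇑FA : ℍ → ℂ) ∣[k] rep N r q)
    fun q _ => mdiff_slash _ FA.holo'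
  have hB := holHom_map_prod T h1 Finset.univ (fun q : Q N r => (⇑FB : ℍ → ℂ) ∣[k] rep N r q)
    fun q _ => mdiff_slash _ FB.holo'
  rw [← hA.2, ← hB.2, ← coe_norm_eq_prod_rep FA, ← coe_norm_eq_prod_rep FB] at hnorm
  -- the two norm forms
  set NA := ModularForm.norm (G0 N) FA with hNA
  set NB := ModularForm.norm (G0 N) FB with hNB
  have hNB0 : (⇑NB : ℍ → ℂ) ≠ 0 := by
    intro h0
    exact ModularForm.norm_ne_zero (G0 N) h.hb0 (DFunLike.coe_injective h0)
  have hTb' : T.T b' ≠ 0 := by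
    have := den_ne_zero (T := T) hP0 h'
    rwa [SlashAction.slash_one] at this
  have hTNB : T.T ⇑NB ≠ 0 := T.ne_zero NB.holo' hNB0
  -- `a' * NB = NA * b'`
  have hfun : a' * ⇑NB = ⇑NA * b' := by
    have ha'md : MDiff a' := mdiff_of_isMF h'.ha
    have hb'md : MDiff b' := mdiff_of_isMF h'.hb
    apply Fermat.Agent.S24.LmapSep.HolHom.eq_of_map_eq T
      Fermat.Agent.S24.LmapSep.mdiff_sub_closed (ha'md.mul NB.holo') (NA.holo'.mul hb'md)
    rw [T.map_mul _ _ ha'md NB.holo', T.map_mul _ _ NA.holo' hb'md]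
    rw [div_eq_div_iff hTb' hTNB] at hnorm
    exact hnorm
  -- `q`-expansions
  have hQa' : IsQ a' := isQ_of_isMF h'.ha
  have hQb' : IsQ b' := isQ_of_isMF h'.hb
  have hQNA : IsQ (⇑NA : ℍ → ℂ) := isQ_of_isMF (IsMF.coe NA)
  have hQNB : IsQ (⇑NB : ℍ → ℂ) := isQ_of_isMF (IsMF.coe NB)
  refine ⟨IsMF.coe NA, IsMF.coe NB, hNB0, ?_⟩
  have hqx := congrArg (fun F : ℍ → ℂ => ofPS (qx F)) hfun
  beta_reduce at hqx
  rw [qx_mul hQa' hQNB, qx_mul hQNA hQb', map_mul, map_mul, h'.eq] at hqx
  apply mul_right_cancel₀ h'.qx_b_ne_zero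
  rw [← hqx]
  ring

/-- **(c)**, function level: if `(a, b)` represents `g` at level `N r`, the products of the
translates by the coset representatives represent `Norm g` at level `N`. -/
theorem isRepOf_norm (g : ↥(modularFunctionFieldBar (N * r))) {k : ℤ} {a b : ℍ → ℂ}
    (h : IsRepOf (N * r) ((toRepField (N * r) ι g : repField (N * r)) : LaurentSeries ℂ) k a b) :
    letI := algebraAlong (heckeAlphaBar Kb N r)
    letI := Fintype.ofFinite (Q N r)
    IsRepOf N
      ((toRepField N ι (Algebra.norm ↥(modularFunctionFieldBar N) g) : repField N) :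
        LaurentSeries ℂ)
      (k * Nat.card (Q N r)) (∏ q : Q N r, a ∣[k] rep N r q) (∏ q : Q N r, b ∣[k] rep N r q) := by
  letI := algebraAlong (heckeAlphaBar Kb N r)
  letI := Fintype.ofFinite (Q N r)
  obtain ⟨FA, rfl⟩ := h.ha
  obtain ⟨FB, rfl⟩ := h.hb
  rw [← coe_norm_eq_prod_rep FA, ← coe_norm_eq_prod_rep FB]
  exact isRepOf_norm_forms ι g FA FB h

end Norm

end Fermat.Agent.S30.Hecke.NormEmbForms
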