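import Mathlib
import Fermat.Agent.S30.Hecke.NormEmbForms

/-!
# J-4-N (N3): independence of the coset representatives in the norm along `α`

`NormEmbForms.isRepOf_norm` expresses the norm of a modular function along
`α : ℚ̄(X₀(N)) → ℚ̄(X₀(N r))` through the products `∏ q, a ∣[k] rep q` over the system of
representatives `rep q`, `q ∈ Γ₀(N) ⧸ Γ₀(N r)`, chosen there.  Here we show that any other system
of representatives `s : X → SL(2, ℤ)` of `Γ₀(N r) \ Γ₀(N)` gives the same products, so consumers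
may use their own coset system.
-/

set_option autoImplicit false
set_option linter.unusedSectionVars false
set_option linter.style.haveILetI false

noncomputable section

namespace Fermat.Agent.S30.Hecke.NormEmbReps

open CongruenceSubgroup UpperHalfPlane ModularCurve AlgebraicCurve
open Fermat.Agent.S20 Fermat.Agent.S24.RepHom Fermat.Agent.S24.RepAll
  Fermat.Agent.S24.DegreeAlg Fermat.Agent.S30.Hecke.NormEmbForms

open scoped MatrixGroups ModularForm Manifold

local notation "Kb" => AlgebraicClosure ℚ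

section Group

variable {N : ℕ} (r : ℕ)

/-- The class in `Γ₀(N) ⧸ Γ₀(N r)` of the inverse of `s ∈ Γ₀(N)`: the index `q` with
`rep q ∈ Γ₀(N r) s`. -/
def cls (s : SL(2, ℤ)) (hs : s ∈ Gamma0 N) : Q N r :=
  QuotientGroup.mk
    (⟨(Matrix.SpecialLinearGroup.mapGL ℝ s)⁻¹, inv_mem (Subgroup.mem_map_of_mem _ hs)⟩ : ↥(G0 N))

theorem mem_Gamma0_of_mapGL_mem {M : ℕ} {δ : SL(2, ℤ)}
    (h : Matrix.SpecialLinearGroup.mapGL ℝ δ ∈ G0 M) : δ ∈ Gamma0 M := by
  obtain ⟨δ', hδ', h'⟩ := h
  rwa [← Matrix.SpecialLinearGroup.mapGL_injective h']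

theorem rep_cls_mul_inv_mem (s : SL(2, ℤ)) (hs : s ∈ Gamma0 N) :
    rep N r (cls r s hs) * s⁻¹ ∈ Gamma0 (N * r) := by
  apply mem_Gamma0_of_mapGL_mem
  rw [map_mul, map_inv, Fermat.Agent.S30.Hecke.NormEmbForms.mapGL_rep]
  have h : (QuotientGroup.mk (Quotient.out (cls r s hs)) : Q N r) = cls r s hs :=
    QuotientGroup.out_eq' _
  unfold cls at h
  rw [QuotientGroup.eq, Subgroup.mem_subgroupOf] at h
  exact h

theorem cls_eq_cls_iff {s s' : SL(2, ℤ)} (hs : s ∈ Gamma0 N) (hs' : s' ∈ Gamma0 N) :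
    cls r s hs = cls r s' hs' ↔ s' * s⁻¹ ∈ Gamma0 (N * r) := by
  unfold cls
  rw [QuotientGroup.eq, Subgroup.mem_subgroupOf]
  constructor
  · intro h
    have h1 : Matrix.SpecialLinearGroup.mapGL ℝ (s * s'⁻¹) ∈ G0 (N * r) := by
      rw [map_mul, map_inv]
      simpa using h
    have h2 := inv_mem (mem_Gamma0_of_mapGL_mem h1)
    rwa [mul_inv_rev, inv_inv] at h2
  · intro h
    have h1 : Matrix.SpecialLinearGroup.mapGL ℝ (s * s'⁻¹) ∈ G0 (N * r) := by
      apply Subgroup.mem_map_of_mem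
      have := inv_mem h
      rwa [mul_inv_rev, inv_inv] at this
    rw [map_mul, map_inv] at h1
    simpa using h1

theorem cls_rep (q : Q N r) : cls r (rep N r q) (rep_mem N r q) = q := by
  apply eq_of_rep_mul_inv_mem
  have := inv_mem (rep_cls_mul_inv_mem r (rep N r q) (rep_mem N r q))
  rwa [mul_inv_rev, inv_inv] at this

end Group

section Reps

variable {N r : ℕ} [NeZero N] [NeZero r]

/-- The translate by `rep (cls s)` is the translate by `s`. -/
theorem slash_rep_cls {k : ℤ} {a : ℍ → ℂ} (ha : IsMF (G0 (N * r)) k a) (s : SL(2, ℤ))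
    (hs : s ∈ Gamma0 N) : a ∣[k] rep N r (cls r s hs) = a ∣[k] s := by
  have h := slash_mul_left_of_mem (γ := s) (rep_cls_mul_inv_mem r s hs) ha
  rwa [inv_mul_cancel_right] at h

variable {X : Type*} [Fintype X] (s : X → SL(2, ℤ)) (hs : ∀ x, s x ∈ Gamma0 N)

/-- A family of elements of `Γ₀(N)` is a *system of representatives* of `Γ₀(N r) \ Γ₀(N)` when
`x ↦ cls (s x)` is bijective. -/
def IsSystem (r : ℕ) {X : Type*} (s : X → SL(2, ℤ)) (hs : ∀ x, s x ∈ Gamma0 N) : Prop :=
  Function.Bijective fun x => cls r (s x) (hs x)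

theorem isSystem_of_card (hinj : ∀ x y, s y * (s x)⁻¹ ∈ Gamma0 (N * r) → x = y)
    (hcard : Fintype.card X = (Gamma0 (N * r)).relIndex (Gamma0 N)) : IsSystem r s hs := by
  classical
  letI := Fintype.ofFinite (Q N r)
  refine (Fintype.bijective_iff_injective_and_card _).mpr ⟨?_, ?_⟩
  · intro x y hxy
    exact hinj x y ((cls_eq_cls_iff r (hs x) (hs y)).mp hxy)
  · rw [hcard, ← card_Q, Nat.card_eq_fintype_card]

theorem isSystem_of_surj (hinj : ∀ x y, s y * (s x)⁻¹ ∈ Gamma0 (N * r) → x = y)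
    (hsurj : ∀ g ∈ Gamma0 N, ∃ x, g * (s x)⁻¹ ∈ Gamma0 (N * r)) : IsSystem r s hs := by
  refine ⟨?_, ?_⟩
  · intro x y hxy
    exact hinj x y ((cls_eq_cls_iff r (hs x) (hs y)).mp hxy)
  · intro q
    obtain ⟨x, hx⟩ := hsurj (rep N r q) (rep_mem N r q)
    refine ⟨x, ?_⟩
    show cls r (s x) (hs x) = q
    rw [← cls_rep r q]
    exact (cls_eq_cls_iff r (hs x) (rep_mem N r q)).mpr hx

/-- **Independence of the representatives.** -/
theorem prod_slash_eq_prod_rep (hsys : IsSystem r s hs) {k : ℤ} {a : ℍ → ℂ}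
    (ha : IsMF (G0 (N * r)) k a) :
    letI := Fintype.ofFinite (Q N r)
    ∏ x, a ∣[k] s x = ∏ q : Q N r, a ∣[k] rep N r q := by
  letI := Fintype.ofFinite (Q N r)
  rw [← (Equiv.ofBijective _ hsys).prod_comp]
  exact Finset.prod_congr rfl fun x _ => (slash_rep_cls ha (s x) (hs x)).symm

variable (ι : Kb →+* ℂ)

/-- **(NS-α)** with an arbitrary system of representatives `s` of `Γ₀(N r) \ Γ₀(N)`. -/
theorem isRepOf_norm_of_isSystem (hsys : IsSystem r s hs)
    (g : ↥(modularFunctionFieldBar (N * r))) {k : ℤ} {a b : ℍ → ℂ}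
    (h : IsRepOf (N * r) ((toRepField (N * r) ι g : repField (N * r)) : LaurentSeries ℂ) k a b) :
    letI := algebraAlong (heckeAlphaBar Kb N r)
    IsRepOf N
      ((toRepField N ι (Algebra.norm ↥(modularFunctionFieldBar N) g) : repField N) :
        LaurentSeries ℂ)
      (k * Fintype.card X) (∏ x, a ∣[k] s x) (∏ x, b ∣[k] s x) := by
  letI := algebraAlong (heckeAlphaBar Kb N r)
  letI := Fintype.ofFinite (Q N r)
  have hc : Fintype.card X = Nat.card (Q N r) := by
    rw [Nat.card_eq_fintype_card]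
    exact Fintype.card_of_bijective hsys
  rw [prod_slash_eq_prod_rep s hs hsys h.ha, prod_slash_eq_prod_rep s hs hsys h.hb, hc]
  exact isRepOf_norm ι g h

end Reps

end Fermat.Agent.S30.Hecke.NormEmbReps
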