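import Mathlib
import Fermat.Agent.S30.Spec
import Fermat.Agent.S30.Hecke.NormEmbReps
import Fermat.Agent.S30.Hecke.CharProduct
import Fermat.Agent.S37.Hecke.Principal

/-!
# J-4-Phi: the dictionary `Φ` is Hecke-equivariant

`IsPhiOf N ι x ψ → IsPhiOf N ι (heckeOperatorBar N ℓ x) (D.heckeHomMul ψ)` for coset data `D` whose
representatives are `d_ℓ * g_i`, `d_ℓ = diag(ℓ, 1)`, `g_i` a system of representatives of
`Γ₀(N ℓ) \ Γ₀(N)`.

* divisor step: `x = [D]`, `n D = div f` ⟹ `T_ℓ x = [D']`, `n D' = div (N_α (β f))`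
  (`S37/Hecke/Inputs`, `S37/Hecke/Principal`);
* analytic step: `f = a / b` ⟹ `N_α (β f) = ∏ (a ∣ d_ℓ g_i) / ∏ (b ∣ d_ℓ g_i)`
  (`hbeta` = the analytic description of `β`, a hypothesis here; `NormEmbReps`);
* character step: `CharProduct.isRootChar_prod_slash_pair`.
-/

set_option autoImplicit false
set_option linter.unusedSectionVars false
set_option linter.style.haveILetI false

noncomputable section

namespace Fermat.Agent.S30.Hecke.PhiEquivariant

open CongruenceSubgroup UpperHalfPlane ModularCurve AlgebraicCurve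
open Fermat.Agent.S20 Fermat.Agent.S24.RepHom Fermat.Agent.S24.RepAll
  Fermat.Agent.S30.Hecke.NormEmbForms Fermat.Agent.S30.Hecke.NormEmbReps
  Fermat.Agent.S30.Hecke.CharProduct Fermat.Agent.S30.Hecke.DoubleCoset
  Fermat.Agent.S30.Analytic.Character Fermat.Agent.S30.Spec
  Fermat.Agent.S37.Hecke.Integral Fermat.Agent.S37.Hecke.Inputs Fermat.Agent.S37.Hecke.Principal
  Fermat.Agent.S37.ES

open scoped MatrixGroups ModularForm Manifold

local notation "Kb" => AlgebraicClosure ℚ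

/-! ### the divisor step -/

section DivisorStep

variable (N : ℕ) [NeZero N] (ℓ : Nat.Primes)

/-- `T_ℓ [D] = [D']` with `n D' = div (N_α (β f))` when `n D = div f`. -/
theorem exists_hecke_divisor
    (D : Divisor.degZero (K := Kb) (F := modularFunctionFieldBar N))
    {n : ℕ} {f : modularFunctionFieldBar N} (hf : f ≠ 0)
    (hD : ∀ v : Place Kb (modularFunctionFieldBar N),
      (n : ℤ) * (D : Divisor Kb (modularFunctionFieldBar N)) v = v.ord f) :
    haveI : NeZero (ℓ : ℕ) := ⟨ℓ.2.ne_zero⟩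
    ∃ D' : Divisor.degZero (K := Kb) (F := modularFunctionFieldBar N),
      heckeOperatorBar N ℓ (Pic0.mk D) = Pic0.mk D' ∧
      ∀ v : Place Kb (modularFunctionFieldBar N),
        (n : ℤ) * (D' : Divisor Kb (modularFunctionFieldBar N)) v =
          v.ord (NormRed.normBeta N ℓ f) := by
  haveI : NeZero (ℓ : ℕ) := ⟨ℓ.2.ne_zero⟩
  haveI := hasPrincipalDivisors_level N ℓ
  refine ⟨_, heckeOperatorBar_mk N ℓ D, fun v => ?_⟩
  rw [coe_degZeroCorrespondence]
  have h1 : ∀ v : Place Kb (modularFunctionFieldBar N),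
      ((n : ℤ) • (D : Divisor Kb (modularFunctionFieldBar N))) v = v.ord f := by
    intro v
    rw [Finsupp.smul_apply, smul_eq_mul]
    exact hD v
  have h2 := heckeDiv_principal N ℓ hf h1 v
  rw [map_zsmul, Finsupp.smul_apply, smul_eq_mul] at h2
  exact h2

theorem normBeta_ne_zero {f : modularFunctionFieldBar N} (hf : f ≠ 0) :
    haveI : NeZero (ℓ : ℕ) := ⟨ℓ.2.ne_zero⟩
    NormRed.normBeta N ℓ f ≠ 0 := by
  haveI : NeZero (ℓ : ℕ) := ⟨ℓ.2.ne_zero⟩
  letI := algebraAlong (heckeAlphaBar Kb N ℓ)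
  haveI : Module.Finite ↥(modularFunctionFieldBar N) ↥(modularFunctionFieldBar (N * ℓ)) :=
    finiteAlong_alpha N ℓ
  haveI : Module.Free ↥(modularFunctionFieldBar N) ↥(modularFunctionFieldBar (N * ℓ)) :=
    Module.Free.of_divisionRing _ _
  rw [NormRed.normBeta_def, Ne, Algebra.norm_eq_zero_iff]
  exact (map_ne_zero_iff _ (heckeBetaBar Kb N ℓ).injective).mpr hf

end DivisorStep

/-! ### the equivariance -/

section Main

variable {N : ℕ} [NeZero N] (ℓ : Nat.Primes) (ι : Kb →+* ℂ)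
variable {X : Type*} [Fintype X] (D : CosetData (incl (Gamma0 N)) X)
  (dr : GL (Fin 2) ℝ) (hdr : 0 < dr.det.val)
  (s : X → SL(2, ℤ)) (hs : ∀ x, s x ∈ Gamma0 N) (hsys : IsSystem (ℓ : ℕ) s hs)
  (hrep : ∀ x, D.rep x = dr * Matrix.SpecialLinearGroup.mapGL ℝ (s x))

/-- The analytic description of `β` (`β f = f(q^ℓ)` is represented by the translates by
`d_ℓ = diag(ℓ, 1)` of the forms representing `f`), as a hypothesis. -/
def BetaRep (N : ℕ) [NeZero N] (ℓ : Nat.Primes) (ι : Kb →+* ℂ) (dr : GL (Fin 2) ℝ) : Prop :=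
  haveI : NeZero (ℓ : ℕ) := ⟨ℓ.2.ne_zero⟩
  ∀ (f : modularFunctionFieldBar N) (k : ℤ) (a b : ℍ → ℂ),
    IsRepOf N (coeffMap ι (f : LaurentSeries Kb)) k a b →
    IsRepOf (N * ℓ)
      (coeffMap ι ((heckeBetaBar Kb N ℓ f : modularFunctionFieldBar (N * ℓ)) : LaurentSeries Kb))
      k (a ∣[k] dr) (b ∣[k] dr)

include hrep in
theorem slash_rep_eq (k : ℤ) (a : ℍ → ℂ) (x : X) :
    a ∣[k] D.rep x = (a ∣[k] dr) ∣[k] s x := by
  rw [hrep, SlashAction.slash_mul, ModularForm.SL_slash]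
  rfl

include hdr hrep in
theorem det_rep_pos (x : X) : 0 < (D.rep x).det.val := by
  rw [hrep, map_mul]
  have h1 : ((Matrix.SpecialLinearGroup.mapGL ℝ (s x) : GL (Fin 2) ℝ)).det = 1 := by
    simp
  rw [h1, mul_one]
  exact hdr

include hdr hsys hrep in
/-- **J-4-Phi**: `Φ` intertwines `T_ℓ = heckeOperatorBar N ℓ` and the double-coset operator of
`Γ₀(N) d_ℓ Γ₀(N)` on characters. -/
theorem isPhiOf_hecke (hbeta : BetaRep N ℓ ι dr) {x : JZero N} {ψ : Gamma0 N →* ℂˣ}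
    (h : IsPhiOf N ι x ψ) : IsPhiOf N ι (heckeOperatorBar N ℓ x) (D.heckeHomMul ψ) := by
  haveI : NeZero (ℓ : ℕ) := ⟨ℓ.2.ne_zero⟩
  obtain ⟨n, D0, f, k, a, b, hn, hf, rfl, hD, hrepf, hroot⟩ := h
  obtain ⟨D', hTD, hD'⟩ := exists_hecke_divisor N ℓ D0 hf hD
  refine ⟨n, D', NormRed.normBeta N ℓ f, k * (Fintype.card X : ℤ), ∏ x, a ∣[k] D.rep x,
    ∏ x, b ∣[k] D.rep x, hn, normBeta_ne_zero N ℓ hf, hTD, hD', ?_,
    isRootChar_prod_slash_pair D (det_rep_pos D dr hdr s hrep) hn hroot⟩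
  have h1 := hbeta f k a b hrepf
  rw [← coe_toRepField] at h1
  have h2 := isRepOf_norm_of_isSystem s hs ι hsys (heckeBetaBar Kb N ℓ f) h1
  rw [coe_toRepField] at h2
  rw [Finset.prod_congr rfl fun x _ => slash_rep_eq D dr s hrep k a x,
    Finset.prod_congr rfl fun x _ => slash_rep_eq D dr s hrep k b x]
  exact h2

end Main

end Fermat.Agent.S30.Hecke.PhiEquivariant
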