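import Mathlib
import Fermat.Agent.S30.Hecke.PhiEquivariant
import Fermat.Agent.S24.LevelRaise
import Fermat.Agent.S24.QRep

/-!
# J-4-Phi input (d): the analytic description of `β`

`β f = f(q^ℓ)`: if `f ∈ ℚ̄(X₀(N))` is represented by the forms `(a, b)` of weight `k` and level `N`,
then `β f ∈ ℚ̄(X₀(N ℓ))` is represented by `(a ∣[k] d_ℓ, b ∣[k] d_ℓ)`, `d_ℓ = diag(ℓ, 1)`
(`ModularForm.heckeDiagMatrix ℓ`), forms of level `N ℓ`.

* `raiseForm ℓ A : ModularForm (G0 (N ℓ)) k` with coercion `A ∣[k] d_ℓ` (any `ℓ ≥ 1`);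
* `ofPS_qx_slash_diag` : the `q`-expansion of `a ∣[k] d_ℓ` is `ℓ^(k-1) (qx a)(q^ℓ)`;
* **`betaRep ℓ ι : PhiEquivariant.BetaRep N ℓ ι (heckeDiagMatrix ℓ)`**.
-/

set_option autoImplicit false
set_option linter.unusedSectionVars false
set_option linter.style.haveILetI false

noncomputable section

namespace Fermat.Agent.S30.Hecke.BetaRep

open CongruenceSubgroup UpperHalfPlane ModularCurve AlgebraicCurve ModularForm
open Fermat.Agent.S20 Fermat.Agent.S24.RepHom Fermat.Agent.S24.RepAll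
  Fermat.Agent.S23.QRing Fermat.Agent.S30.Hecke.PhiEquivariant

open scoped MatrixGroups ModularForm Manifold

local notation "Kb" => AlgebraicClosure ℚ

section Raise

variable {N : ℕ} [NeZero N] (ℓ : ℕ) [NeZero ℓ] {k : ℤ}

/-- slash invariance of `A ∣[k] diag(ℓ,1)` under `Γ₀(N ℓ)`. -/
theorem slash_diag_slash (A : ModularForm (G0 N) k) (γ : GL (Fin 2) ℝ) (hγ : γ ∈ G0 (N * ℓ)) :
    ((⇑A : ℍ → ℂ) ∣[k] heckeDiagMatrix ℓ) ∣[k] γ = (⇑A : ℍ → ℂ) ∣[k] heckeDiagMatrix ℓ := by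
  obtain ⟨g, hg, rfl⟩ := hγ
  have hg2 : g ∈ Gamma0 (N * ℓ) := hg
  rw [Gamma0_mem] at hg2
  have hdvd : ((N * ℓ : ℕ) : ℤ) ∣ g 1 0 := (ZMod.intCast_zmod_eq_zero_iff_dvd _ (N * ℓ)).mp hg2
  obtain ⟨e0, he0⟩ := hdvd
  have he : g 1 0 = (ℓ : ℤ) * ((N : ℤ) * e0) := by rw [he0]; push_cast; ring
  obtain ⟨g', hg'1, hg'⟩ :=
    P2MW.S_ModularForm_heckeT_slash_eq_self_of_mem_Gamma0.ModularForm.HeckeSlashInvariance.heckeDiagMatrix_mul_of_eq'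
      (NeZero.ne ℓ) g ((N : ℤ) * e0) he
  have hg'mem : g' ∈ Gamma0 N := by
    rw [Gamma0_mem, hg'1]
    push_cast
    simp
  rw [← SlashAction.slash_mul, hg', SlashAction.slash_mul]
  congr 1
  exact SlashInvariantFormClass.slash_action_eq A _ ⟨g', hg'mem, rfl⟩

/-- `A ∣[k] diag(ℓ,1)` as a modular form of level `N ℓ`. -/
def raiseForm (A : ModularForm (G0 N) k) : ModularForm (G0 (N * ℓ)) k where
  toFun := (⇑A : ℍ → ℂ) ∣[k] heckeDiagMatrix ℓ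
  slash_action_eq' γ hγ := slash_diag_slash ℓ A γ hγ
  holo' := (ModularFormClass.holo A).slash k _
  bdd_at_cusps' {c} hc := by
    obtain ⟨g, hg⟩ :=
      P2MW.S_ModularFormClass_isBoundedAt_heckeT.ModularForm.S06W2.exists_heckeDiagMatrix_eq_map ℓ
    have hc' : IsCusp c (G0 N) := by
      rw [Subgroup.IsArithmetic.isCusp_iff_isCusp_SL2Z] at hc ⊢
      exact hc
    have := P2MW.S_ModularFormClass_isBoundedAt_heckeT.ModularForm.S06W2.isBoundedAt_slash_ratCast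
      A g hc'
    rw [← hg] at this
    exact this

theorem coe_raiseForm (A : ModularForm (G0 N) k) :
    (⇑(raiseForm ℓ A) : ℍ → ℂ) = (⇑A : ℍ → ℂ) ∣[k] heckeDiagMatrix ℓ := rfl

theorem isMF_slash_diag {a : ℍ → ℂ} (ha : IsMF (G0 N) k a) :
    IsMF (G0 (N * ℓ)) k (a ∣[k] heckeDiagMatrix ℓ) := by
  obtain ⟨A, rfl⟩ := ha
  exact ⟨raiseForm ℓ A, rfl⟩

end Raise

section QExp

variable {N : ℕ} [NeZero N] (ℓ : ℕ) [NeZero ℓ] {k : ℤ}

theorem slash_diag_eq_smul_dil (a : ℍ → ℂ) :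
    a ∣[k] heckeDiagMatrix ℓ = ((ℓ : ℂ) ^ (k - 1)) • Fermat.Agent.S24.QRep.dil ℓ a := by
  ext τ
  rw [slash_heckeDiagMatrix_apply k (NeZero.ne ℓ)]
  rfl

theorem isQ_convert {a : ℍ → ℂ} (h : IsQ a) : Fermat.Agent.S24.QRep.IsQ a :=
  ⟨h.periodic, h.holo, h.bdd⟩

theorem isQ_convert' {a : ℍ → ℂ} (h : Fermat.Agent.S24.QRep.IsQ a) : IsQ a :=
  ⟨h.per, h.hol, h.bdd⟩

theorem ofPS_qx_slash_diag {a : ℍ → ℂ} (ha : IsQ a) :
    ofPS (qx (a ∣[k] heckeDiagMatrix ℓ)) =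
      HahnSeries.C ((ℓ : ℂ) ^ (k - 1)) * qExpand ℂ ℓ (ofPS (qx a)) := by
  have hd : IsQ (Fermat.Agent.S24.QRep.dil ℓ a) := isQ_convert' ((isQ_convert ha).dil ℓ)
  rw [slash_diag_eq_smul_dil, qx_smul _ hd]
  have h1 : ofPS (qx (Fermat.Agent.S24.QRep.dil ℓ a)) = qExpand ℂ ℓ (ofPS (qx a)) :=
    Fermat.Agent.S24.QRep.ofPowerSeries_qExpansion_dil (isQ_convert ha) ℓ
  rw [← h1, PowerSeries.smul_eq_C_mul, map_mul, HahnSeries.ofPowerSeries_C]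

end QExp

section Main

variable {N : ℕ} [NeZero N]

theorem betaRep (ℓ : Nat.Primes) (ι : Kb →+* ℂ) : BetaRep N ℓ ι (heckeDiagMatrix ℓ) := by
  haveI : NeZero (ℓ : ℕ) := ⟨ℓ.2.ne_zero⟩
  intro f k a b h
  refine ⟨isMF_slash_diag _ h.ha, isMF_slash_diag _ h.hb, ?_, ?_⟩
  · intro h0
    exact h.hb0 ((SlashAction.slash_eq_zero_iff k _ b).mp h0)
  · rw [ofPS_qx_slash_diag _ (isQ_of_isMF h.ha), ofPS_qx_slash_diag _ (isQ_of_isMF h.hb), h.eq,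
      map_mul, coe_heckeBetaBar, coeffMap_qExpand]
    ring

end Main

end Fermat.Agent.S30.Hecke.BetaRep

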