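import Mathlib
import Fermat.Agent.S30.Hecke.BetaRep

/-!
# J-4-Phi: coset data with representatives `d_ℓ * g_x` give a system of representatives

`D : CosetData (incl (Gamma0 N)) X` with `D.rep x = d_ℓ * mapGL ℝ (s x)`, `d_ℓ = diag(ℓ, 1)`
(`ModularForm.heckeDiagMatrix ℓ`), `s x ∈ Γ₀(N)`, separated representatives, `X` nonempty.  Then
`s` is a system of representatives of `Γ₀(N ℓ) \ Γ₀(N)` (`NormEmbReps.IsSystem`): no counting, the
map `x ↦ Γ₀(N ℓ) s x` is equivariant for the transitive right action of `Γ₀(N)`.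

Consequence: **`isPhiOf_hecke_of_sep`**, the Hecke equivariance of `Φ` for such `D`, with no further
hypothesis.
-/

set_option autoImplicit false
set_option linter.unusedSectionVars false
set_option linter.style.haveILetI false

noncomputable section

namespace Fermat.Agent.S30.Hecke.CosetSystem

open CongruenceSubgroup UpperHalfPlane ModularCurve AlgebraicCurve ModularForm
  Matrix.SpecialLinearGroup
open Fermat.Agent.S30.Hecke.NormEmbReps Fermat.Agent.S30.Hecke.CharProduct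
  Fermat.Agent.S30.Hecke.DoubleCoset Fermat.Agent.S30.Hecke.PhiEquivariant Fermat.Agent.S30.Spec

open scoped MatrixGroups ModularForm Manifold

local notation "Kb" => AlgebraicClosure ℚ

section Diag

variable {N : ℕ} (ℓ : ℕ) [NeZero ℓ]

/-- `d_ℓ δ d_ℓ⁻¹ ∈ Γ₀(N)` for `δ ∈ Γ₀(N ℓ)`. -/
theorem exists_diag_rel {δ : SL(2, ℤ)} (hδ : δ ∈ Gamma0 (N * ℓ)) :
    ∃ c : SL(2, ℤ), c ∈ Gamma0 N ∧
      heckeDiagMatrix ℓ * mapGL ℝ δ = mapGL ℝ c * heckeDiagMatrix ℓ := by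
  rw [Gamma0_mem] at hδ
  have hdvd : ((N * ℓ : ℕ) : ℤ) ∣ δ 1 0 := (ZMod.intCast_zmod_eq_zero_iff_dvd _ (N * ℓ)).mp hδ
  obtain ⟨e0, he0⟩ := hdvd
  have he : δ 1 0 = (ℓ : ℤ) * ((N : ℤ) * e0) := by rw [he0]; push_cast; ring
  obtain ⟨c, hc1, hc⟩ :=
    P2MW.S_ModularForm_heckeT_slash_eq_self_of_mem_Gamma0.ModularForm.HeckeSlashInvariance.heckeDiagMatrix_mul_of_eq'
      (NeZero.ne ℓ) δ ((N : ℤ) * e0) he
  refine ⟨c, ?_, hc⟩
  rw [Gamma0_mem, hc1]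
  push_cast
  simp

/-- Conversely, if `d_ℓ γ = c d_ℓ` with `γ ∈ SL(2, ℤ)` and `c ∈ Γ₀(N)`, then `γ ∈ Γ₀(N ℓ)`. -/
theorem mem_Gamma0_mul_of_diag_rel {γ c : SL(2, ℤ)} (hc : c ∈ Gamma0 N)
    (h : heckeDiagMatrix ℓ * mapGL ℝ γ = mapGL ℝ c * heckeDiagMatrix ℓ) : γ ∈ Gamma0 (N * ℓ) := by
  have h1 := congrArg (fun M : GL (Fin 2) ℝ => (M : Matrix (Fin 2) (Fin 2) ℝ) 1 0) h
  simp only [Matrix.GeneralLinearGroup.coe_mul, val_heckeDiagMatrix (NeZero.ne ℓ),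
    mapGL_coe_matrix, Matrix.mul_apply, Fin.sum_univ_two] at h1
  simp at h1
  have h2 : γ 1 0 = c 1 0 * (ℓ : ℤ) := by exact_mod_cast h1
  rw [Gamma0_mem] at hc ⊢
  have hdvd : (N : ℤ) ∣ c 1 0 := (ZMod.intCast_zmod_eq_zero_iff_dvd _ N).mp hc
  rw [ZMod.intCast_zmod_eq_zero_iff_dvd, h2]
  push_cast
  exact mul_dvd_mul_right hdvd _

end Diag

section System

variable {N : ℕ} [NeZero N] (ℓ : ℕ) [NeZero ℓ]
variable {X : Type*} [Fintype X] [Nonempty X] (D : CosetData (incl (Gamma0 N)) X)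
  (s : X → SL(2, ℤ)) (hs : ∀ x, s x ∈ Gamma0 N)
  (hrep : ∀ x, D.rep x = heckeDiagMatrix ℓ * mapGL ℝ (s x))
  (huniq : ∀ (x x' : X) (g : Gamma0 N), D.rep x = incl (Gamma0 N) g * D.rep x' → x = x')

include D hrep huniq in
/-- **Coset data with separated representatives `d_ℓ * s x` give a system of representatives of
`Γ₀(N ℓ) \ Γ₀(N)`.** -/
theorem isSystem_of_cosetData : IsSystem ℓ s hs := by
  apply isSystem_of_surj s hs
  · intro x y hxy
    obtain ⟨c, hc, hrel⟩ := exists_diag_rel ℓ hxy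
    refine (huniq y x ⟨c, hc⟩ ?_).symm
    rw [hrep, hrep]
    show _ = mapGL ℝ c * _
    rw [← mul_assoc, ← hrel, mul_assoc, ← map_mul, inv_mul_cancel_right]
  · intro g hg
    obtain ⟨x0⟩ := ‹Nonempty X›
    let γ : Gamma0 N := ⟨(s x0)⁻¹ * g, mul_mem (inv_mem (hs x0)) hg⟩
    refine ⟨D.perm γ x0, ?_⟩
    have hrel := D.rel γ x0
    rw [hrep, hrep] at hrel
    apply mem_Gamma0_mul_of_diag_rel ℓ (D.coc γ x0).2
    have h1 : incl (Gamma0 N) γ = mapGL ℝ ((s x0)⁻¹ * g) := rfl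
    have h2 : incl (Gamma0 N) (D.coc γ x0) = mapGL ℝ ((D.coc γ x0 : Gamma0 N) : SL(2, ℤ)) := rfl
    rw [h1, h2, mul_assoc, ← map_mul, mul_inv_cancel_left] at hrel
    rw [map_mul, ← mul_assoc, hrel, map_inv]
    group

end System

section Main

variable {N : ℕ} [NeZero N] (ℓ : Nat.Primes) (ι : Kb →+* ℂ)
variable {X : Type*} [Fintype X] [Nonempty X] (D : CosetData (incl (Gamma0 N)) X)
  (s : X → SL(2, ℤ)) (hs : ∀ x, s x ∈ Gamma0 N)
  (hrep : ∀ x, D.rep x = heckeDiagMatrix ℓ * mapGL ℝ (s x))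
  (huniq : ∀ (x x' : X) (g : Gamma0 N), D.rep x = incl (Gamma0 N) g * D.rep x' → x = x')

include s hs hrep huniq in
/-- **J-4-Phi, final form**: for coset data `D` of `Γ₀(N) d_ℓ Γ₀(N)` with separated representatives
`d_ℓ * s x`, `s x ∈ Γ₀(N)`, the dictionary `Φ` intertwines `T_ℓ = heckeOperatorBar N ℓ` and
`D.heckeHomMul`. -/
theorem isPhiOf_hecke_of_sep {x : JZero N} {ψ : Gamma0 N →* ℂˣ} (h : IsPhiOf N ι x ψ) :
    IsPhiOf N ι (heckeOperatorBar N ℓ x) (D.heckeHomMul ψ) := by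
  haveI : NeZero (ℓ : ℕ) := ⟨ℓ.2.ne_zero⟩
  exact isPhiOf_hecke ℓ ι D (heckeDiagMatrix ℓ) (det_heckeDiagMatrix_pos ℓ) s hs
    (isSystem_of_cosetData (ℓ : ℕ) D s hs hrep huniq) hrep
    (Fermat.Agent.S30.Hecke.BetaRep.betaRep ℓ ι) h

end Main

end Fermat.Agent.S30.Hecke.CosetSystem
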