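import Mathlib
import Fermat.Agent.S30.Hecke.CosetSystem
import Fermat.Agent.S30.Hecke.CosetStarSys
import Fermat.Agent.S30.Padic.TateChar

/-!
# PROJECT J (S30), slice J-4-H (H11): `Φ` intertwines `heckeOperatorBar N r` with the
Fricke-twisted standard operator, for every prime `r`

* `tStar N r hr` : the multiplicative operator of the coset data of `Γ₀(N) diag(r, 1) Γ₀(N)`;
* **`tStar_eq`** (= `hFricke`) : `tStar N r hr ψ = cWMul N ℂˣ (tauMul N r hr ((cWMul N ℂˣ).symm ψ))`;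
* **`isPhiOf_hecke_tStar`** (= `hStar`) :
  `IsPhiOf N ι x ψ → IsPhiOf N ι (heckeOperatorBar N r x) (tStar N r r.2 ψ)`;
* **`isPhiOf_hecke_twisted`** : the same with the right-hand side written out.
-/

set_option autoImplicit false
set_option linter.unusedSectionVars false

open CongruenceSubgroup ModularCurve AlgebraicCurve
open scoped MatrixGroups

noncomputable section

namespace Fermat.Agent.S30.Hecke.StarHecke

open Fermat.Agent.S30.Hecke.DoubleCoset Fermat.Agent.S30.Hecke.Gamma0Cosets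
  Fermat.Agent.S30.Hecke.CosetStar Fermat.Agent.S30.Hecke.CosetStarSys Fermat.Agent.S30.Spec
  Fermat.Agent.S30.Padic.TateChar

local notation "Kb" => AlgebraicClosure ℚ

variable (N : ℕ) [NeZero N]

/-- the multiplicative operator of `Γ₀(N) diag(r, 1) Γ₀(N)` on characters -/
def tStar (r : ℕ) (hr : r.Prime) : (Gamma0 N →* ℂˣ) →* (Gamma0 N →* ℂˣ) :=
  if h : r ∣ N then (cosetStarU hr h).heckeHomMul else (cosetStarT hr h).heckeHomMul

theorem tStar_of_dvd {r : ℕ} (hr : r.Prime) (h : r ∣ N) :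
    tStar N r hr = (cosetStarU hr h).heckeHomMul := dif_pos h

theorem tStar_of_not_dvd {r : ℕ} (hr : r.Prime) (h : ¬ r ∣ N) :
    tStar N r hr = (cosetStarT hr h).heckeHomMul := dif_neg h

/-- **(GT) for every prime**: `tStar = c_W ∘ τ_r ∘ c_W⁻¹` -/
theorem tStar_eq {r : ℕ} (hr : r.Prime) (ψ : Gamma0 N →* ℂˣ) :
    tStar N r hr ψ = cWMul N ℂˣ (tauMul N r hr ((cWMul N ℂˣ).symm ψ)) := by
  by_cases h : r ∣ N
  · rw [tStar_of_dvd N hr h, heckeHomMul_cosetStarU hr h, tauMul, dif_pos h]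
  · rw [tStar_of_not_dvd N hr h, heckeHomMul_cosetStarT hr h, tauMul, dif_neg h]

variable {N}

/-- **`Φ` intertwines `heckeOperatorBar N r` and `tStar N r`** -/
theorem isPhiOf_hecke_tStar (ι : Kb →+* ℂ) (r : Nat.Primes) {x : JZero N}
    {ψ : Gamma0 N →* ℂˣ} (h : IsPhiOf N ι x ψ) :
    IsPhiOf N ι (heckeOperatorBar N r x) (tStar N r r.2 ψ) := by
  by_cases hrN : (r : ℕ) ∣ N
  · rw [tStar_of_dvd N r.2 hrN]
    haveI : Nonempty (Fin (r : ℕ)) := ⟨⟨0, r.2.pos⟩⟩
    exact Fermat.Agent.S30.Hecke.CosetSystem.isPhiOf_hecke_of_sep r ι (cosetStarU r.2 hrN)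
      (fun j => ((sStarU (N := N) (r : ℕ) j : Gamma0 N) : SL(2, ℤ)))
      (fun j => (sStarU (N := N) (r : ℕ) j).2) (cosetStarU_rep r.2 hrN)
      (cosetStarU_sep r.2 hrN) h
  · rw [tStar_of_not_dvd N r.2 hrN]
    exact Fermat.Agent.S30.Hecke.CosetSystem.isPhiOf_hecke_of_sep r ι (cosetStarT r.2 hrN)
      (fun x => ((sStarT r.2 hrN x : Gamma0 N) : SL(2, ℤ)))
      (fun x => (sStarT r.2 hrN x).2) (cosetStarT_rep r.2 hrN)
      (cosetStarT_sep r.2 hrN) h

/-- **`Φ` intertwines `heckeOperatorBar N r` and the Fricke-twisted standard `τ_r`** -/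
theorem isPhiOf_hecke_twisted (ι : Kb →+* ℂ) (r : Nat.Primes) {x : JZero N}
    {ψ : Gamma0 N →* ℂˣ} (h : IsPhiOf N ι x ψ) :
    IsPhiOf N ι (heckeOperatorBar N r x)
      (cWMul N ℂˣ (tauMul N r r.2 ((cWMul N ℂˣ).symm ψ))) := by
  rw [← tStar_eq N r.2 ψ]
  exact isPhiOf_hecke_tStar ι r h

end Fermat.Agent.S30.Hecke.StarHecke
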