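import Mathlib
import Fermat.Agent.S37.Hecke.Principal
import Fermat.Agent.S30.Spec
import Fermat.Agent.S30.Hecke.BetaAnalytic

/-!
# PROJECT J (S30), slice J-4-N (e): the `ℚ̄`-side algebra of the Hecke dictionary (helper19)

For `x = [D] ∈ J₀(N)` with `n D = div f` (`f ∈ ℚ̄(X₀(N))`), the Prelude operator
`heckeOperatorBar N r = α_* β^*` (`r` ANY prime, also `r ∣ N`) satisfies
`heckeOperatorBar N r x = [D']` with `n D' = div (N_{α} (β f))`, `N_α (β f) = NormRed.normBeta N r f`:

* `normBeta_ne_zero`;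
* **`exists_hecke_principal`** : the witness `D'`;
* `exists_rep_beta` : `β f` is represented by `(dil r a, dil r b)` when `f` is represented by `(a, b)`
  (restatement of `BetaAnalytic.isRepOf_beta` in the shape of `Spec.IsPhiOf`);
* **`isPhiOf_hecke_of_norm`** : the reduction of the Hecke equivariance of `Φ` to the analytic norm
  formula: if `(a', b')` represents `N_α (β f)` and `ψ'` is the root character of `a' b' ^ (n - 1)`
  then `IsPhiOf (heckeOperatorBar N r x) ψ'`.
-/

set_option autoImplicit false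
set_option linter.style.haveILetI false
set_option synthInstance.maxHeartbeats 400000

noncomputable section

namespace Fermat.Agent.S30.Hecke.DictPrincipal

open AlgebraicCurve ModularCurve UpperHalfPlane CongruenceSubgroup
open scoped MatrixGroups
open Fermat.Agent.S37.Hecke.Integral Fermat.Agent.S37.Hecke.Inputs Fermat.Agent.S37.Hecke.Principal
  Fermat.Agent.S37.ES Fermat.Agent.S30.Spec Fermat.Agent.S24.RepHom Fermat.Agent.S24.RepAll
  Fermat.Agent.S30.Analytic.Character

local notation "Kb" => AlgebraicClosure ℚ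

variable (N : ℕ) [NeZero N]

/-- `N_α (β f) ≠ 0` for `f ≠ 0` -/
theorem normBeta_ne_zero (ℓ : ℕ) [NeZero ℓ] {f : modularFunctionFieldBar N} (hf : f ≠ 0) :
    NormRed.normBeta N ℓ f ≠ 0 := by
  letI := algebraAlong (heckeAlphaBar Kb N ℓ)
  haveI : Module.Finite ↥(modularFunctionFieldBar N) ↥(modularFunctionFieldBar (N * ℓ)) :=
    finiteAlong_alpha N ℓ
  haveI : FiniteDimensional ↥(modularFunctionFieldBar N) ↥(modularFunctionFieldBar (N * ℓ)) := this
  haveI : Module.Free ↥(modularFunctionFieldBar N) ↥(modularFunctionFieldBar (N * ℓ)) :=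
    Module.Free.of_divisionRing _ _
  rw [NormRed.normBeta_def]
  exact Algebra.norm_ne_zero_iff.mpr ((map_ne_zero_iff _ (heckeBetaBar Kb N ℓ).injective).mpr hf)

/-- **The `ℚ̄`-side algebra**: `n D = div f ⟹ T_r [D] = [D']` with `n D' = div (N_α (β f))`. -/
theorem exists_hecke_principal (r : Nat.Primes) {n : ℕ}
    (D : Divisor.degZero (K := Kb) (F := modularFunctionFieldBar N))
    {f : modularFunctionFieldBar N} (hf : f ≠ 0)
    (hD : ∀ v : Place Kb (modularFunctionFieldBar N),
      (n : ℤ) * (D : Divisor Kb (modularFunctionFieldBar N)) v = v.ord f) :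
    haveI : NeZero (r : ℕ) := ⟨r.2.ne_zero⟩
    ∃ D' : Divisor.degZero (K := Kb) (F := modularFunctionFieldBar N),
      heckeOperatorBar N r (Pic0.mk D) = Pic0.mk D' ∧
      ∀ v : Place Kb (modularFunctionFieldBar N),
        (n : ℤ) * (D' : Divisor Kb (modularFunctionFieldBar N)) v
          = v.ord (NormRed.normBeta N r f) := by
  haveI : NeZero (r : ℕ) := ⟨r.2.ne_zero⟩
  haveI := hasPrincipalDivisors_level N r
  refine ⟨Pic0.degZeroCorrespondence (heckeBetaBar Kb N r) (heckeAlphaBar Kb N r)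
    (betaIntegral N r) (alphaIntegral N r) (fundamentalIdentityAlong_beta N r) D,
    heckeOperatorBar_mk N r D, fun v => ?_⟩
  rw [coe_degZeroCorrespondence]
  have h1 : ∀ w : Place Kb (modularFunctionFieldBar N),
      ((n : ℤ) • (D : Divisor Kb (modularFunctionFieldBar N))) w = w.ord f := by
    intro w
    rw [Finsupp.smul_apply, smul_eq_mul]
    exact hD w
  have h2 := heckeDiv_principal N r hf h1 v
  rw [map_zsmul, Finsupp.smul_apply, smul_eq_mul] at h2
  exact h2

variable (ι : Kb →+* ℂ)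

/-- `β f` is represented by the dilated forms -/
theorem exists_rep_beta (ℓ : ℕ) [NeZero ℓ] (f : modularFunctionFieldBar N) {k : ℤ} {a b : ℍ → ℂ}
    (h : IsRepOf N (coeffMap ι (f : LaurentSeries Kb)) k a b) :
    IsRepOf (N * ℓ) (coeffMap ι ((heckeBetaBar Kb N ℓ f : modularFunctionFieldBar (N * ℓ)) :
      LaurentSeries Kb)) k (Fermat.Agent.S24.QRep.dil ℓ a) (Fermat.Agent.S24.QRep.dil ℓ b) :=
  BetaAnalytic.isRepOf_beta N ℓ ι f h

/-- **Reduction of the Hecke equivariance of `Φ` to the analytic norm formula.** -/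
theorem isPhiOf_hecke_of_norm (r : Nat.Primes) {n : ℕ} (hn : n ≠ 0)
    (D : Divisor.degZero (K := Kb) (F := modularFunctionFieldBar N))
    {f : modularFunctionFieldBar N} (hf : f ≠ 0)
    (hD : ∀ v : Place Kb (modularFunctionFieldBar N),
      (n : ℤ) * (D : Divisor Kb (modularFunctionFieldBar N)) v = v.ord f)
    {k' : ℤ} {a' b' : ℍ → ℂ} {ψ' : Gamma0 N →* ℂˣ}
    (hrep : haveI : NeZero (r : ℕ) := ⟨r.2.ne_zero⟩
      IsRepOf N (coeffMap ι ((NormRed.normBeta N r f : modularFunctionFieldBar N) :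
        LaurentSeries Kb)) k' a' b')
    (hroot : IsRootChar (Gamma0 N) n k' (a' * b' ^ (n - 1)) ψ') :
    IsPhiOf N ι (heckeOperatorBar N r (Pic0.mk D)) ψ' := by
  haveI : NeZero (r : ℕ) := ⟨r.2.ne_zero⟩
  obtain ⟨D', hD'1, hD'2⟩ := exists_hecke_principal N r D hf hD
  exact ⟨n, D', NormRed.normBeta N r f, k', a', b', hn, normBeta_ne_zero N r hf, hD'1, hD'2,
    hrep, hroot⟩

end Fermat.Agent.S30.Hecke.DictPrincipal
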