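import Mathlib

/-!
# J-4-N (N1): norm, trace and characteristic polynomial as products over a full family of embeddings

`L/K` finite separable, `Ω` an arbitrary field over `K` (not necessarily algebraically closed),
`s : X → (L →ₐ[K] Ω)` an injective family of `K`-embeddings with `#X = [L : K]`.  Then
`Norm_{L/K} h = ∏ x, s x h`, `Tr_{L/K} h = ∑ x, s x h` and the characteristic polynomial of `h`
is `∏ x, (X - s x h)` (all read in `Ω`).
-/

set_option linter.unusedSectionVars false

namespace Fermat.Agent.S30.Hecke.NormEmb

open Polynomial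

variable {K L Ω : Type*} [Field K] [Field L] [Field Ω] [Algebra K L] [Algebra K Ω]
  [FiniteDimensional K L] [Algebra.IsSeparable K L]
  {X : Type*} [Fintype X]

/-- Composing with `Ω → AlgebraicClosure Ω`. -/
noncomputable def toClosure (σ : L →ₐ[K] Ω) : L →ₐ[K] AlgebraicClosure Ω :=
  (IsScalarTower.toAlgHom K Ω (AlgebraicClosure Ω)).comp σ

theorem toClosure_apply (σ : L →ₐ[K] Ω) (h : L) :
    toClosure σ h = algebraMap Ω (AlgebraicClosure Ω) (σ h) := rfl

theorem toClosure_injective :
    Function.Injective (toClosure : (L →ₐ[K] Ω) → (L →ₐ[K] AlgebraicClosure Ω)) := by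
  intro σ τ hστ
  ext h
  have := DFunLike.congr_fun hστ h
  exact (algebraMap Ω (AlgebraicClosure Ω)).injective this

/-- A full injective family of embeddings into `Ω` enumerates all embeddings into the algebraic
closure of `Ω`. -/
theorem bijective_toClosure_comp (s : X → (L →ₐ[K] Ω)) (hinj : Function.Injective s)
    (hcard : Fintype.card X = Module.finrank K L) :
    Function.Bijective fun x => toClosure (s x) := by
  rw [Fintype.bijective_iff_injective_and_card]
  refine ⟨toClosure_injective.comp hinj, ?_⟩
  rw [hcard, AlgHom.card K L (AlgebraicClosure Ω)]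

theorem norm_eq_prod (s : X → (L →ₐ[K] Ω)) (hinj : Function.Injective s)
    (hcard : Fintype.card X = Module.finrank K L) (h : L) :
    algebraMap K Ω (Algebra.norm K h) = ∏ x, s x h := by
  apply (algebraMap Ω (AlgebraicClosure Ω)).injective
  rw [← IsScalarTower.algebraMap_apply, Algebra.norm_eq_prod_embeddings K (AlgebraicClosure Ω) h,
    map_prod]
  exact (Fintype.prod_bijective _ (bijective_toClosure_comp s hinj hcard) _ _
    (fun x => rfl)).symm

theorem trace_eq_sum (s : X → (L →ₐ[K] Ω)) (hinj : Function.Injective s)
    (hcard : Fintype.card X = Module.finrank K L) (h : L) :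
    algebraMap K Ω (Algebra.trace K L h) = ∑ x, s x h := by
  apply (algebraMap Ω (AlgebraicClosure Ω)).injective
  rw [← IsScalarTower.algebraMap_apply, trace_eq_sum_embeddings (AlgebraicClosure Ω), map_sum]
  exact (Fintype.sum_bijective _ (bijective_toClosure_comp s hinj hcard) _ _
    (fun x => rfl)).symm

theorem charpoly_eq_prod [Infinite K] (s : X → (L →ₐ[K] Ω)) (hinj : Function.Injective s)
    (hcard : Fintype.card X = Module.finrank K L) (h : L) :
    (LinearMap.charpoly (Algebra.lmul K L h)).map (algebraMap K Ω) =
      ∏ x, (Polynomial.X - C (s x h)) := by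
  refine Polynomial.eq_of_infinite_eval_eq _ _ ?_
  refine Set.Infinite.mono ?_
    (Set.infinite_range_of_injective (FaithfulSMul.algebraMap_injective K Ω))
  rintro _ ⟨c, rfl⟩
  show eval _ _ = eval _ _
  rw [eval_map, eval₂_at_apply, LinearMap.eval_charpoly, eval_prod]
  have h1 : (algebraMap K (L →ₗ[K] L)) c - Algebra.lmul K L h =
      Algebra.lmul K L (algebraMap K L c - h) := by
    rw [map_sub]
    congr 1
    ext z
    simp [Algebra.smul_def]
  rw [h1, ← Algebra.norm_apply, norm_eq_prod s hinj hcard]
  refine Finset.prod_congr rfl fun x _ => ?_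
  rw [eval_sub, eval_X, eval_C, map_sub, AlgHom.commutes]

/-! ### Ring-hom form: embeddings given as ring homs agreeing on `K` -/

/-- A ring hom `L →+* Ω` which restricts to `algebraMap K Ω` on `K`, as a `K`-algebra hom. -/
def algHomOfRingHom (σ : L →+* Ω) (hσ : ∀ a : K, σ (algebraMap K L a) = algebraMap K Ω a) :
    L →ₐ[K] Ω :=
  { σ with commutes' := hσ }

@[simp] theorem algHomOfRingHom_apply (σ : L →+* Ω)
    (hσ : ∀ a : K, σ (algebraMap K L a) = algebraMap K Ω a) (h : L) :
    algHomOfRingHom σ hσ h = σ h := rfl

theorem norm_eq_prod_ringHom (s : X → (L →+* Ω))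
    (hs : ∀ x (a : K), s x (algebraMap K L a) = algebraMap K Ω a)
    (hinj : Function.Injective s) (hcard : Fintype.card X = Module.finrank K L) (h : L) :
    algebraMap K Ω (Algebra.norm K h) = ∏ x, s x h := by
  have := norm_eq_prod (fun x => algHomOfRingHom (s x) (hs x)) (fun x y hxy => hinj (by
    ext z
    exact DFunLike.congr_fun hxy z)) hcard h
  simpa using this

theorem trace_eq_sum_ringHom (s : X → (L →+* Ω))
    (hs : ∀ x (a : K), s x (algebraMap K L a) = algebraMap K Ω a)
    (hinj : Function.Injective s) (hcard : Fintype.card X = Module.finrank K L) (h : L) :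
    algebraMap K Ω (Algebra.trace K L h) = ∑ x, s x h := by
  have := trace_eq_sum (fun x => algHomOfRingHom (s x) (hs x)) (fun x y hxy => hinj (by
    ext z
    exact DFunLike.congr_fun hxy z)) hcard h
  simpa using this

theorem charpoly_eq_prod_ringHom [Infinite K] (s : X → (L →+* Ω))
    (hs : ∀ x (a : K), s x (algebraMap K L a) = algebraMap K Ω a)
    (hinj : Function.Injective s) (hcard : Fintype.card X = Module.finrank K L) (h : L) :
    (LinearMap.charpoly (Algebra.lmul K L h)).map (algebraMap K Ω) =
      ∏ x, (Polynomial.X - C (s x h)) := by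
  have := charpoly_eq_prod (fun x => algHomOfRingHom (s x) (hs x)) (fun x y hxy => hinj (by
    ext z
    exact DFunLike.congr_fun hxy z)) hcard h
  simpa using this

end Fermat.Agent.S30.Hecke.NormEmb
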