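import Mathlib
import Fermat.Agent.S30.Hecke.CosetSystem
import Fermat.Agent.S30.Hecke.CosetStar

/-!
# J-4-Phi, instantiated: `Φ` intertwines `heckeOperatorBar N r` and the operator of
`Γ₀(N) diag(r, 1) Γ₀(N)` on characters, for every prime `r`

* `isPhiOf_heckeU` (`r ∣ N`), `isPhiOf_heckeT` (`r ∤ N`): for helper18's coset data
  `CosetStar.cosetStarU`, `CosetStar.cosetStarT`;
* `starMul N r` : the operator on characters, by cases; **`isPhiOf_starMul`** the uniform statement.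
-/

set_option autoImplicit false
set_option linter.unusedSectionVars false
set_option linter.style.haveILetI false

noncomputable section

namespace Fermat.Agent.S30.Hecke.PhiEquivariantInst

open CongruenceSubgroup UpperHalfPlane ModularCurve AlgebraicCurve ModularForm
  Matrix.SpecialLinearGroup
open Fermat.Agent.S30.Hecke.DoubleCoset Fermat.Agent.S30.Hecke.Gamma0Cosets
  Fermat.Agent.S30.Hecke.CosetStar Fermat.Agent.S30.Hecke.CosetSystem Fermat.Agent.S30.Spec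

open scoped MatrixGroups ModularForm Manifold

local notation "Kb" => AlgebraicClosure ℚ

variable {N : ℕ} [NeZero N] (ι : Kb →+* ℂ)

/-- **J-4-Phi at `r ∣ N`.** -/
theorem isPhiOf_heckeU {r : ℕ} (hr : r.Prime) (hrN : r ∣ N) {x : JZero N}
    {ψ : Gamma0 N →* ℂˣ} (h : IsPhiOf N ι x ψ) :
    IsPhiOf N ι (heckeOperatorBar N ⟨r, hr⟩ x) ((cosetStarU hr hrN).heckeHomMul ψ) := by
  haveI : Nonempty (Fin r) := ⟨⟨0, hr.pos⟩⟩
  exact isPhiOf_hecke_of_sep ⟨r, hr⟩ ι (cosetStarU hr hrN)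
    (fun j => ((sStarU (N := N) r j : Gamma0 N) : SL(2, ℤ))) (fun j => (sStarU (N := N) r j).2)
    (fun j => cosetStarU_rep hr hrN j) (cosetStarU_sep hr hrN) h

/-- **J-4-Phi at `r ∤ N`.** -/
theorem isPhiOf_heckeT {r : ℕ} (hr : r.Prime) (hrN : ¬ r ∣ N) {x : JZero N}
    {ψ : Gamma0 N →* ℂˣ} (h : IsPhiOf N ι x ψ) :
    IsPhiOf N ι (heckeOperatorBar N ⟨r, hr⟩ x) ((cosetStarT hr hrN).heckeHomMul ψ) := by
  exact isPhiOf_hecke_of_sep ⟨r, hr⟩ ι (cosetStarT hr hrN)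
    (fun y => ((sStarT hr hrN y : Gamma0 N) : SL(2, ℤ))) (fun y => (sStarT hr hrN y).2)
    (fun y => cosetStarT_rep hr hrN y) (cosetStarT_sep hr hrN) h

variable (N) in
/-- The operator of `Γ₀(N) diag(r, 1) Γ₀(N)` on characters, for every prime `r`. -/
def starMul (r : Nat.Primes) : (Gamma0 N →* ℂˣ) → (Gamma0 N →* ℂˣ) :=
  if h : (r : ℕ) ∣ N then (cosetStarU r.2 h).heckeHomMul else (cosetStarT r.2 h).heckeHomMul

theorem starMul_of_dvd (r : Nat.Primes) (h : (r : ℕ) ∣ N) (ψ : Gamma0 N →* ℂˣ) :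
    starMul N r ψ = (cosetStarU r.2 h).heckeHomMul ψ := by
  unfold starMul
  rw [dif_pos h]

theorem starMul_of_not_dvd (r : Nat.Primes) (h : ¬ (r : ℕ) ∣ N) (ψ : Gamma0 N →* ℂˣ) :
    starMul N r ψ = (cosetStarT r.2 h).heckeHomMul ψ := by
  unfold starMul
  rw [dif_neg h]

/-- **J-4-Phi, uniform in `r`.** -/
theorem isPhiOf_starMul (r : Nat.Primes) (x : JZero N) (ψ : Gamma0 N →* ℂˣ)
    (h : IsPhiOf N ι x ψ) : IsPhiOf N ι (heckeOperatorBar N r x) (starMul N r ψ) := by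
  by_cases hrN : (r : ℕ) ∣ N
  · rw [starMul_of_dvd r hrN]
    exact isPhiOf_heckeU ι r.2 hrN h
  · rw [starMul_of_not_dvd r hrN]
    exact isPhiOf_heckeT ι r.2 hrN h

end Fermat.Agent.S30.Hecke.PhiEquivariantInst
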